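/-
Decomposition groups modulo inertia are generated by Frobenius, at every finite normal level.
-/
import Fermat.Agent.EC.Unramified
import Mathlib.FieldTheory.Finite.GaloisField

set_option autoImplicit false
set_option linter.style.haveILetI false

noncomputable section

namespace Fermat.Agent.LL.Mazur

open IsLocalRing
open Fermat.Agent.EC (ringOfIntegersToZBar exists_lift_inertia)
open Fermat.Agent.Galois
open scoped NumberField

local notation "Qb" => AlgebraicClosure ℚ

variable {A : ValuationSubring (AlgebraicClosure ℚ)}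

/-- The residue of an integer of a subfield. -/
def intRes (A : ValuationSubring (AlgebraicClosure ℚ)) (F : IntermediateField ℚ Qb) :
    𝓞 F →+* ResidueField A :=
  ((residue A).comp (zbarToPlace A)).comp (ringOfIntegersToZBar F)

theorem intRes_eq_iff (F : IntermediateField ℚ Qb) (a b : 𝓞 F) :
    intRes A F a = intRes A F b ↔
      ringOfIntegersToZBar F a - ringOfIntegersToZBar F b ∈ placeCenter A := by
  rw [intRes, RingHom.comp_apply, RingHom.comp_apply, RingHom.comp_apply, RingHom.comp_apply,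
    ← sub_eq_zero, ← map_sub, ← map_sub, residue_eq_zero_iff]
  rfl

theorem smul_intRes {g : GQ} (hg : g ∈ A.decompositionSubgroup ℚ) (F : IntermediateField ℚ Qb)
    [Normal ℚ F] (a : 𝓞 F) :
    intRes A F (AlgEquiv.restrictNormalHom F g • a) =
      (⟨g, hg⟩ : A.decompositionSubgroup ℚ) • intRes A F a := by
  show residue A _ = (⟨g, hg⟩ : A.decompositionSubgroup ℚ) • residue A _
  rw [← ResidueField.residue_smul]
  refine congrArg (residue A) (Subtype.ext ?_)
  exact AlgEquiv.restrictNormal_commutes g F (a : F)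

/-- Every element of the decomposition group is a power of Frobenius times inertia on a finite
normal field. -/
theorem exists_pow_inertia {q : ℕ} (hq : q.Prime) (hA : A.LiesOverPrime q) {σ : GQ}
    (hσ : A.IsFrobeniusAt σ q) (F : IntermediateField ℚ Qb) [FiniteDimensional ℚ F]
    [IsGalois ℚ F] {g : GQ} (hg : g ∈ A.decompositionSubgroup ℚ) :
    ∃ (n : ℕ) (t : GQ), t ∈ A.inertiaSubgroupIn ℚ ∧ ∀ x ∈ F, g x = (σ ^ n) (t x) := by
  classical
  haveI : Fact q.Prime := ⟨hq⟩
  haveI : NumberField F := ⟨⟩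
  have hd := hσ.mem_decompositionSubgroup
  set P : Ideal (𝓞 F) := RingHom.ker (intRes A F) with hP
  haveI : P.IsPrime := RingHom.ker_isPrime _
  have hqP : (q : 𝓞 F) ∈ P := by
    rw [hP, RingHom.mem_ker, ← map_zero (intRes A F), intRes_eq_iff, map_zero, sub_zero,
      map_natCast, ← Int.cast_natCast, intCast_mem_placeCenter hq hA]
  have hP0 : P ≠ ⊥ := fun h => hq.ne_zero (Nat.cast_eq_zero.mp
    (by rwa [h, Ideal.mem_bot] at hqP : (q : 𝓞 F) = 0))
  haveI : P.IsMaximal := Ideal.IsPrime.isMaximal inferInstance hP0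
  letI : Field (𝓞 F ⧸ P) := Ideal.Quotient.field P
  haveI : Finite (𝓞 F ⧸ P) := Ideal.finiteQuotientOfFreeOfNeBot P hP0
  haveI : CharP (𝓞 F ⧸ P) q := (CharP.charP_iff_prime_eq_zero hq).2 (by
    rw [← map_natCast (Ideal.Quotient.mk P), Ideal.Quotient.eq_zero_iff_mem]
    exact hqP)
  letI : Algebra (ZMod q) (𝓞 F ⧸ P) := ZMod.algebra _ _
  set τ := AlgEquiv.restrictNormalHom F g
  have hpres : ∀ a ∈ P, MulSemiringAction.toRingHom (F ≃ₐ[ℚ] F) (𝓞 F) τ a ∈ P := fun a ha => by
    rw [hP, RingHom.mem_ker] at ha ⊢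
    show intRes A F (τ • a) = 0
    rw [smul_intRes hg, ha, smul_zero]
  let T : (𝓞 F ⧸ P) ≃ₐ[ZMod q] (𝓞 F ⧸ P) :=
    AlgEquiv.ofBijective
      ({ Ideal.quotientMap P (MulSemiringAction.toRingHom (F ≃ₐ[ℚ] F) (𝓞 F) τ) hpres with
          commutes' := fun r => by
            obtain ⟨n, rfl⟩ := ZMod.intCast_surjective r
            simp } : (𝓞 F ⧸ P) →ₐ[ZMod q] (𝓞 F ⧸ P))
      (Finite.injective_iff_bijective.1 (RingHom.injective
        (Ideal.quotientMap P (MulSemiringAction.toRingHom (F ≃ₐ[ℚ] F) (𝓞 F) τ) hpres)))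
  obtain ⟨⟨n, hn'⟩, hn⟩ :=
    (FiniteField.bijective_frobeniusAlgEquivOfAlgebraic_pow (ZMod q) (𝓞 F ⧸ P)).2 T
  have hres : ∀ a : 𝓞 F, intRes A F (τ • a) = intRes A F a ^ q ^ n := fun a => by
    have h1 := DFunLike.congr_fun hn (Ideal.Quotient.mk P a)
    simp only [AlgEquiv.coe_pow, FiniteField.coe_frobeniusAlgEquivOfAlgebraic_iterate,
      ZMod.card] at h1
    have h2 : Ideal.Quotient.mk P (τ • a) = Ideal.Quotient.mk P (a ^ q ^ n) := h1.symm
    rw [Ideal.Quotient.eq, hP, RingHom.mem_ker, map_sub, sub_eq_zero, map_pow] at h2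
    exact h2
  have hpow : ∀ (k : ℕ) (x : ResidueField A),
      (⟨σ, hd⟩ : A.decompositionSubgroup ℚ) ^ k • x = x ^ q ^ k := fun k => by
    induction k with
    | zero => intro x; simp
    | succ k ih =>
      intro x
      rw [pow_succ', mul_smul, ih, pow_succ, pow_mul]
      exact hσ.2 _
  set ρ := AlgEquiv.restrictNormalHom F ((σ ^ n)⁻¹ * g) with hρ
  obtain ⟨t, ht, hte⟩ := exists_lift_inertia F hq hA ρ fun a => by
    rw [← intRes_eq_iff, hρ, smul_intRes (mul_mem (inv_mem (pow_mem hd n)) hg)]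
    show (((⟨σ, hd⟩ : A.decompositionSubgroup ℚ) ^ n)⁻¹ * (⟨g, hg⟩ : A.decompositionSubgroup ℚ)) •
      intRes A F a = _
    rw [mul_smul, inv_smul_eq_iff, hpow, ← smul_intRes hg, hres]
  refine ⟨n, t, ht, fun x hx => ?_⟩
  have h1 := AlgEquiv.restrictNormal_commutes t F (⟨x, hx⟩ : F)
  have h2 := AlgEquiv.restrictNormal_commutes ((σ ^ n)⁻¹ * g) F (⟨x, hx⟩ : F)
  have h3 : t x = ((σ ^ n)⁻¹ * g) x :=
    h1.symm.trans ((congrArg (fun e : F ≃ₐ[ℚ] F => algebraMap F Qb (e ⟨x, hx⟩)) hte).trans h2)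
  rw [h3, ← AlgEquiv.mul_apply, mul_inv_cancel_left]

end Fermat.Agent.LL.Mazur
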