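/-
For `p ≥ 5`, parabolic characters modulo `p` lift to integral ones.
-/
import Fermat.Agent.MCurve.MW.Main
import Fermat.Agent.MCurve.T27.Assemble
import Fermat.Agent.MCurve.Differential

set_option autoImplicit false
set_option linter.style.haveILetI false
set_option linter.unusedSectionVars false
set_option maxHeartbeats 800000

noncomputable section

namespace Fermat.Agent.LL.Mazur

open AlgebraicCurve ModularCurve CongruenceSubgroup IntermediateField
open Fermat.Agent.GalRep (ParHom parMap)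
open Fermat.Agent.MCurve
open scoped MatrixGroups

local notation "Q̄" => AlgebraicClosure ℚ
local notation "ZM" => Matrix (Fin 2) (Fin 2) ℤ

/-- Cayley–Hamilton in `SL(2, ℤ)`. -/
theorem mul_self_eq_trace (A : ZM) (hd : A.det = 1) : A * A = A.trace • A - 1 := by
  rw [Matrix.det_fin_two] at hd
  ext i j
  fin_cases i <;> fin_cases j <;>
    simp only [Matrix.sub_apply, Matrix.smul_apply, Matrix.mul_apply, Fin.sum_univ_two,
      Matrix.trace_fin_two, Matrix.one_apply, smul_eq_mul] <;>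
    simp <;>
    first | ring1 | linear_combination hd | linear_combination (-1 : ℤ) * hd

/-- An element of finite order is parabolic, or its twelfth power is trivial. -/
theorem trace_sq_or_pow_twelve (A : ZM) (hd : A.det = 1) {k : ℕ} (hk : 0 < k) (h : A ^ k = 1) :
    A.trace ^ 2 = 4 ∨ A ^ 12 = 1 := by
  have hch := mul_self_eq_trace A hd
  by_cases h4 : A.trace ^ 2 = 4
  · exact Or.inl h4
  right
  by_cases h3 : 3 ≤ |A.trace|
  · exfalso
    have key : ∀ n : ℕ, |(A ^ n).trace| < |(A ^ (n + 1)).trace| := by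
      intro n
      induction n with
      | zero =>
        rw [pow_zero, zero_add, pow_one, Matrix.trace_fin_two (1 : ZM)]
        simp
        omega
      | succ n ih =>
        have e : A ^ (n + 1 + 1) = A.trace • A ^ (n + 1) - A ^ n := by
          rw [pow_succ, pow_succ, mul_assoc, hch, mul_sub, mul_smul_comm, mul_one]
        rw [e, Matrix.trace_sub, Matrix.trace_smul, smul_eq_mul]
        have h1 := abs_sub_abs_le_abs_sub (A.trace * (A ^ (n + 1)).trace) (A ^ n).trace
        rw [abs_mul] at h1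
        nlinarith [abs_nonneg (A ^ (n + 1)).trace, abs_nonneg (A ^ n).trace]
    have hmono : StrictMono fun n => |(A ^ n).trace| := strictMono_nat_of_lt_succ key
    have h2 : |(A ^ 0).trace| < |(A ^ k).trace| := hmono hk
    rw [h, pow_zero] at h2
    exact lt_irrefl _ h2
  have hb := abs_lt.mp (lt_of_not_ge h3)
  have ht : A.trace = -1 ∨ A.trace = 0 ∨ A.trace = 1 := by
    have : A.trace ≠ 2 ∧ A.trace ≠ -2 := ⟨fun e => h4 (by rw [e]; rfl), fun e => h4 (by rw [e]; rfl)⟩
    omega
  rcases ht with ht | ht | ht <;> rw [ht] at hch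
  · have h3 : A ^ 3 = 1 := by
      rw [pow_succ, pow_two, hch]
      simp [sub_mul, hch]
    rw [show (12 : ℕ) = 3 * 4 from rfl, pow_mul, h3, one_pow]
  · have h2 : A ^ 2 = -1 := by rw [pow_two, hch]; simp
    rw [show (12 : ℕ) = 2 * 6 from rfl, pow_mul, h2, Even.neg_one_pow ⟨3, rfl⟩]
  · have h3 : A ^ 3 = -1 := by
      rw [pow_succ, pow_two, hch]
      simp [sub_mul, hch]
    rw [show (12 : ℕ) = 3 * 4 from rfl, pow_mul, h3, Even.neg_one_pow ⟨2, rfl⟩]

/-- For `p ≥ 5` every parabolic character modulo `p` kills the torsion. -/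
theorem noTors_of_five_le {m p : ℕ} [Fact p.Prime] (hp5 : 5 ≤ p) (χ : ParHom m (ZMod p)) :
    Flat.NoTors χ := by
  intro γ hγ
  obtain ⟨k, hk, hk1⟩ := isOfFinOrder_iff_pow_eq_one.mp hγ
  set A : ZM := ((γ : SL(2, ℤ)) : ZM) with hA
  have hAk : A ^ k = 1 := by
    have := congrArg (fun g : Gamma0 m => ((g : SL(2, ℤ)) : ZM)) hk1
    simpa [hA] using this
  rcases trace_sq_or_pow_twelve A (γ : SL(2, ℤ)).2 hk hAk with h | h
  · exact χ.2 γ h
  · have h12 : γ ^ 12 = 1 := Subtype.ext (Subtype.ext (by simpa [hA] using h))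
    have h0 : (12 : ℕ) • (χ : Additive (Gamma0 m) →+ ZMod p) (Additive.ofMul γ) = 0 := by
      rw [← map_nsmul, ← ofMul_pow, h12, ofMul_one, map_zero]
    rw [nsmul_eq_mul] at h0
    refine (mul_eq_zero.mp h0).resolve_left fun h' => ?_
    have hd : p ∣ 12 := (ZMod.natCast_eq_zero_iff _ _).mp h'
    have hle : p ≤ 12 := Nat.le_of_dvd (by norm_num) hd
    have hp := (Fact.out : p.Prime)
    interval_cases p <;> norm_num at *

variable (m : ℕ) [NeZero m]

/-- The torsion of `J₀(m)` at a prime is at most `p ^ (2 dim S₂)`. -/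
theorem card_torsionBy_le {p : ℕ} (hp : p.Prime) :
    Nat.card (Submodule.torsionBy ℤ (JZero m) (p : ℤ)) ≤
      p ^ (2 * Module.finrank ℂ (CuspForm (Gamma0 m) 2)) := by
  classical
  have hx := MW.isFinOver_jBar m
  obtain ⟨h1, h2, h3⟩ := RR.curve_props hx
  haveI := h1
  haveI := h2
  haveI := h3
  haveI : IsCurveOver Q̄ (modularFunctionFieldBar m) := hx.isCurveOver
  haveI := hx.finite
  haveI : Algebra.EssFiniteType Q̄ Q̄⟮jBar m Q̄⟯ :=
    IntermediateField.essFiniteType_iff.mpr ⟨{jBar m Q̄}, by simp⟩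
  haveI : Algebra.EssFiniteType Q̄ (modularFunctionFieldBar m) :=
    Algebra.EssFiniteType.comp Q̄ Q̄⟮jBar m Q̄⟯ _
  obtain ⟨inf⟩ := h3
  obtain ⟨X, -⟩ := T27.exists_setup_large hx
  have hg : genusFF Q̄ (modularFunctionFieldBar m) ≤ Module.finrank ℂ (CuspForm (Gamma0 m) 2) :=
    (T27.genusFF_eq X).trans_le (MW.genus_le_finrank_cuspForm m X.hR)
  have h := T27.card_torsion_eq Q̄ (modularFunctionFieldBar m) hp 1
  rw [pow_one, mul_one] at h
  let e : {t : JZero m // p • t = 0} ≃ Submodule.torsionBy ℤ (JZero m) (p : ℤ) :=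
    Equiv.subtypeEquivRight fun t => by rw [Submodule.mem_torsionBy_iff, natCast_zsmul]
  rw [← Nat.card_congr e]
  exact h.trans_le (Nat.pow_le_pow_right hp.pos (by omega))

/-- **Integral lifts of characters modulo `p`.** -/
theorem exists_int_lift {p : ℕ} [Fact p.Prime] (hp5 : 5 ≤ p) (χ : ParHom m (ZMod p)) :
    ∃ φ : ParHom m ℤ, parMap (Int.castAddHom (ZMod p)) φ = χ := by
  classical
  have hp : p.Prime := Fact.out
  haveI : NeZero p := ⟨hp.ne_zero⟩
  haveI := Flat.finite_torsionBy m p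
  set r := Module.finrank ℤ (ParHom m ℤ)
  let b := Module.finBasis ℤ (ParHom m ℤ)
  let s : (Fin r → Fin p) → ParHom m ℤ := fun t => ∑ i, ((t i : ℕ) : ℤ) • b i
  let c : (Fin r → Fin p) → Submodule.torsionBy ℤ (JZero m) (p : ℤ) := fun t =>
    (Flat.exists_kummerMap_eq m (Flat.noTors_parMap m (Int.castAddHom (ZMod p)) (s t))).choose
  have hc : ∀ t, Flat.kummerMap m p (c t) = parMap (Int.castAddHom (ZMod p)) (s t) := fun t =>
    (Flat.exists_kummerMap_eq m (Flat.noTors_parMap m (Int.castAddHom (ZMod p)) (s t))).choose_spec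
  have hinj : Function.Injective c := fun u v huv => by
    have h1 := (hc u).symm.trans ((congrArg (Flat.kummerMap m p) huv).trans (hc v))
    rw [← sub_eq_zero, ← map_sub, ← Finset.sum_sub_distrib] at h1
    simp only [← sub_smul] at h1
    set φ : ParHom m ℤ := ∑ i, (((u i : ℕ) : ℤ) - ((v i : ℕ) : ℤ)) • b i
    have hdiv : ∀ x, (p : ℤ) ∣ (φ : Additive (Gamma0 m) →+ ℤ) x := fun x => by
      have h2 := DFunLike.congr_fun (congrArg Subtype.val h1) x
      rw [GalRep.parMap_apply] at h2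
      exact (ZMod.intCast_zmod_eq_zero_iff_dvd _ _).mp h2
    let ψ : ParHom m ℤ := ⟨AddMonoidHom.mk' (fun x => (φ : Additive (Gamma0 m) →+ ℤ) x / p)
      (fun x y => by rw [map_add, Int.add_ediv_of_dvd_left (hdiv x)]), fun γ hγ => by
        show (φ : Additive (Gamma0 m) →+ ℤ) (Additive.ofMul γ) / p = 0
        rw [φ.2 γ hγ, Int.zero_ediv]⟩
    have hφ : φ = (p : ℤ) • ψ := Subtype.ext (AddMonoidHom.ext fun x => by
      show _ = (p : ℤ) * ((φ : Additive (Gamma0 m) →+ ℤ) x / p)
      rw [Int.mul_ediv_cancel' (hdiv x)])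
    funext i
    have h3 := congrArg (fun θ => b.repr θ i) hφ
    simp only [φ, map_smul, Finsupp.smul_apply, smul_eq_mul] at h3
    rw [b.repr_sum_self] at h3
    have h4 : (p : ℤ) ∣ ((u i : ℕ) : ℤ) - ((v i : ℕ) : ℤ) := ⟨_, h3⟩
    apply Fin.ext
    have := (u i).isLt
    have := (v i).isLt
    have h5 := Int.eq_zero_of_abs_lt_dvd h4 (by rw [abs_lt]; omega)
    omega
  have hcard : Nat.card (Submodule.torsionBy ℤ (JZero m) (p : ℤ)) ≤ Nat.card (Fin r → Fin p) :=
    calc _ ≤ p ^ (2 * Module.finrank ℂ (CuspForm (Gamma0 m) 2)) := card_torsionBy_le m hp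
      _ ≤ p ^ r := Nat.pow_le_pow_right hp.pos (Flat.two_mul_finrank_le_parHom m)
      _ = _ := by simp
  have hbij : Function.Bijective c := hinj.bijective_of_nat_card_le hcard
  obtain ⟨z, hz⟩ := Flat.exists_kummerMap_eq m (noTors_of_five_le hp5 χ)
  obtain ⟨t, rfl⟩ := hbij.2 z
  exact ⟨s t, (hc t).symm.trans hz⟩

end Fermat.Agent.LL.Mazur
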