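/-
An eigenclass modulo `p` gives a character of the Hecke algebra on cusp forms.
-/
import Fermat.Agent.GalRep.Wild.Eigen
import Fermat.Agent.GalRep.Semistable.Killer
import Fermat.Agent.MCurve.MW.Main
import Fermat.Agent.NewVec.Hecke
import Fermat.Agent.Auto.Level.Hom
import Fermat.Agent.LL.Mazur.LiftInt

set_option autoImplicit false
set_option linter.style.haveILetI false
set_option linter.unusedSectionVars false

noncomputable section

namespace Fermat.Agent.LL.Mazur

open CongruenceSubgroup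
open Fermat.Agent.GalRep

/-- Factor through a surjection. -/
theorem exists_factor_surjective {A B C : Type*} [CommRing A] [CommRing B] [CommRing C]
    (f : A →+* B) (hf : Function.Surjective f) (g : A →+* C)
    (h : ∀ x, f x = 0 → g x = 0) : ∃ θ : B →+* C, ∀ x, θ (f x) = g x :=
  ⟨f.liftOfSurjective hf ⟨g, fun x hx => h x hx⟩,
    fun x => RingHom.liftOfRightInverse_comp_apply _ _ _ _ x⟩

/-- A nonzero eigenclass of `ParHom m (ZMod p)`, `p ≥ 5`, gives a character. -/
theorem exists_theta_of_eigen {m p : ℕ} [NeZero m] [Fact p.Prime] [NeZero p] (hp5 : 5 ≤ p)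
    (S : Finset ℕ) (hmS : ∀ r : ℕ, r.Prime → r ∣ m → r ∈ S) (a : ℕ → ℤ)
    {χ : ParHom m (ZMod p)} (h0 : χ ≠ 0)
    (heig : ∀ l : GoodPrime m, (l : ℕ) ∉ S → heckeHomAt l χ = a (l : ℕ) • χ) :
    ∃ θ : CuspForm.heckeAlgebra m 2 (↑S : Set ℕ) →+* ZMod p,
      ∀ (ℓ : ℕ) (hℓ : ℓ.Prime) (hℓm : ¬ ℓ ∣ m) (hℓS : ℓ ∉ (↑S : Set ℕ)),
        θ (CuspForm.heckeAlgebra.T hℓ hℓm hℓS) = (a ℓ : ZMod p) := by
  classical
  let ev : MvPolynomial (GoodPrimeOff m (↑S : Set ℕ)) ℤ →ₐ[ℤ] ZMod p :=
    MvPolynomial.aeval fun i => ((a ((i.1 : GoodPrime m) : ℕ) : ℤ) : ZMod p)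
  -- the action on the eigenclass
  have hact : ∀ P : MvPolynomial (GoodPrimeOff m (↑S : Set ℕ)) ℤ,
      heckePolyHom m (ZMod p) (MvPolynomial.rename Subtype.val P) χ = (ev P).val • χ := by
    intro P
    refine Subtype.ext (AddMonoidHom.ext fun x => ?_)
    rw [Submodule.coe_smul_of_tower, AddMonoidHom.smul_apply, nsmul_eq_mul, ZMod.natCast_zmod_val]
    induction P using MvPolynomial.induction_on generalizing x with
    | C c =>
      rw [MvPolynomial.rename_C, ← MvPolynomial.algebraMap_eq, ← MvPolynomial.algebraMap_eq,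
        AlgHom.commutes, AlgHom.commutes, Algebra.algebraMap_eq_smul_one, LinearMap.smul_apply,
        Module.End.one_apply, Submodule.coe_smul_of_tower, AddMonoidHom.smul_apply, zsmul_eq_mul]
      rfl
    | add P Q hP hQ =>
      rw [map_add, map_add, LinearMap.add_apply, Submodule.coe_add, AddMonoidHom.add_apply, hP x,
        hQ x, map_add, add_mul]
    | mul_X P i hP =>
      rw [map_mul, map_mul, Module.End.mul_apply, MvPolynomial.rename_X, heckePolyHom_X,
        heig i.1 (fun h => i.2 h), map_zsmul, Submodule.coe_smul_of_tower,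
        AddMonoidHom.smul_apply, hP x, zsmul_eq_mul, map_mul]
      simp only [ev, MvPolynomial.aeval_X]
      ring
  obtain ⟨φ, hφ⟩ := exists_int_lift m hp5 χ
  -- the relations of the Hecke algebra hold for the eigenvalues
  have hker : ∀ P, evFormsOff (N := m) (↑S : Set ℕ) P = 0 → ev P = 0 := by
    intro P hP
    have h1 : evForms m (MvPolynomial.rename Subtype.val P) = 0 := by
      have e := coe_evFormsOff (N := m) (↑S : Set ℕ) P
      rw [hP, ZeroMemClass.coe_zero] at e
      exact ZeroMemClass.coe_eq_zero.mp e.symm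
    have h2 : heckePolyHom m ℤ (MvPolynomial.rename Subtype.val P) = 0 :=
      NewVec.heckePoly_eq_zero_of_forms h1
    have h3 := hact P
    rw [← hφ, heckePolyHom_natural, h2, LinearMap.zero_apply, map_zero, hφ] at h3
    by_contra hne
    refine h0 (Subtype.ext (AddMonoidHom.ext fun x => ?_))
    have h4 := DFunLike.congr_fun (congrArg Subtype.val h3.symm) x
    rw [Submodule.coe_smul_of_tower, AddMonoidHom.smul_apply, nsmul_eq_mul,
      ZMod.natCast_zmod_val] at h4
    exact (mul_eq_zero.mp h4).resolve_left hne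
  obtain ⟨θ, hθ⟩ := exists_factor_surjective
    (evFormsOff (N := m) (↑S : Set ℕ) : _ →ₐ[ℤ] _).toRingHom
    (Auto.evFormsOff_surjective m (↑S : Set ℕ) fun r hr hrm => hmS r hr hrm) ev.toRingHom
    fun P hP => hker P hP
  refine ⟨θ, fun ℓ hℓ hℓm hℓS => ?_⟩
  let i : GoodPrimeOff m (↑S : Set ℕ) := ⟨⟨⟨ℓ, hℓ⟩, hℓm⟩, hℓS⟩
  have hX : evFormsOff (N := m) (↑S : Set ℕ) (MvPolynomial.X i) =
      CuspForm.heckeAlgebra.T hℓ hℓm hℓS := by simp [evFormsOff, i]
  have hev : ev (MvPolynomial.X i) = (a ℓ : ZMod p) := by simp [ev, i]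
  rw [← hX, ← hev]
  exact hθ (MvPolynomial.X i)

end Fermat.Agent.LL.Mazur
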