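/-
The involution and translations on the field of level `Γ₀(q) ∩ Γ(m)` over the unramified constants,
and their composites with Frobenius.
-/
import Fermat.Agent.Models.Gamma0.OrdFrob
import Fermat.Agent.Models.Gamma0.Constants
import Fermat.Agent.Models.Gamma0.CuspGroup
import Fermat.Agent.Models.Gamma0.TwoComps
import Fermat.Agent.GalRep.Semistable.BadCongr
import Fermat.Agent.GalRep.Wild.RedComp

set_option autoImplicit false
set_option linter.style.haveILetI false
set_option linter.unusedSectionVars false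

noncomputable section

namespace Fermat.Agent.LL.Mazur

open CongruenceSubgroup IsLocalRing
open Fermat.Agent.GalRep
open Fermat.Agent.GalRep.Level
open Fermat.Agent.GalRep.Model (chartRing)
open Fermat.Agent.ModField
open Fermat.Agent.Models (IsPoint SemiPoints)
open scoped MatrixGroups

theorem mem_iff_inv_notMem_nonunits {K : Type} [Field K] (V : ValuationSubring K) (x : K) :
    x ∈ V ↔ x = 0 ∨ x⁻¹ ∉ V.nonunits := by
  rcases eq_or_ne x 0 with rfl | hx
  · exact iff_of_true V.zero_mem (Or.inl rfl)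
  have hv : (0 : V.ValueGroup) < V.valuation x := zero_lt_iff.mpr ((_root_.map_ne_zero _).mpr hx)
  rw [or_iff_right hx, ← V.valuation_le_one_iff, V.mem_nonunits_iff, not_lt, map_inv₀,
    one_le_inv₀ hv]

theorem coe_of_eq_mk {α : Type*} {p : α → Prop} {s : Subtype p} {a : α} {h : p a}
    (e : s = ⟨a, h⟩) : s.val = a := by
  subst e
  exact Eq.refl _

variable {W : Type} [CommRing W] [IsDomain W] [IsDiscreteValuationRing W]
  {O : Type} [CommRing O] [IsDomain O] [IsDiscreteValuationRing O] [Algebra W O] [Module.Finite W O]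
  [FaithfulSMul W O]
  {M : ℕ} [NeZero M] {E : Emb O M} {q m : ℕ} [hq : Fact q.Prime] [NeZero q] [NeZero m]
  [Algebra W (Fld E)] [IsScalarTower W O (Fld E)]

/-- The descended field inside the level field. -/
def toO : Fld₀ W E q m →+* Fld₀ O E q m where
  toFun x := ⟨(x : Fld E), mem_fld₀_self_iff.mpr (mem_levelFld.mp x.2).1⟩
  map_one' := Subtype.ext (Subfield.coe_one _)
  map_zero' := Subtype.ext (Subfield.coe_zero _)
  map_add' x y := Subtype.ext (Subfield.coe_add _ x y)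
  map_mul' x y := Subtype.ext (Subfield.coe_mul _ x y)

@[simp] theorem coe_toO (x : Fld₀ W E q m) : ((toO x : Fld₀ O E q m) : Fld E) = x :=
  coe_of_eq_mk (h := mem_fld₀_self_iff.mpr (mem_levelFld.mp x.2).1) rfl

theorem mem_nonunits_compW {π : O} (hπ : Irreducible π) (δ : SL(2, ℤ)) (x : Fld₀ W E q m) :
    x ∈ (comp (W := W) hπ δ).nonunits ↔ fShift E δ (x : Fld E) ∈ (gaussP E hπ 1).nonunits := by
  rw [comp, mem_nonunits_comap, mem_nonunits_gaussP, mem_nonunits_gaussP, serAt_fShift, mul_one]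
  rfl

theorem mem_chartW_iff {x : Fld₀ W E q m} :
    x ∈ chartRing W (jF₀ W E q m) ↔ (x : Fld E) ∈ chartRing O (jF E) := by
  haveI : Algebra.IsIntegral W O := Algebra.IsIntegral.of_finite W O
  exact mem_chart₀_iff'

variable (hmax : maximalIdeal W = Ideal.span {(q : W)}) (hgen : Algebra.adjoin W {E.ζ} = ⊤)
  (hζ : ∃ c : W, algebraMap W O c = E.ζ ^ q) (hM : M = q * m) (hqm : ¬ q ∣ m)

include hζ hM in
/-- Translations by elements with an entry of the lower row divisible by `q` commute with the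
automorphisms of the constants over the base. -/
theorem fConj_fShift_self {σ : stabK E} (hσ : ∀ c ∈ baseK W E, σ.1 c = c) {g : SL(2, ℤ)}
    (hg : (q : ℤ) ∣ g 1 0 * g 1 1) (x : Fld₀ W E q m) :
    fConj E σ (fShift E g (x : Fld E)) = fShift E g (x : Fld E) := by
  have hx : fConj E σ (x : Fld E) = x := fConj_eq_self σ hσ x.2
  obtain ⟨g₀, hg₀⟩ := exists_conjEq_symm (cycC M σ.1) g
  have hmM : m ∣ M := Dvd.intro_left q hM.symm
  have hqM : q ∣ M := Dvd.intro m hM.symm
  have hone : Units.map (ZMod.castHom hmM (ZMod m)).toMonoidHom (cycC M σ.1) = 1 := by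
    refine Units.ext ?_
    obtain ⟨k, hk⟩ := cast_cycC (m := m) hM hζ hσ
    have e := congrArg (Int.cast : ℤ → ZMod m) hk
    push_cast at e
    rw [ZMod.natCast_self, zero_mul, sub_eq_zero, ZMod.natCast_val] at e
    show ZMod.castHom hmM (ZMod m) (cycC M σ.1 : ZMod M) = 1
    rw [ZMod.castHom_apply]
    exact e
  have key : g * g₀⁻¹ ∈ levelG q m := by
    refine mem_levelG.mpr ⟨(mul_inv_mem_gamma0_iff _ _).mpr ?_, ?_⟩
    · obtain ⟨-, -, h10, h11⟩ := conjEq_iff.mp (conjEq_of_dvd hqM hg₀).symm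
      rw [← ZMod.intCast_zmod_eq_zero_iff_dvd] at hg ⊢
      push_cast at hg ⊢
      rw [h10, h11]
      linear_combination (1 - ((((Units.map (ZMod.castHom hqM (ZMod q)).toMonoidHom
        (cycC M σ.1))⁻¹)⁻¹ : (ZMod q)ˣ) : ZMod q)) * hg
    · have h1 := conjEq_of_dvd hmM hg₀
      rw [hone, ConjEq, conjA_one] at h1
      rw [Gamma_mem']
      show red m (g * g₀⁻¹) = 1
      rw [map_mul, map_inv, h1, mul_inv_cancel]
  have e := fShift_coset (toO x) key
  rw [coe_toO] at e
  conv_lhs => rw [e, fConj_fShift E σ hg₀, hx]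

include hmax hgen hζ hM hqm in
theorem mem_W_of_fixed (y : Fld₀ O E q m)
    (h : ∀ σ : stabK E, (∀ c ∈ baseK W E, σ.1 c = c) → fConj E σ (y : Fld E) = y) :
    (y : Fld E) ∈ Fld₀ W E q m :=
  mem_fld₀_of_fixed hmax (FaithfulSMul.algebraMap_injective W O) hgen hζ hM hqm
    (fun _ hg => fld₀_fixed y hg) h

include hmax hgen hζ hM hqm in
theorem fShift_memW {γ : SL(2, ℤ)} (hγ : γ ∈ Gamma0 q) (x : Fld₀ W E q m) :
    fShift E γ (x : Fld E) ∈ Fld₀ W E q m := by
  have hq10 : (q : ℤ) ∣ γ 1 0 * γ 1 1 :=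
    Dvd.dvd.mul_right ((ZMod.intCast_zmod_eq_zero_iff_dvd _ q).mp (Gamma0_mem.mp hγ)) _
  have h := mem_W_of_fixed hmax hgen hζ hM hqm (shiftOp hγ (toO x)) fun τ hτ => by
    rw [coe_shiftOp, coe_toO]
    exact fConj_fShift_self hζ hM hτ hq10 x
  rw [coe_shiftOp, coe_toO] at h
  exact h

/-- A translation normalising the level, over the base. -/
def shiftW {γ : SL(2, ℤ)} (hγ : γ ∈ Gamma0 q) : Fld₀ W E q m ≃+* Fld₀ W E q m where
  toFun x := ⟨fShift E γ (x : Fld E), fShift_memW hmax hgen hζ hM hqm hγ x⟩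
  invFun x := ⟨fShift E γ⁻¹ (x : Fld E), fShift_memW hmax hgen hζ hM hqm (inv_mem hγ) x⟩
  left_inv x := Subtype.ext (by
    show fShift E γ⁻¹ (fShift E γ (x : Fld E)) = _
    rw [fShift_fShift, mul_inv_cancel, fShift_one])
  right_inv x := Subtype.ext (by
    show fShift E γ (fShift E γ⁻¹ (x : Fld E)) = _
    rw [fShift_fShift, inv_mul_cancel, fShift_one])
  map_mul' x y := Subtype.ext (map_mul (fShift E γ) _ _)
  map_add' x y := Subtype.ext (map_add (fShift E γ) _ _)

theorem coe_shiftW {γ : SL(2, ℤ)} (hγ : γ ∈ Gamma0 q) (x : Fld₀ W E q m) :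
    (shiftW hmax hgen hζ hM hqm hγ x : Fld E) = fShift E γ (x : Fld E) :=
  coe_of_eq_mk (h := fShift_memW hmax hgen hζ hM hqm hγ x) rfl

theorem coe_shiftW_symm {γ : SL(2, ℤ)} (hγ : γ ∈ Gamma0 q) (x : Fld₀ W E q m) :
    ((shiftW hmax hgen hζ hM hqm hγ).symm x : Fld E) = fShift E γ⁻¹ (x : Fld E) :=
  coe_of_eq_mk (h := fShift_memW hmax hgen hζ hM hqm (inv_mem hγ) x) rfl

theorem shiftW_algebraMap {γ : SL(2, ℤ)} (hγ : γ ∈ Gamma0 q) (a : W) :
    shiftW hmax hgen hζ hM hqm hγ (algebraMap W _ a) = algebraMap W _ a :=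
  Subtype.ext (by
    rw [coe_shiftW, coe_algebraMap_fld₀, IsScalarTower.algebraMap_apply W O (Fld E),
      fShift_algebraMap])

variable {g : SL(2, ℤ)} (hg : g 1 0 = (m : ℤ) ∧ g 1 1 = (q : ℤ))

include hmax hgen hζ hM hqm hg in
theorem wOp_memW (x : Fld₀ W E q m) :
    (wOp hM hqm hg (toO x) : Fld E) ∈ Fld₀ W E q m := by
  refine mem_W_of_fixed hmax hgen hζ hM hqm _ fun σ hσ => toLS_injective E ?_
  rw [toLS_fConj, toLS_wOp, coe_toO, lmap_expand, ← toLS_fConj,
    fConj_fShift_self hζ hM hσ (Dvd.dvd.mul_left (hg.2 ▸ dvd_refl _) _) x]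

/-- The involution over the base. -/
def wHomW : Fld₀ W E q m →+* Fld₀ W E q m where
  toFun x := ⟨(wOp hM hqm hg (toO x) : Fld E), wOp_memW hmax hgen hζ hM hqm hg x⟩
  map_one' := Subtype.ext (by
    dsimp only
    rw [map_one, map_one, Subfield.coe_one, Subfield.coe_one])
  map_zero' := Subtype.ext (by
    dsimp only
    rw [map_zero, map_zero, Subfield.coe_zero, Subfield.coe_zero])
  map_add' x y := Subtype.ext (by
    dsimp only
    rw [map_add, map_add, Subfield.coe_add, Subfield.coe_add])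
  map_mul' x y := Subtype.ext (by
    dsimp only
    rw [map_mul, map_mul, Subfield.coe_mul, Subfield.coe_mul])

theorem coe_wHomW (x : Fld₀ W E q m) :
    (wHomW hmax hgen hζ hM hqm hg x : Fld E) = wOp hM hqm hg (toO x) :=
  coe_of_eq_mk (h := wOp_memW hmax hgen hζ hM hqm hg x) rfl

theorem wHomW_wHomW (x : Fld₀ W E q m) :
    wHomW hmax hgen hζ hM hqm hg (wHomW hmax hgen hζ hM hqm hg x) =
      shiftW hmax hgen hζ hM hqm (alSq_mem hg) x := by
  refine Subtype.ext ?_
  rw [coe_wHomW, coe_shiftW, show toO (wHomW hmax hgen hζ hM hqm hg x) = wOp hM hqm hg (toO x)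
    from Subtype.ext ((coe_toO _).trans (coe_wHomW hmax hgen hζ hM hqm hg x)), wOp_wOp,
    coe_shiftOp, coe_toO]

/-- The involution, as an automorphism. -/
def wW : Fld₀ W E q m ≃+* Fld₀ W E q m :=
  RingEquiv.ofBijective (wHomW hmax hgen hζ hM hqm hg)
    ⟨(wHomW hmax hgen hζ hM hqm hg).injective, fun y =>
      ⟨wHomW hmax hgen hζ hM hqm hg ((shiftW hmax hgen hζ hM hqm (alSq_mem hg)).symm y), by
        rw [wHomW_wHomW, RingEquiv.apply_symm_apply]⟩⟩

theorem coe_wW (x : Fld₀ W E q m) :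
    (wW hmax hgen hζ hM hqm hg x : Fld E) = wOp hM hqm hg (toO x) :=
  coe_of_eq_mk (h := wOp_memW hmax hgen hζ hM hqm hg x) rfl

theorem wW_wW (x : Fld₀ W E q m) :
    wW hmax hgen hζ hM hqm hg (wW hmax hgen hζ hM hqm hg x) =
      shiftW hmax hgen hζ hM hqm (alSq_mem hg) x :=
  wHomW_wHomW hmax hgen hζ hM hqm hg x

theorem wW_algebraMap (a : W) :
    wW hmax hgen hζ hM hqm hg (algebraMap W _ a) = algebraMap W _ a := by
  refine Subtype.ext ?_
  rw [coe_wW, show toO (algebraMap W (Fld₀ W E q m) a) =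
      algebraMap O (Fld₀ O E q m) (algebraMap W O a) from Subtype.ext (by
    rw [coe_toO, coe_algebraMap_fld₀, coe_algebraMap_fld₀, IsScalarTower.algebraMap_apply W O (Fld E)]),
    wOp_algebraMap, coe_algebraMap_fld₀, coe_algebraMap_fld₀,
    IsScalarTower.algebraMap_apply W O (Fld E)]

/-! ## The chart of `j` -/

theorem shiftW_chart {γ : SL(2, ℤ)} (hγ : γ ∈ Gamma0 q) (x : Fld₀ W E q m) :
    shiftW hmax hgen hζ hM hqm hγ x ∈ chartRing W (jF₀ W E q m) ↔
      x ∈ chartRing W (jF₀ W E q m) := by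
  rw [mem_chartW_iff, mem_chartW_iff, coe_shiftW]
  refine ⟨fun h => ?_, (fShift_mem_chartRing γ).1⟩
  have := (fShift_mem_chartRing γ⁻¹).1 h
  rwa [fShift_fShift, mul_inv_cancel, fShift_one] at this

theorem wW_chart (x : Fld₀ W E q m) :
    wW hmax hgen hζ hM hqm hg x ∈ chartRing W (jF₀ W E q m) ↔ x ∈ chartRing W (jF₀ W E q m) := by
  have h := wOp_chart₀ hM hqm hg (toO x)
  rw [show (model₀ O E q m).B₀ = chartRing O (jF₀ O E q m) from rfl, mem_B₀_iff, mem_B₀_iff] at h
  rw [coe_toO] at h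
  rw [mem_chartW_iff, mem_chartW_iff, coe_wW]
  exact h

/-! ## The components -/

section Comps

variable [IsAlgClosed (ResidueField W)] {π : O} (hπ : Irreducible π)
  (hpts : SemiPoints (chartRing W (jF₀ W E q m)) (q : W))

include hmax hM hqm hpts in
theorem comp_eq_twoPW (δ : SL(2, ℤ)) :
    comp (W := W) (E := E) (q := q) (m := m) hπ δ =
      twoP W E q m hπ (!decide ((q : ℤ) ∣ δ 1 0)) :=
  comp_eq_twoP hmax (Dvd.intro m hM.symm) (Dvd.intro_left q hM.symm) hqm hpts δ

include hmax hM hqm hpts in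
theorem shiftW_mem_nonunits {γ : SL(2, ℤ)} (hγ : γ ∈ Gamma0 q) (i : Bool) (x : Fld₀ W E q m) :
    shiftW hmax hgen hζ hM hqm hγ x ∈ (twoP W E q m hπ i).nonunits ↔
      x ∈ (twoP W E q m hπ i).nonunits := by
  set δ : SL(2, ℤ) := if i then ModularGroup.S else 1
  have h : comp (W := W) (E := E) (q := q) (m := m) hπ (γ * δ) = comp hπ δ := by
    rw [comp_eq_twoPW hmax hM hqm hπ hpts, comp_eq_twoPW hmax hM hqm hπ hpts]
    congr 2
    exact decide_eq_decide.mpr (dvd_mul_left_iff hγ δ)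
  show _ ∈ (comp hπ δ).nonunits ↔ x ∈ (comp hπ δ).nonunits
  conv_rhs => rw [← h]
  rw [mem_nonunits_compW, mem_nonunits_compW, coe_shiftW, fShift_fShift]

include hmax hM hqm hpts in
theorem wW_mem_nonunits (i : Bool) (x : Fld₀ W E q m) :
    wW hmax hgen hζ hM hqm hg x ∈ (twoP W E q m hπ i).nonunits ↔
      x ∈ (twoP W E q m hπ (!i)).nonunits := by
  have hc : comp (W := W) (E := E) (q := q) (m := m) hπ g = twoP W E q m hπ true := by
    rw [comp_eq_twoPW hmax hM hqm hπ hpts, hg.1]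
    simp [Int.natCast_dvd_natCast, hqm]
  have h1 : ∀ z, wW hmax hgen hζ hM hqm hg z ∈ (twoP W E q m hπ false).nonunits ↔
      z ∈ (twoP W E q m hπ true).nonunits := fun z => by
    rw [← hc, show twoP W E q m hπ false = comp hπ 1 from rfl, mem_nonunits_compW,
      mem_nonunits_compW, coe_wW]
    have := wOp_mem_false hM hqm hg hπ (toO z)
    rwa [ModField.mem_nonunits_comp, ModField.mem_nonunits_comp, coe_toO] at this
  cases i with
  | false => exact h1 x
  | true => rw [Bool.not_true, ← h1, wW_wW, shiftW_mem_nonunits hmax hgen hζ hM hqm hπ hpts]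

include hmax hM hqm hpts in
/-- Frobenius of the constants keeps the two components. -/
theorem conj₀_mem_nonunits {σ : stabK E} {Q : ℕ} (h : ConstFrob W σ Q) (i : Bool)
    (x : Fld₀ W E q m) :
    conj₀ h (Dvd.intro m hM.symm) (Dvd.intro_left q hM.symm) x ∈ (twoP W E q m hπ i).nonunits ↔
      x ∈ (twoP W E q m hπ i).nonunits := by
  subst hM
  have hqO : (q : O) ∈ maximalIdeal O := natCast_mem_max (W := W) hmax
  set δ : SL(2, ℤ) := if i then ModularGroup.S else 1
  obtain ⟨δ₀, hδ₀⟩ := exists_conjEq_symm (cycC (q * m) σ.1) δ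
  have hcomp : comp (W := W) (E := E) (q := q) (m := m) hπ δ₀ = comp hπ δ := by
    rw [comp_eq_twoPW hmax rfl hqm hπ hpts, comp_eq_twoPW hmax rfl hqm hπ hpts]
    congr 2
    exact decide_eq_decide.mpr (Semistable.conjEq_dvd_iff hδ₀)
  show _ ∈ (comp hπ δ).nonunits ↔ x ∈ (comp hπ δ).nonunits
  conv_rhs => rw [← hcomp]
  rw [mem_nonunits_compW, mem_nonunits_compW, coe_conj₀, ← fConj_fShift E σ hδ₀]
  refine ⟨fun hx => ?_, fConj_mem_nonunits_one hqO hπ σ h.int⟩
  have := fConj_mem_nonunits_one hqO hπ σ⁻¹ (fun o => ?_) hx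
  · rwa [fConj_fConj, inv_mul_cancel, fConj_one] at this
  · obtain ⟨o', h1⟩ := h.int_symm o
    exact ⟨o', by rw [← h1]; exact σ.1.symm_apply_apply _⟩

end Comps

/-! ## Frobenius composed with the involution -/

section Swap

variable {σ : stabK E} (hF : ConstFrob W σ q) {γ : SL(2, ℤ)} (hγ : γ ∈ Gamma0 q)

/-- A translation, the involution, then Frobenius on the constants. -/
def swapW : Fld₀ W E q m ≃+* Fld₀ W E q m :=
  ((shiftW hmax hgen hζ hM hqm hγ).trans (wW hmax hgen hζ hM hqm hg)).trans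
    (conj₀ hF (Dvd.intro m hM.symm) (Dvd.intro_left q hM.symm))

theorem swapW_apply (x : Fld₀ W E q m) :
    swapW hmax hgen hζ hM hqm hg hF hγ x = conj₀ hF (Dvd.intro m hM.symm) (Dvd.intro_left q hM.symm)
      (wW hmax hgen hζ hM hqm hg (shiftW hmax hgen hζ hM hqm hγ x)) := rfl

theorem toLS_swapW (x : Fld₀ W E q m) :
    toLS E (swapW hmax hgen hζ hM hqm hg hF hγ x : Fld E) =
      lmap σ.1.toRingHom (GalRep.expand q (NeZero.ne q) (toLS E (fShift E (γ * g) (x : Fld E)))) := by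
  rw [swapW_apply, coe_conj₀, toLS_fConj, coe_wW, toLS_wOp, coe_toO, coe_shiftW, fShift_fShift]

theorem swapW_algebraMap (a : W) : ∃ a' : W,
    swapW hmax hgen hζ hM hqm hg hF hγ (algebraMap W _ a) = algebraMap W _ a' ∧
      residue W a' = residue W a ^ q := by
  obtain ⟨a', h1, h2⟩ := conj₀_algebraMap hF (Dvd.intro m hM.symm) (Dvd.intro_left q hM.symm) a
  exact ⟨a', by rw [swapW_apply, shiftW_algebraMap, wW_algebraMap, h1], h2⟩

theorem swapW_chart (x : Fld₀ W E q m) :
    swapW hmax hgen hζ hM hqm hg hF hγ x ∈ chartRing W (jF₀ W E q m) ↔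
      x ∈ chartRing W (jF₀ W E q m) := by
  have hfix := conj₀_mem_chart hF (Dvd.intro m hM.symm) (Dvd.intro_left q hM.symm)
    (conj₀_jF₀ hF (Dvd.intro m hM.symm) (Dvd.intro_left q hM.symm))
  rw [swapW_apply]
  refine Iff.trans ?_
    ((wW_chart hmax hgen hζ hM hqm hg _).trans (shiftW_chart hmax hgen hζ hM hqm hγ x))
  refine ⟨fun h => ?_, hfix.1 _⟩
  have := hfix.2 _ h
  rwa [RingEquiv.symm_apply_apply] at this

variable [IsAlgClosed (ResidueField W)] {π : O} (hπ : Irreducible π)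
  (hpts : SemiPoints (chartRing W (jF₀ W E q m)) (q : W))

include hmax hM hqm hpts in
theorem swapW_mem_nonunits (i : Bool) (x : Fld₀ W E q m) :
    swapW hmax hgen hζ hM hqm hg hF hγ x ∈ (twoP W E q m hπ i).nonunits ↔
      x ∈ (twoP W E q m hπ (!i)).nonunits := by
  rw [swapW_apply, conj₀_mem_nonunits hmax hM hqm hπ hpts hF,
    wW_mem_nonunits hmax hgen hζ hM hqm hg hπ hpts,
    shiftW_mem_nonunits hmax hgen hζ hM hqm hπ hpts]

include hmax hM hqm hpts in
theorem swapW_mem_iff (i : Bool) (x : Fld₀ W E q m) :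
    swapW hmax hgen hζ hM hqm hg hF hγ x ∈ twoP W E q m hπ i ↔ x ∈ twoP W E q m hπ (!i) := by
  rw [mem_iff_inv_notMem_nonunits, mem_iff_inv_notMem_nonunits, ← map_inv₀, map_eq_zero,
    swapW_mem_nonunits hmax hgen hζ hM hqm hg hF hγ hπ hpts]

include hmax hgen hζ hM hqm in
/-- The trace to level `Γ(m)` keeps the descended field. -/
theorem trOp_memW (b : Fld₀ W E q m) : (trOp hqm (toO b) : Fld E) ∈ Fld₀ W E q m := by
  refine mem_W_of_fixed hmax hgen hζ hM hqm _ fun τ hτ => ?_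
  have hmM : m ∣ M := Dvd.intro_left q hM.symm
  have hqM : q ∣ M := Dvd.intro m hM.symm
  have hb : fConj E τ (b : Fld E) = b := fConj_eq_self τ hτ b.2
  choose η hη using fun i => exists_conjEq (cycC M τ.1) (cosRep q m i)
  have hmem : ∀ i, η i ∈ Gamma m := fun i =>
    (isLevel_gamma m).conj_mem _ _ _ (conjEq_of_dvd hmM (hη i)) (cosRep_mem i)
  have hinj : ∀ i j, η i * (η j)⁻¹ ∈ levelG q m → i = j := fun i j h =>
    cosRep_inj hqm (levelG_conj hqM hmM ((hη i).symm.mul (hη j).symm.inv) h)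
  conv_lhs => rw [coe_trOp, map_sum]
  rw [trOp_eq_sum hqm hmem hinj]
  exact Finset.sum_congr rfl fun i _ => by rw [coe_toO, fConj_fShift E τ (hη i), hb]

include hmax hgen hζ hM hqm hpts in
/-- The crossing points of the two components are fixed. -/
theorem swapW_fixed (hγg : γ * g ∈ Gamma m)
    (hres : ∀ o : O, ∃ o' : O, σ.1 (E.φ o) = E.φ o' ∧ residue O o' = residue O o ^ q)
    (x : Ideal (chartRing W (jF₀ W E q m))) (hx : IsPoint (q : W) x)
    (hx' : ∀ (i : Bool) (b : chartRing W (jF₀ W E q m)),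
      (b : Fld₀ W E q m) ∈ (twoP W E q m hπ i).nonunits → b ∈ x)
    (b b' : chartRing W (jF₀ W E q m))
    (hb : (b' : Fld₀ W E q m) = swapW hmax hgen hζ hM hqm hg hF hγ (b : Fld₀ W E q m)) :
    b' ∈ x ↔ b ∈ x := by
  have hqO : (q : O) ∈ maximalIdeal O := natCast_mem_max (W := W) hmax
  have hbO : toO (b : Fld₀ W E q m) ∈ chartRing O (jF₀ O E q m) :=
    (mem_B₀_iff (x := toO (b : Fld₀ W E q m))).mpr
      ((coe_toO (b : Fld₀ W E q m)).symm ▸ mem_chartW_iff.mp b.2)
  set z : Fld₀ W E q m := ⟨trOp hqm (toO (b : Fld₀ W E q m)),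
    trOp_memW hmax hgen hζ hM hqm (b : Fld₀ W E q m)⟩ with hz
  have hzv : (z : Fld E) = trOp hqm (toO (b : Fld₀ W E q m)) :=
    coe_of_eq_mk (h := trOp_memW hmax hgen hζ hM hqm (b : Fld₀ W E q m)) rfl
  have hzc : z ∈ chartRing W (jF₀ W E q m) := by
    refine mem_chartW_iff.mpr (hzv.symm ▸ (mem_B₀_iff.mp (trOp_mem hqm (S := chartRing O (jF E))
      (fun _ => mem_B₀_iff) (fun g _ => (fShift_mem_chartRing g).1) hbO)))
  set s := swapW hmax hgen hζ hM hqm hg hF hγ
  have hszc : s z ∈ chartRing W (jF₀ W E q m) := (swapW_chart hmax hgen hζ hM hqm hg hF hγ z).mpr hzc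
  let zc : chartRing W (jF₀ W E q m) := ⟨z, hzc⟩
  let szc : chartRing W (jF₀ W E q m) := ⟨s z, hszc⟩
  have hzcv : (zc : Fld₀ W E q m) = z := coe_of_eq_mk (h := hzc) rfl
  have hszcv : (szc : Fld₀ W E q m) = s z := coe_of_eq_mk (h := hszc) rfl
  have h1 : ((b : Fld₀ W E q m) - z) ∈ (twoP W E q m hπ false).nonunits := by
    have h := trOp_sub_self_mem hqm hqO hM hπ (z := toO (b : Fld₀ W E q m))
      (chartRing_le_overlap _ hbO)
    rw [show twoP O E q m hπ false = comp hπ 1 from rfl, ModField.mem_nonunits_comp, fShift_one,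
      Subfield.coe_sub, coe_toO, ← hzv] at h
    rw [show twoP W E q m hπ false = comp hπ 1 from rfl, mem_nonunits_compW, fShift_one,
      Subfield.coe_sub, ← neg_sub]
    exact neg_mem_nonunits h
  have e1 : b - zc ∈ x := hx' false _ (by rw [AddSubgroupClass.coe_sub, hzcv]; exact h1)
  have e2 : b' - szc ∈ x := by
    refine hx' true _ ?_
    rw [AddSubgroupClass.coe_sub, hszcv]
    rw [hb, ← map_sub, swapW_mem_nonunits hmax hgen hζ hM hqm hg hF hγ hπ hpts, Bool.not_true]
    exact h1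
  have e3 : zc ^ q - szc ∈ x := by
    refine hx' false _ ?_
    rw [AddSubgroupClass.coe_sub, SubmonoidClass.coe_pow, hzcv, hszcv]
    rw [show twoP W E q m hπ false = comp hπ 1 from rfl, mem_nonunits_compW, fShift_one,
      Subfield.coe_sub, SubmonoidClass.coe_pow]
    refine pow_sub_mem_gaussP hqO hπ hres hF.int_symm (poleBound_chart (mem_chartW_iff.mp hszc)) ?_
    rw [toLS_swapW, show fShift E (γ * g) (z : Fld E) = z from by
      have h := fShift_trOp hqm (toO (b : Fld₀ W E q m)) (one_mem (Gamma0 q)) (fShift_one E _) hγg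
      rw [one_mul, ← hzv] at h
      exact h]
  have hpr : x.IsPrime := hx.1.isPrime
  have e4 : b' - b ^ q ∈ x := by
    obtain ⟨c, hc⟩ := sub_dvd_pow_sub_pow b zc q
    have h5 : b ^ q - zc ^ q ∈ x := hc ▸ x.mul_mem_right c e1
    have : b' - b ^ q = (b' - szc) - (zc ^ q - szc) - (b ^ q - zc ^ q) := by ring
    rw [this]
    exact x.sub_mem (x.sub_mem e2 e3) h5
  have h6 : b' ∈ x ↔ b ^ q ∈ x := by
    constructor <;> intro h
    · simpa using x.sub_mem h e4
    · simpa using x.add_mem e4 h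
  exact h6.trans (hpr.pow_mem_iff_mem q hq.out.pos)
where
  neg_mem_nonunits {V : ValuationSubring (Fld E)} {y : Fld E} (h : y ∈ V.nonunits) :
      -y ∈ V.nonunits := by
    rw [V.mem_nonunits_iff] at h ⊢
    rwa [Valuation.map_neg]

end Swap

end Fermat.Agent.LL.Mazur
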