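/-
Mazur's principle: Frobenius composed with the involution on the descended model, a semilinear
automorphism exchanging the two components and fixing their crossing points.
-/
import Fermat.Agent.Models.Gamma0.OrdFrob
import Fermat.Agent.Models.Gamma0.TwoComps
import Fermat.Agent.GalRep.Semistable.Base
import Fermat.Agent.GalRep.Semistable.Defect
import Fermat.Agent.GalRep.Semistable.RepTools
import Fermat.Agent.GalRep.Wild.EigenBoth
import Fermat.Agent.LL.Mazur.SwapW

set_option autoImplicit false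
set_option linter.style.haveILetI false
set_option linter.unusedSectionVars false

noncomputable section

namespace Fermat.Agent.LL.Mazur

open UpperHalfPlane CongruenceSubgroup IsLocalRing
open Fermat.Agent.Galois (GQ)
open Fermat.Agent.GalRep Fermat.Agent.GalRep.Level Fermat.Agent.GalRep.Semistable
open Fermat.Agent.ModField
open Fermat.Agent.NewVec
open Fermat.Agent.Models (IsPoint)
open Fermat.Agent.GalRep.Model (chartRing)
open scoped MatrixGroups Manifold

variable {A : ValuationSubring (AlgebraicClosure ℚ)} {q m : ℕ} [Fact q.Prime] [NeZero q] [NeZero m]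

theorem expand_expand_comm {a b : ℕ} (ha : a ≠ 0) (hb : b ≠ 0) (f : LaurentSeries ℂ) :
    GalRep.expand a ha (GalRep.expand b hb f) = GalRep.expand b hb (GalRep.expand a ha f) := by
  have key : ∀ {a b : ℕ} (ha : a ≠ 0) (hb : b ≠ 0) (i : ℤ),
      (GalRep.expand a ha (GalRep.expand b hb f)).coeff i =
        (GalRep.expand (a * b) (mul_ne_zero ha hb) f).coeff i := by
    intro a b ha hb i
    by_cases h : ((a * b : ℕ) : ℤ) ∣ i
    · obtain ⟨j, rfl⟩ := h
      rw [expand_coeff_mul, Nat.cast_mul, mul_assoc, expand_coeff_mul, expand_coeff_mul]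
    · rw [expand_coeff_of_not_dvd _ _ _ _ h]
      by_cases ha' : (a : ℤ) ∣ i
      · obtain ⟨k, rfl⟩ := ha'
        rw [expand_coeff_mul, expand_coeff_of_not_dvd]
        exact fun hk => h (by push_cast; exact mul_dvd_mul_left _ hk)
      · rw [expand_coeff_of_not_dvd _ _ _ _ ha']
  ext i
  rw [key, key]
  have e : ∀ {c d : ℕ}, c = d → ∀ (hc : c ≠ 0) (hd : d ≠ 0),
      GalRep.expand c hc f = GalRep.expand d hd f := by
    rintro c d rfl hc hd
    rfl
  rw [e (mul_comm a b)]

/-- Frobenius of the constants of level `M` is the `q`-th power on their residues. -/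
theorem residue_oBase_frob {M : ℕ} [NeZero M] {σ : GQ}
    (hσ : A.IsFrobeniusAt σ q) [IsDiscreteValuationRing (oBase A M)] (o : oBase A M) :
    ∃ o' : oBase A M, liftAut σ ((embO A M).φ o) = (embO A M).φ o' ∧
      residue (oBase A M) o' = residue (oBase A M) o ^ q := by
  have hd := hσ.mem_decompositionSubgroup
  refine ⟨⟨⟨σ ((o : oFld A M) : AlgebraicClosure ℚ), mem_oFld_apply hd (o : oFld A M).2⟩,
    mem_place_apply hd o.2⟩, liftAut_spec σ _, ?_⟩
  refine Eq.trans ?_ (map_pow (residue (oBase A M)) o q)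
  refine Ideal.Quotient.eq.mpr ((mem_maximalIdeal_oBase A M _).mpr ?_)
  have h1 := hσ.smul_residue_eq (residue A ⟨((o : oFld A M) : AlgebraicClosure ℚ), o.2⟩)
  rw [← ResidueField.residue_smul, ← map_pow] at h1
  replace h1 := Ideal.Quotient.eq.mp h1
  exact A.mem_nonunits_iff.mp (A.coe_mem_nonunits_iff.mpr h1)

/-- The series of a translate of a function in the field. -/
theorem toLS_fShift_of_eq {M : ℕ} [NeZero M] {O : Type} [CommRing O] [IsDomain O] (E : Emb O M)
    (h : SL(2, ℤ)) {ψ : MF M} {x : Fld E} (hx : toLS E x = serAlg M ψ) :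
    toLS E (fShift E h x) = serAlg M (shift M h ψ) := by
  obtain ⟨a, b, hb, rfl⟩ := exists_eq_div E x
  have hb0 : serAlg M (b : MF M) ≠ 0 := fun e =>
    hb (Subtype.ext (serAlg_injective M (e.trans (map_zero _).symm)))
  rw [map_div₀, toLS_toFld, toLS_toFld, div_eq_iff hb0, ← map_mul] at hx
  have ha : (a : MF M) = ψ * b := serAlg_injective M hx
  have hb1 : serAlg M (shift M h (b : MF M)) ≠ 0 := fun e => by
    have e1 := serAlg_injective M (e.trans (map_zero _).symm)
    have e2 := congrArg (shift M h⁻¹) e1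
    rw [shift_shift, mul_inv_cancel, shift_one, map_zero] at e2
    exact hb (Subtype.ext e2)
  rw [map_div₀, map_div₀, fShift_toFld, fShift_toFld, toLS_toFld, toLS_toFld, div_eq_iff hb1,
    ← map_mul, ← map_mul]
  exact congrArg (fun z => serAlg M (shift M h z)) ha

/-- Frobenius composed with the involution. -/
structure SwapFrob [IsDiscreteValuationRing (wBase A)] [IsDiscreteValuationRing (oBase A (q * m))]
    {π : oBase A (q * m)} (hπ : Irreducible π) (σ : GQ)
    (s : Fld₀ (wBase A) (embO A (q * m)) q m ≃+* Fld₀ (wBase A) (embO A (q * m)) q m) : Prop where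
  const : ∀ a : wBase A, ∃ a' : wBase A,
    s (algebraMap (wBase A) _ a) = algebraMap (wBase A) _ a' ∧
      residue (wBase A) a' = residue (wBase A) a ^ q
  swap : ∀ i x, s x ∈ twoP (wBase A) (embO A (q * m)) q m hπ i ↔
    x ∈ twoP (wBase A) (embO A (q * m)) q m hπ (!i)
  chart : ∀ b ∈ chartRing (wBase A) (jF₀ (wBase A) (embO A (q * m)) q m),
    s b ∈ chartRing (wBase A) (jF₀ (wBase A) (embO A (q * m)) q m)
  chart_symm : ∀ b ∈ chartRing (wBase A) (jF₀ (wBase A) (embO A (q * m)) q m),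
    s.symm b ∈ chartRing (wBase A) (jF₀ (wBase A) (embO A (q * m)) q m)
  fixed : ∀ x : Ideal (chartRing (wBase A) (jF₀ (wBase A) (embO A (q * m)) q m)),
    IsPoint (q : wBase A) x →
    (∀ (i : Bool) (b : chartRing (wBase A) (jF₀ (wBase A) (embO A (q * m)) q m)),
      (b : Fld₀ (wBase A) (embO A (q * m)) q m) ∈
        (twoP (wBase A) (embO A (q * m)) q m hπ i).nonunits → b ∈ x) →
    ∀ b b' : chartRing (wBase A) (jF₀ (wBase A) (embO A (q * m)) q m),
      (b' : Fld₀ (wBase A) (embO A (q * m)) q m) =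
        s (b : Fld₀ (wBase A) (embO A (q * m)) q m) → (b' ∈ x ↔ b ∈ x)
  apply_fun : ∀ (m₀ : ℕ) [NeZero m₀] (hd : q * m₀ ∣ q * m) {g₀ : SL(2, ℤ)}
    (hg₀ : g₀ 1 0 = m₀ ∧ g₀ 1 1 = q) (φ : MF (q * m₀)) (hi : Inv0 (q * m₀) (φ : ℍ → ℂ))
    (x : Fld₀ (wBase A) (embO A (q * m)) q m),
    toLS (embO A (q * m)) (x : Fld (embO A (q * m))) = serAlg (q * m) (liftLvl hd φ) →
    toLS (embO A (q * m)) (s x : Fld (embO A (q * m))) =
      serAlg (q * m) (liftLvl hd (conjM (liftAut σ) (WMF hg₀ φ hi)))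

/-- Such an automorphism exists. -/
theorem exists_swapFrob (hA : A.LiesOverPrime q) (hqm : ¬ q ∣ m) (hpts : ChartsSemi A q m)
    {σ : GQ} (hσ : A.IsFrobeniusAt σ q) [IsDiscreteValuationRing (wBase A)]
    [IsDiscreteValuationRing (oBase A (q * m))] {π : oBase A (q * m)} (hπ : Irreducible π) :
    ∃ s, SwapFrob hπ σ s := by
  have hq : q.Prime := Fact.out
  obtain ⟨-, hqW, hWac⟩ := wBase_props A hq hA
  haveI := finite_oBase (A := A) (M := q * m) hq hA rfl hqm
  have hgen := adjoin_eq_top (A := A) (M := q * m) hq hA rfl hqm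
  have hζ := exists_wBase_pow (A := A) (M := q * m) hq hA rfl hqm
  obtain ⟨g, hg⟩ := GalRep.Wild.exists_lowerRow hq hqm
  obtain ⟨i, hi⟩ := exists_cosRep_gamma0 hqm g⁻¹
  set γ : SL(2, ℤ) := g⁻¹ * (cosRep q m i)⁻¹ with hγdef
  have hγg : γ * g ∈ Gamma m := by
    have := (Gamma_normal m).conj_mem _ (inv_mem (cosRep_mem (p := q) (m := m) i)) g⁻¹
    rwa [inv_inv] at this
  have hF : ConstFrob (wBase A) (⟨liftAut σ, liftAut_mem_stabK hσ.mem_decompositionSubgroup⟩ :
      stabK (embO A (q * m))) q := constFrob_oBase hq hA hσ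
  refine ⟨swapW hqW hgen hζ rfl hqm hg hF hi,
    ⟨swapW_algebraMap hqW hgen hζ rfl hqm hg hF hi,
      swapW_mem_iff hqW hgen hζ rfl hqm hg hF hi hπ hpts.1,
      fun b hb => (swapW_chart hqW hgen hζ rfl hqm hg hF hi b).mpr hb, fun b hb => ?_,
      fun x hx hx' b b' hb => swapW_fixed hqW hgen hζ rfl hqm hg hF hi hπ hpts.1 hγg
        (fun o => residue_oBase_frob hσ o) x hx hx' b b' hb,
      ?_⟩⟩
  · rw [← swapW_chart hqW hgen hζ rfl hqm hg hF hi, RingEquiv.apply_symm_apply]
    exact hb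
  intro m₀ _ hd g₀ hg₀ φ hφ x hx
  have hm₀ : m₀ ∣ m := Nat.dvd_of_mul_dvd_mul_left hq.pos hd
  obtain ⟨t, ht0, -, hser⟩ := exists_serAlg_liftLvl hd
  -- the twist lies in `Γ₀(q m₀)`
  have hγ0 : γ ∈ Gamma0 m := by
    refine mul_mem ?_ (inv_mem (GalRep.Gamma_le_Gamma0 m (cosRep_mem i)))
    refine inv_mem ?_
    rw [Gamma0_mem, hg.1, Int.cast_natCast, ZMod.natCast_self]
  have hγqm : γ ∈ Gamma0 (q * m₀) := by
    have h1 := MCurve.Gamma0_le_of_dvd hm₀ hγ0
    rw [Gamma0_mem, ZMod.intCast_zmod_eq_zero_iff_dvd] at h1 hi ⊢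
    rw [Nat.cast_mul]
    exact IsCoprime.mul_dvd (Nat.isCoprime_iff_coprime.mpr
      (hq.coprime_iff_not_dvd.mpr fun h => hqm (h.trans hm₀))) hi h1
  have hmem : γ * g * g₀⁻¹ ∈ Gamma0 (q * m₀) := by
    rw [mul_assoc]
    refine mul_mem hγqm (mem_gamma0_of_conj _ _ ?_)
    rw [hg.1, hg.2, hg₀.1, hg₀.2]
    obtain ⟨c, rfl⟩ := hm₀
    exact ⟨(c : ℤ) - 1, by push_cast; ring⟩
  have hshift : shift (q * m) (γ * g) (liftLvl hd φ) = liftLvl hd (shift (q * m₀) g₀ φ) := by
    refine Subtype.ext (funext fun τ => ?_)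
    rw [shift_apply, coe_liftLvl, coe_liftLvl, shift_apply]
    have := hφ _ hmem (g₀ • τ)
    rwa [← mul_smul, inv_mul_cancel_right] at this
  rw [toLS_swapW, toLS_fShift_of_eq _ _ hx, hshift, hser, hser, serAlg_conjM_one, serAlg_WMF,
    lmap_expand, lmap_expand, lmap_expand, expand_expand_comm]

end Fermat.Agent.LL.Mazur
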