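/-
Common values of targets at crossing points fixed by an automorphism exchanging two components; the
passage of common values between the two charts.
-/
import Fermat.Agent.Models.TargetsRoot
import Fermat.Agent.Models.SemiTwo
import Fermat.Agent.Models.Transfer

set_option autoImplicit false
set_option linter.style.haveILetI false
set_option linter.unusedSectionVars false

noncomputable section

namespace Fermat.Agent.LL.Mazur

open IsLocalRing
open Fermat.Agent.Models

/-! ## An automorphism exchanging two components -/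

section Swap

variable {O F : Type} [CommRing O] [IsDomain O] [IsDiscreteValuationRing O] [Field F] [Algebra O F]
  {π : O} {P : Bool → ValuationSubring F} {s : F ≃+* F}

theorem isU_swap (hswap : ∀ i z, s z ∈ P i ↔ z ∈ P (!i)) (i : Bool) {z : F} :
    IsU (P i) (s z) ↔ IsU (P (!i)) z := by
  rw [isU_iff, isU_iff, ← map_inv₀, hswap, hswap]
  simp

theorem nonunits_swap (hswap : ∀ i z, s z ∈ P i ↔ z ∈ P (!i)) (i : Bool) {z : F} :
    s z ∈ (P i).nonunits ↔ z ∈ (P (!i)).nonunits := by
  have key : ∀ (j : Bool) (z : F), z ∈ (P j).nonunits ↔ z ∈ P j ∧ ¬ IsU (P j) z := fun j z => by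
    refine ⟨fun h => ⟨(P j).nonunits_subset h, fun hu => hu.2 (rs_eq_zero_of_nonunit h)⟩,
      fun ⟨h1, h2⟩ => (rs_eq_zero h1).mp (not_not.mp fun hne => h2 ⟨h1, hne⟩)⟩
  rw [key, key, hswap, isU_swap hswap]

theorem rs_swap (hswap : ∀ i z, s z ∈ P i ↔ z ∈ P (!i)) (i : Bool) {x y : F} (hx : x ∈ P (!i))
    (hy : y ∈ P (!i)) (h : rs (P (!i)) x = rs (P (!i)) y) : rs (P i) (s x) = rs (P i) (s y) := by
  rw [rs_eq_iff ((hswap i x).mpr hx) ((hswap i y).mpr hy), ← map_sub, nonunits_swap hswap]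
  exact (rs_eq_iff hx hy).mp h

/-- The targets of `s f * f ^ q` made from targets of `f`. -/
theorem swap_targets (hswap : ∀ i z, s z ∈ P i ↔ z ∈ P (!i)) {n q : ℕ} {f : F} {T : Bool → F}
    (hT : ∀ i, IsU (P i) (T i ^ n / f) ∧ rs (P i) (T i ^ n / f) = 1) (i : Bool) :
    IsU (P i) ((s (T (!i)) * T i ^ q) ^ n / (s f * f ^ q)) ∧
      rs (P i) ((s (T (!i)) * T i ^ q) ^ n / (s f * f ^ q)) = 1 := by
  obtain ⟨h1, h2⟩ := hT i
  obtain ⟨h1', h2'⟩ := hT (!i)
  have e : (s (T (!i)) * T i ^ q) ^ n / (s f * f ^ q) =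
      s (T (!i) ^ n / f) * (T i ^ n / f) ^ q := by
    rw [map_div₀, map_pow, div_pow, div_mul_div_comm, mul_pow, ← pow_mul, ← pow_mul, mul_comm q n]
  have hsU : IsU (P i) (s (T (!i) ^ n / f)) := (isU_swap hswap i).mpr h1'
  have hsr : rs (P i) (s (T (!i) ^ n / f)) = 1 := by
    rw [rs_swap hswap i h1'.1 (P (!i)).one_mem (by rw [h2', rs_one]), map_one, rs_one]
  rw [e]
  exact ⟨hsU.mul (h1.pow q),
    by rw [rs_mul hsU.1 (h1.pow q).1, hsr, rs_pow h1.1, h2, one_pow, one_mul]⟩

variable {B : Subalgebra O F}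

set_option maxHeartbeats 400000 in
/-- At a crossing point fixed by the swap, the targets of `s f * f ^ q` have a common value. -/
theorem commonValueAt_swap (hπ : Irreducible π) (hf : ChartFibre B π P) (hN : BranchNormal hf)
    {q : ℕ} (hq : 0 < q)
    (hconst : ∀ a : O, ∃ a' : O, s (algebraMap O F a) = algebraMap O F a' ∧
      residue O a' = residue O a ^ q)
    (hswap : ∀ i z, s z ∈ P i ↔ z ∈ P (!i)) (hsB : ∀ b ∈ B, s b ∈ B) {n : ℕ} (hn : 0 < n) {f : F}
    (hf0 : f ≠ 0) {x : Ideal B} (hx : IsPoint π x) (hfix : x.comap (frobRestr hsB) = x)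
    (hcen : ∀ i, center hf i ≤ x) (hroot : HasRootAt B n f x) {T : Bool → F}
    (hT : ∀ i, IsU (P i) (T i ^ n / f) ∧ rs (P i) (T i ^ n / f) = 1) :
    CommonValueAt hf n (s f * f ^ q) (fun i => s (T (!i)) * T i ^ q) x := by
  have hs : FrobData O (Empty.elim : Empty → ValuationSubring F) s q :=
    ⟨hq, hconst, fun i => i.elim⟩
  obtain ⟨r, hr0, v, hv0, hv⟩ := exists_local_root hn hπ hf hx hf0 hroot
  have hb := fun i => exists_branch_value hf hπ hN hn hx (hcen i) (hT i) hv0 hv
  choose cv hc0 y hy hzU hyz using hb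
  have hfrob : ∀ {z : F} {c : ResidueField O}, HasValue x z c → HasValue x (s z) (c ^ q) :=
    fun {z c} h => HasValue.frob (hsB := hsB) hs (hfix.symm ▸ h)
  refine ⟨s r * r ^ q, v ^ q * v ^ q, cv true ^ q * cv false ^ q,
    mul_ne_zero ((map_ne_zero s).mpr hr0) (pow_ne_zero _ hr0),
    mul_ne_zero (pow_ne_zero _ hv0) (pow_ne_zero _ hv0), ?_, fun l _ => ?_⟩
  · have e : s f * f ^ q / (s r * r ^ q) ^ n = s (f / r ^ n) * (f / r ^ n) ^ q := by
      rw [map_div₀, map_pow, div_pow, div_mul_div_comm, mul_pow, ← pow_mul, ← pow_mul, mul_comm q n]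
    rw [e]
    exact (hfrob hv).mul hx (hv.pow hx q)
  have hyU : ∀ i, IsU (P i) (y i) := fun i => (hy i).isU hπ hx (hc0 i) (hcen i)
  refine ⟨s (y (!l)) * y l ^ q, ?_, ?_, ?_⟩
  · have h := (hfrob (hy (!l))).mul hx ((hy l).pow hx q)
    cases l with
    | false => exact h
    | true => rw [mul_comm (cv true ^ q)]; exact h
  · have e : s (T (!l)) * T l ^ q / (s r * r ^ q) = s (T (!l) / r) * (T l / r) ^ q := by
      rw [map_div₀, div_pow, div_mul_div_comm]
    rw [e]
    exact ((isU_swap hswap l).mpr (hzU (!l))).mul ((hzU l).pow q)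
  · have e : s (T (!l)) * T l ^ q / (s r * r ^ q) = s (T (!l) / r) * (T l / r) ^ q := by
      rw [map_div₀, div_pow, div_mul_div_comm]
    rw [e, rs_mul ((isU_swap hswap l).mpr (hyU (!l))).1 ((hyU l).pow q).1,
      rs_mul ((isU_swap hswap l).mpr (hzU (!l))).1 ((hzU l).pow q).1, rs_pow (hyU l).1,
      rs_pow (hzU l).1, hyz l, rs_swap hswap l (hyU (!l)).1 (hzU (!l)).1 (hyz (!l))]

end Swap

/-! ## Smooth points -/

section Smooth

variable {W F : Type} [CommRing W] [IsDomain W] [IsDiscreteValuationRing W] [Field F] [Algebra W F]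
  {π : W} {P : Bool → ValuationSubring F} {B : Subalgebra W F}

set_option synthInstance.maxHeartbeats 200000 in
/-- A smooth point lies on one component only. -/
theorem not_both_of_smooth (hf : ChartFibre B π P) (hu : ∀ i, algebraMap W F π ∈ (P i).nonunits)
    (hmax : ∀ i, ¬ (center hf i).IsMaximal) (hc : Function.Injective (center hf)) {m : Ideal B}
    (hm : m.IsMaximal) (hsm : IsSmoothPoint B π m) : ¬ ∀ i, center hf i ≤ m := by
  intro hle
  haveI := hm.isPrime
  haveI := hf.noetherian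
  obtain ⟨x, Q, hQ, hQm, hπQ, hxQ, hxm, hgen⟩ := hsm
  let R := Localization.AtPrime m
  haveI : IsNoetherianRing R :=
    IsLocalization.isNoetherianRing m.primeCompl (Localization.AtPrime m) inferInstance
  have hmR := maximalIdeal_eq_span_pair m (hQm hπQ) hxm hgen
  have hd : ∀ j, Disjoint (m.primeCompl : Set B) (center hf j : Set B) := fun j =>
    Set.disjoint_left.mpr fun w hw hwc => hw (hle j hwc)
  have key : ∀ j, (center hf j).map (algebraMap B R) =
      Ideal.span {algebraMap B R (algebraMap W B π)} := by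
    intro j
    haveI := IsLocalization.isPrime_of_isPrime_disjoint m.primeCompl R (center hf j)
      (center_isPrime j) (hd j)
    refine eq_span_of_ne_maximal hmR (Ideal.mem_map_of_mem _ (mem_center.mpr (hu j))) fun h => ?_
    refine hmax j ?_
    rw [← IsLocalization.under_map_of_isPrime_disjoint m.primeCompl R (center_isPrime j) (hd j), h]
    first
    | rwa [IsLocalization.AtPrime.comap_maximalIdeal R m]
    | (rw [← Ideal.under_def, IsLocalization.AtPrime.under_maximalIdeal R m]; exact hm)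
  have heq : center hf false = center hf true := by
    rw [← IsLocalization.under_map_of_isPrime_disjoint m.primeCompl R (center_isPrime false)
      (hd false), key false, ← key true,
      IsLocalization.under_map_of_isPrime_disjoint m.primeCompl R (center_isPrime true) (hd true)]
  exact Bool.noConfusion (hc heq)

end Smooth

/-! ## Change of chart -/

section Transfer

variable {O F : Type} [CommRing O] [IsDomain O] [IsDiscreteValuationRing O] [Field F] [Algebra O F]
  {ι : Type} {π : O} {P : ι → ValuationSubring F} {B B' : Subalgebra O F} {u : F} (hu : u ∈ B)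
  (hB'B : ∀ b ∈ B', ∃ E : ℕ, u ^ E * b ∈ B) {x : Ideal B}

theorem center_le_transIdeal (hf : ChartFibre B π P) (hf' : ChartFibre B' π P) {i : ι}
    (hi : center hf i ≤ x) : center hf' i ≤ transIdeal hu hB'B x := fun b hb => by
  obtain ⟨E, hE⟩ := hB'B b b.2
  refine ⟨E, hE, hi (mem_center.mpr ?_)⟩
  have hbP := hf'.le i b b.2
  have huP := pow_mem (hf.le i u hu) E
  refine (rs_eq_zero ((P i).mul_mem _ _ huP hbP)).mp ?_
  rw [rs_mul huP hbP, rs_eq_zero_of_nonunit (mem_center.mp hb), mul_zero]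

variable [x.IsPrime] (hux : (⟨u, hu⟩ : B) ∉ x)

include hux in
theorem hasValue_of_transIdeal {y : F} {c : ResidueField O}
    (h : HasValue (transIdeal hu hB'B x) y c) : HasValue x y c := by
  obtain ⟨a, b, c₀, hb, he, hc, hm⟩ := h
  obtain ⟨Ea, ha'⟩ := hB'B a a.2
  obtain ⟨Eb, hb'⟩ := hB'B b b.2
  set E := Ea + Eb
  have hA : u ^ E * (a : F) ∈ B := pow_mul_mem_mono hu (Nat.le_add_right _ _) ha'
  have hB : u ^ E * (b : F) ∈ B := pow_mul_mem_mono hu (Nat.le_add_left _ _) hb'
  have hC : u ^ E * ((a - algebraMap O B' c₀ * b : B') : F) =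
      ((⟨_, hA⟩ - algebraMap O B c₀ * ⟨_, hB⟩ : B) : F) := by
    simp only [AddSubgroupClass.coe_sub, MulMemClass.coe_mul, Subalgebra.coe_algebraMap]
    ring
  refine ⟨⟨_, hA⟩, ⟨_, hB⟩, c₀, fun h' => hb ((mem_transIdeal_iff_of_mem hux hB).mpr h'), ?_, hc, ?_⟩
  · show y * (u ^ E * (b : F)) = u ^ E * (a : F)
    rw [← he]; ring
  · have h2 : u ^ E * ((a - algebraMap O B' c₀ * b : B') : F) ∈ B := hC ▸ SetLike.coe_mem _
    have h1 := (mem_transIdeal_iff_of_mem hux h2).mp hm
    rwa [show (⟨_, h2⟩ : B) = ⟨_, hA⟩ - algebraMap O B c₀ * ⟨_, hB⟩ from Subtype.ext hC] at h1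

include hux in
/-- Common values pass between the charts. -/
theorem commonValueAt_transfer (hf : ChartFibre B π P) (hf' : ChartFibre B' π P) {n : ℕ} {g : F}
    {T : ι → F} (h : CommonValueAt hf' n g T (transIdeal hu hB'B x)) : CommonValueAt hf n g T x := by
  obtain ⟨S, v, c, hS, hv, hgv, hY⟩ := h
  refine ⟨S, v, c, hS, hv, hasValue_of_transIdeal hu hB'B hux hgv, fun l hl => ?_⟩
  obtain ⟨Y, hYv, hU, hr⟩ := hY l (center_le_transIdeal hu hB'B hf hf' hl)
  exact ⟨Y, hasValue_of_transIdeal hu hB'B hux hYv, hU, hr⟩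

end Transfer

end Fermat.Agent.LL.Mazur
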