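/-
Mazur's principle: on the descended model a function which is a power on both components has its
product with the swapped function a power up to a constant and a power of the residue
characteristic.
-/
import Fermat.Agent.Models.Gamma0.Horizontal
import Fermat.Agent.Models.Gamma0.NodeW
import Fermat.Agent.Models.Gamma0.CuspSemi
import Fermat.Agent.Models.Gamma0.TwoCharts
import Fermat.Agent.GalRep.Semistable.Defect
import Fermat.Agent.LL.Mazur.SwapValue

set_option autoImplicit false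
set_option linter.style.haveILetI false
set_option linter.unusedSectionVars false

noncomputable section

namespace Fermat.Agent.LL.Mazur

open UpperHalfPlane CongruenceSubgroup IsLocalRing
open Fermat.Agent.Galois (GQ)
open Fermat.Agent.GalRep Fermat.Agent.GalRep.Level Fermat.Agent.GalRep.Semistable
open Fermat.Agent.ModField
open Fermat.Agent.NewVec
open Fermat.Agent.Models (IsPoint SemiPoints IsU rs HasRootAt ChartFibre center frobRestr CommonValueAt)
open Fermat.Agent.GalRep.Model (chartRing self_mem_chartRing exists_pow_mul_mem)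
open scoped MatrixGroups

variable {W : Type} [CommRing W] [IsDomain W] [IsDiscreteValuationRing W]
  [IsAlgClosed (ResidueField W)]
  {O : Type} [CommRing O] [IsDomain O] [IsDiscreteValuationRing O] [Algebra W O] [Module.Finite W O]
  [FaithfulSMul W O]
  {M : ℕ} [NeZero M] {E : Emb O M} {q m : ℕ} [Fact q.Prime] [NeZero q] [NeZero m]
  [Algebra W (Fld E)] [IsScalarTower W O (Fld E)]

set_option maxHeartbeats 800000 in
/-- A function which is a power on both components and on the generic fibre: its product with its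
image under an automorphism exchanging the components and fixing their crossing points is a global
power up to a constant and a power of `q`. -/
theorem exists_swap_root (hmax : maximalIdeal W = Ideal.span {(q : W)})
    (hgen : Algebra.adjoin W {E.ζ} = ⊤) (hζ : ∃ c : W, algebraMap W O c = E.ζ ^ q)
    (hM : M = q * m) (hqm : ¬ q ∣ m) (h3 : 3 ≤ m)
    (hpts₀ : SemiPoints (chartRing W (jF₀ W E q m)) (q : W))
    (hpts₁ : SemiPoints (chartRing W (jF₀ W E q m)⁻¹) (q : W))
    {π : O} (hπ : Irreducible π) (s : Fld₀ W E q m ≃+* Fld₀ W E q m)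
    (hconst : ∀ a : W, ∃ a' : W, s (algebraMap W _ a) = algebraMap W _ a' ∧
      residue W a' = residue W a ^ q)
    (hswap : ∀ i x, s x ∈ twoP W E q m hπ i ↔ x ∈ twoP W E q m hπ (!i))
    (hchart : ∀ b ∈ chartRing W (jF₀ W E q m), s b ∈ chartRing W (jF₀ W E q m))
    (hfixed : ∀ x : Ideal (chartRing W (jF₀ W E q m)), IsPoint (q : W) x →
      (∀ (i : Bool) (b : chartRing W (jF₀ W E q m)),
        (b : Fld₀ W E q m) ∈ (twoP W E q m hπ i).nonunits → b ∈ x) →
      ∀ b b' : chartRing W (jF₀ W E q m),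
        (b' : Fld₀ W E q m) = s (b : Fld₀ W E q m) → (b' ∈ x ↔ b ∈ x)) :
    ∃ L : ℕ, ∀ n : ℕ, 0 < n → IsUnit (n : W) →
      ∀ f : Fld₀ W E q m, f ≠ 0 →
      (∀ Q : Ideal (chartRing W (jF₀ W E q m)), Q.IsPrime → Q ≠ ⊥ →
        algebraMap W (chartRing W (jF₀ W E q m)) (q : W) ∉ Q → HasRootAt _ n f Q) →
      (∀ (w : Fld₀ W E q m), (w = jF₀ W E q m ∨ w = (jF₀ W E q m)⁻¹) →
        ∀ Q : Ideal (chartRing W w), Q.IsPrime → Q ≠ ⊥ →
        algebraMap W (chartRing W w) (q : W) ∉ Q → HasRootAt _ n (s f * f ^ q) Q) →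
      (∀ δ : SL(2, ℤ), ∃ T : Fld₀ W E q m,
        IsU (comp hπ δ) (T ^ n / f) ∧ rs (comp hπ δ) (T ^ n / f) = 1) →
      ∃ (c : W) (h : Fld₀ W E q m), c ≠ 0 ∧ h ≠ 0 ∧
        h ^ n = algebraMap W _ c * (s f * f ^ q) ^ (q ^ L) := by
  classical
  have hq : q.Prime := Fact.out
  have hqW := hmax
  have hqM : q ∣ M := Dvd.intro m hM.symm
  have hmM : m ∣ M := Dvd.intro_left q hM.symm
  have hirr : Irreducible (q : W) :=
    (IsDiscreteValuationRing.irreducible_iff_uniformizer _).mpr hqW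
  have hw₀ := coord_jF (W := W) (E := E) (q := q) (m := m) hπ
  have hw₁ := coord_inv_jF (W := W) (E := E) (q := q) (m := m) hπ
  haveI := hw₀.isFractionRing
  haveI := hw₁.isFractionRing
  have hf₀ := chartFibre_two hqW hqM hmM hqm hpts₀ hw₀ hpts₀
  have hf₁ := chartFibre_two hqW hqM hmM hqm hpts₀ hw₁ hpts₁
  have hu := natCast_mem_twoP (hπ := hπ) (W := W) (E := E) (m := m) hqW
  have hm₀ := center_two_not_isMaximal hqW hqM hmM hqm hpts₀ hw₀ hpts₀
  have hm₁ := center_two_not_isMaximal hqW hqM hmM hqm hpts₀ hw₁ hpts₁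
  have hc₀ := center_two_injective hqW hqM hmM hqm hpts₀ hw₀ hpts₀
  have hc₁ := center_two_injective hqW hqM hmM hqm hpts₀ hw₁ hpts₁
  have hq0 := natCast_fld₀_ne_zero (W := W) (E := E) (q := q) (m := m) hqW
  have hN₀ := Models.branchNormal hf₀ hpts₀ hu hm₀ hq0
  have hN₁ := Models.branchNormal hf₁ hpts₁ hu hm₁ hq0
  obtain ⟨L, hL⟩ := Models.exists_targets_root (model₀ W E q m) hirr
    algebraMap_fld₀_injective q hq (hqW ▸ Ideal.mem_span_singleton_self _) hf₀ hf₁ hu hN₀ hN₁
    hc₀ hc₁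
  refine ⟨L, fun n hn hnW f hf hr hrg hT => ?_⟩
  choose T hT using fun i : Bool => hT (if i then ModularGroup.S else 1)
  set T' := fun i => s (T (!i)) * T i ^ q
  have hT' := swap_targets hswap (q := q) hT
  have hg0 : s f * f ^ q ≠ 0 := mul_ne_zero ((map_ne_zero s).mpr hf) (pow_ne_zero _ hf)
  have hroot := Models.hasRootAt_all hf₀ hpts₀ hu hm₀ hq0 hn hf
    (fun i => ⟨T i, (hT i).1⟩) hr
  -- the crossing points of the chart of `j`
  have hX₀ : ∀ x, IsPoint (q : W) x → (∀ i, center hf₀ i ≤ x) →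
      CommonValueAt hf₀ n (s f * f ^ q) T' x := fun x hx hcen => by
    refine commonValueAt_swap hirr hf₀ hN₀ hq.pos hconst hswap hchart hn hf hx ?_ hcen
      (hroot x hx.1) hT
    ext b
    rw [Ideal.mem_comap]
    exact hfixed x hx (fun i b hb => hcen i (Models.mem_center.mpr hb)) b _
      (Models.coe_frobRestr hchart b)
  have hboth : ∀ {i j : Bool}, i ≠ j → ∀ (P : Bool → Prop), P i → P j → ∀ k, P k := by
    intro i j hij P hi hj k
    cases i <;> cases j <;> cases k <;> first | assumption | exact absurd rfl hij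
  have hX₁ : ∀ x : Ideal (chartRing W (jF₀ W E q m)⁻¹), IsPoint (q : W) x →
      (∀ i, center hf₁ i ≤ x) → CommonValueAt hf₁ n (s f * f ^ q) T' x := fun x hx hcen => by
    haveI := hx.1
    haveI := hx.1.isPrime
    have huB : (jF₀ W E q m)⁻¹ ∈ chartRing W (jF₀ W E q m)⁻¹ := self_mem_chartRing _
    by_cases hux : (⟨(jF₀ W E q m)⁻¹, huB⟩ : chartRing W (jF₀ W E q m)⁻¹) ∈ x
    · exact absurd hcen (not_both_of_smooth hf₁ hu hm₁ hc₁ hx.1
        (isSmoothPoint_cusp hqW hgen hζ hM hqm h3 x hx.2 hux))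
    have hw0 := jF₀_ne_zero W E q m
    have hwu : jF₀ W E q m * (jF₀ W E q m)⁻¹ = 1 := mul_inv_cancel₀ hw0
    have hBB' : ∀ b ∈ chartRing W (jF₀ W E q m)⁻¹, ∃ e : ℕ,
        jF₀ W E q m ^ e * b ∈
          chartRing W (jF₀ W E q m) :=
      fun b hb => exists_pow_mul_mem rfl hw0 hb
    have hB'B : ∀ b ∈ chartRing W (jF₀ W E q m), ∃ e : ℕ,
        (jF₀ W E q m)⁻¹ ^ e * b ∈ chartRing W (jF₀ W E q m)⁻¹ :=
      fun b hb => exists_pow_mul_mem (inv_inv _).symm (inv_ne_zero hw0) hb
    have hmax' := Models.isMaximal_transIdeal (hB'B := hB'B) hux (self_mem_chartRing _) hwu hBB'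
      (exists_const_of_isMaximal hqW (w := (jF₀ W E q m)⁻¹) (aeval_inv_jF_injective _) (fixedRational_inv_jF _)
        x hx.2)
    refine commonValueAt_transfer huB hB'B hux hf₁ hf₀ (hX₀ _ ⟨hmax', ?_⟩
      fun k => center_le_transIdeal huB hB'B hf₁ hf₀ (hcen k))
    refine ⟨0, by rw [pow_zero, one_mul]; exact Subalgebra.algebraMap_mem _ _, ?_⟩
    convert hx.2 using 1
    refine Subtype.ext ?_
    show (jF₀ W E q m)⁻¹ ^ 0 * algebraMap W _ (q : W) = algebraMap W _ (q : W)
    rw [pow_zero, one_mul]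
  obtain ⟨c, h, hc, hh, he⟩ := hL n hn hnW _ hg0
    (Models.hasRootAt_all hf₀ hpts₀ hu hm₀ hq0 hn hg0 (fun i => ⟨T' i, (hT' i).1⟩)
      (hrg _ (Or.inl rfl)))
    (Models.hasRootAt_all hf₁ hpts₁ hu hm₁ hq0 hn hg0 (fun i => ⟨T' i, (hT' i).1⟩)
      (hrg _ (Or.inr rfl)))
    T' hT' (fun x i j hx hi hj hij => hX₀ x hx (hboth hij _ hi hj))
    (fun x i j hx hi hj hij => hX₁ x hx (hboth hij _ hi hj))
  exact ⟨c, h, fun h0 => hc (by rw [h0, map_zero]), hh, he⟩

end Fermat.Agent.LL.Mazur
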