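/-
The orders of the reduction of a function with `p`-th roots at all closed points of both charts
are divisible by `p`, for any exponent `p`, when the places are tame over the coordinate for `p`.
-/
import Fermat.Agent.Models.DetectDefs
import Fermat.Agent.Models.CoreExtend
import Fermat.Agent.Models.Wild.HdivTame
import Fermat.Agent.MCurve.PlaceBasics
import Fermat.Agent.MCurve.GenField

set_option autoImplicit false
set_option linter.style.haveILetI false
set_option linter.unusedSectionVars false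

noncomputable section

namespace Fermat.Agent.LL.Mazur

open IsLocalRing ModularCurve AlgebraicCurve
open Fermat.Agent.Models (HasRootAt ChartFibre)

variable {O F : Type} [CommRing O] [Field F] [Algebra O F] {ι : Type}
  {P : ι → ValuationSubring F} {π : O}

/-- Roots at the closed points make the reduced value a `p`-th power, at a valuation centred on a
closed point of the chart. -/
theorem exists_reduced_root {B : Subalgebra O F} {w : F} (hfib : ChartFibre B π P)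
    (hint : ∀ b ∈ B, IsIntegral (Algebra.adjoin O ({w} : Set F)) b) (hwB : w ∈ B) {p : ℕ}
    (hp : p ≠ 0) (i : ι) {K : Type} [Field K] (ρ : P i →+* K)
    (hker : ∀ z : P i, ρ z = 0 ↔ (z : F) ∈ (P i).nonunits) (Wv : ValuationSubring K)
    (hcst : ∀ (o : O) (ho : algebraMap O F o ∈ P i), ρ ⟨_, ho⟩ ∈ Wv)
    (hw : ∀ hmem : w ∈ P i, ρ ⟨w, hmem⟩ ∈ Wv)
    (hb : ∃ (b : B), ρ ⟨b, hfib.le i _ b.2⟩ ≠ 0 ∧ Wv.valuation (ρ ⟨b, hfib.le i _ b.2⟩) < 1)
    {f : F} (hroot : ∀ m : Ideal B, m.IsMaximal → HasRootAt B p f m)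
    (hf : f ∈ P i) (hf0 : ρ ⟨f, hf⟩ ≠ 0) :
    ∃ z : K, z ≠ 0 ∧ Wv.valuation (ρ ⟨f, hf⟩) = Wv.valuation z ^ p := by
  let A₁ := Algebra.adjoin O ({w} : Set F)
  have hle : ∀ {y : F}, y ∈ A₁ → y ∈ P i := fun hy =>
    hfib.le i _ (Algebra.adjoin_le (Set.singleton_subset_iff.mpr hwB) hy)
  let j : B →+* P i := B.val.toRingHom.codRestrict (P i).toSubring fun b => hfib.le i _ b.2
  let j₁ : A₁ →+* P i := A₁.val.toRingHom.codRestrict (P i).toSubring fun a => hle a.2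
  have hA : ∀ (y : F) (hy : y ∈ A₁), ρ (j₁ ⟨y, hy⟩) ∈ Wv := by
    intro y hy
    induction hy using Algebra.adjoin_induction with
    | mem y hy => rcases hy with rfl; exact hw _
    | algebraMap o => exact hcst o _
    | add a b ha hb iha ihb =>
      rw [show (⟨a + b, _⟩ : A₁) = ⟨a, ha⟩ + ⟨b, hb⟩ from rfl, map_add, map_add]
      exact add_mem iha ihb
    | mul a b ha hb iha ihb =>
      rw [show (⟨a * b, _⟩ : A₁) = ⟨a, ha⟩ * ⟨b, hb⟩ from rfl, map_mul, map_mul]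
      exact mul_mem iha ihb
  have hBW : ∀ b : B, ρ (j b) ∈ Wv := by
    intro b
    obtain ⟨Q, hQ, hQb⟩ := hint b b.2
    let g : A₁ →+* Wv := (ρ.comp j₁).codRestrict Wv.toSubring fun a => hA a a.2
    have h1 : Polynomial.eval₂ (ρ.comp j₁) (ρ (j b)) Q = 0 := by
      rw [← Polynomial.hom_eval₂, ← map_zero ρ]
      refine congrArg ρ (Subtype.ext ?_)
      show (P i).subtype (Polynomial.eval₂ j₁ (j b) Q) = 0
      rw [Polynomial.hom_eval₂]
      exact hQb
    have h2 : IsIntegral Wv (ρ (j b)) := ⟨Q.map g, hQ.map _, by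
      rw [Polynomial.eval₂_map]; exact h1⟩
    obtain ⟨u, hu⟩ := IsIntegrallyClosed.isIntegral_iff.mp h2
    exact hu ▸ u.2
  let φ : B →+* Wv := (ρ.comp j).codRestrict Wv.toSubring hBW
  set m := (maximalIdeal Wv).comap φ
  have hlt : ∀ b : B, b ∈ m ↔ Wv.valuation (ρ (j b)) < 1 := fun b =>
    Wv.valuation_lt_one_iff (φ b)
  have hcen : ∀ b : B, (b : F) ∈ (P i).nonunits → b ∈ m := fun b hbn => by
    rw [hlt, (hker (j b)).mpr hbn, map_zero]
    exact zero_lt_one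
  obtain ⟨b₀, hb0, hb1⟩ := hb
  have hm : m.IsMaximal := hfib.maximal_above i m inferInstance hcen
    ⟨b₀, (hlt b₀).mpr hb1, fun hn => hb0 ((hker (j b₀)).mpr hn)⟩
  obtain ⟨z, a, b, ha, hb', he⟩ := hroot m hm
  have hunit : ∀ c : B, c ∉ m → Wv.valuation (ρ (j c)) = 1 := fun c hc =>
    le_antisymm ((Wv.valuation_le_one_iff _).mpr (hBW c)) (not_lt.mp fun h' => hc ((hlt c).mpr h'))
  have hne : ∀ c : B, c ∉ m → (P i).valuation (c : F) = 1 := fun c hc =>
    le_antisymm ((ValuationSubring.valuation_le_one_iff _ _).mpr (j c).2) (not_lt.mp fun h' =>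
      hc (hcen c ((ValuationSubring.mem_nonunits_iff (P i)).mpr h')))
  have hfv : (P i).valuation f = 1 :=
    le_antisymm ((ValuationSubring.valuation_le_one_iff _ _).mpr hf) (not_lt.mp fun h' =>
      hf0 ((hker _).mpr ((ValuationSubring.mem_nonunits_iff (P i)).mpr h')))
  have hzv : (P i).valuation z = 1 := by
    have h1 := congrArg (P i).valuation he
    rw [map_mul, map_mul, map_pow] at h1
    change (P i).valuation (b : F) * _ = (P i).valuation (a : F) * _ at h1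
    rw [hne b hb', hne a ha, hfv, one_mul, one_mul] at h1
    exact (pow_eq_one_iff_of_nonneg zero_le hp).mp h1
  let zP : P i := ⟨z, (ValuationSubring.valuation_le_one_iff _ _).mp hzv.le⟩
  have e : j b * zP ^ p = j a * ⟨f, hf⟩ := Subtype.ext he
  refine ⟨ρ zP, fun h0 => ?_, ?_⟩
  · have := (hker zP).mp h0
    rw [ValuationSubring.mem_nonunits_iff, hzv] at this
    exact lt_irrefl _ this
  · have h1 := congrArg (fun x => Wv.valuation (ρ x)) e
    simp only [map_mul, map_pow, hunit b hb', hunit a ha, one_mul] at h1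
    exact h1.symm

variable {k : Type} [Field k] {K : Subfield (LaurentSeries k)} {p m m₀ : ℕ} [Fact p.Prime]
  [NeZero m] [NeZero m₀]

/-- A unit multiple by a `p`-th power at a place makes the order divisible by `p`. -/
theorem dvd_ord_of_unit {E : Type} [Field E] [Algebra k E] (Q : Place k E) {h y : E} {n : ℕ}
    (hh : h ≠ 0) (hy : y ≠ 0) (h1 : h * y ^ n ∈ Q.toValuationSubring)
    (h2 : (h * y ^ n)⁻¹ ∈ Q.toValuationSubring) : (n : ℤ) ∣ Q.ord h := by
  have hne : h * y ^ n ≠ 0 := mul_ne_zero hh (pow_ne_zero _ hy)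
  have e1 := (MCurve.mem_iff_ord_nonneg Q hne).mp h1
  have e2 := (MCurve.mem_iff_ord_nonneg Q (inv_ne_zero hne)).mp h2
  rw [Q.ord_inv] at e2
  rw [← zpow_natCast, Q.ord_mul hh (zpow_ne_zero _ hy), Q.ord_zpow] at e1 e2
  exact ⟨-Q.ord y, by linarith⟩

/-- Roots at all closed points of both charts make the orders of the reduction divisible by
`p`. -/
theorem dvd_ord_of_roots {w : F} (hw0 : w ≠ 0) {B₀ B₁ : Subalgebra O F}
    (hf₀ : ChartFibre B₀ π P) (hf₁ : ChartFibre B₁ π P)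
    (hi₀ : ∀ b ∈ B₀, IsIntegral (Algebra.adjoin O ({w} : Set F)) b)
    (hi₁ : ∀ b ∈ B₁, IsIntegral (Algebra.adjoin O ({w⁻¹} : Set F)) b)
    (hwB₀ : w ∈ B₀) (hwB₁ : w⁻¹ ∈ B₁) (i : ι) (ρ : P i →+* K)
    (hker : ∀ z : P i, ρ z = 0 ↔ (z : F) ∈ (P i).nonunits)
    (res : O →+* k) (hsurj : Function.Surjective res)
    (hcst : ∀ (o : O) (ho : algebraMap O F o ∈ P i),
      (ρ ⟨_, ho⟩ : LaurentSeries k) = HahnSeries.C (res o))
    (hj : ∀ hmem : w ∈ P i, (ρ ⟨w, hmem⟩ : LaurentSeries k) = qExpand k m (jqModC k))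
    (hqK : ∀ y ∈ modularFunctionFieldFullC k m₀, qExpand k m y ∈ K)
    (htame : ∀ Wv : ValuationSubring K,
      (∀ (c : k) (hc : HahnSeries.C c ∈ K), (⟨_, hc⟩ : K) ∈ Wv) → Wv ≠ ⊤ →
      ∃ u : K, u ≠ 0 ∧ Wv.valuation u < 1 ∧
        (∀ x : K, x ≠ 0 → ∃ n : ℤ, Wv.valuation x = Wv.valuation u ^ n) ∧
        ∃ n : ℕ, 0 < n ∧ ¬ p ∣ n ∧ ∀ (J : K),
          (J : LaurentSeries k) = qExpand k m (jqModC k) →
          ((∃ (c : k) (C : K), (C : LaurentSeries k) = HahnSeries.C c ∧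
              Wv.valuation (J - C) = Wv.valuation u ^ n) ∨
            Wv.valuation J⁻¹ = Wv.valuation u ^ n))
    {f : F} (hf : f ∈ P i) (hr₀ : ∀ m : Ideal B₀, m.IsMaximal → HasRootAt B₀ p f m)
    (hr₁ : ∀ m : Ideal B₁, m.IsMaximal → HasRootAt B₁ p f m)
    (y : modularFunctionFieldFullC k m₀) (hy0 : y ≠ 0)
    (hh : (ρ ⟨f, hf⟩ : LaurentSeries k) = qExpand k m (y : LaurentSeries k))
    (Q : Place k (modularFunctionFieldFullC k m₀)) : (p : ℤ) ∣ Q.ord y := by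
  let ι₀ : modularFunctionFieldFullC k m₀ →+* K :=
    ((qExpand k m).comp (modularFunctionFieldFullC k m₀).val.toRingHom).codRestrict _
      fun x => hqK _ x.2
  obtain ⟨Wv, hWv⟩ := Models.exists_comap_eq ι₀ Q.toValuationSubring
  have hιc : ∀ c : k, (ι₀ (algebraMap k _ c) : LaurentSeries k) = HahnSeries.C c := fun c => by
    show qExpand k m (algebraMap k (LaurentSeries k) c) = _
    rw [algebraMap_laurentSeries_eq_single, ← HahnSeries.C_apply, qExpand_C]
  have hW : ∀ (c : k) (hc : HahnSeries.C c ∈ K), (⟨_, hc⟩ : K) ∈ Wv := by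
    intro c hc
    rw [show (⟨_, hc⟩ : K) = ι₀ (algebraMap k _ c) from Subtype.ext (hιc c).symm]
    have := Q.algebraMap_mem' c
    rw [← hWv] at this
    exact this
  have htop : Wv ≠ ⊤ := fun h' => Q.ne_top' (by
    rw [← hWv, h']
    ext x
    simp only [ValuationSubring.mem_top, ValuationSubring.mem_comap])
  obtain ⟨u, hu, hu1, hgen, n, hn0, hpn, hJ⟩ := htame Wv hW htop
  have hcW : ∀ (o : O) (ho : algebraMap O F o ∈ P i), ρ ⟨_, ho⟩ ∈ Wv := fun o ho => by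
    rw [show ρ ⟨_, ho⟩ = ⟨_, hcst o ho ▸ (ρ ⟨_, ho⟩).2⟩ from Subtype.ext (hcst o ho)]
    exact hW _ _
  set jF : modularFunctionFieldFullC k m₀ := MCurve.jFullC k m₀
  have hιj : (ι₀ jF : LaurentSeries k) = qExpand k m (jqModC k) := rfl
  have hwP : w ∈ P i := hf₀.le i _ hwB₀
  have hρj : ρ ⟨w, hwP⟩ = ι₀ jF := Subtype.ext ((hj hwP).trans hιj.symm)
  have hne : Wv.valuation u ^ n ≠ 0 := pow_ne_zero n ((_root_.map_ne_zero _).mpr hu)
  have hlt : Wv.valuation u ^ n < 1 := pow_lt_one₀ zero_le hu1 hn0.ne'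
  have hfK : ρ ⟨f, hf⟩ = ι₀ y := Subtype.ext hh
  have hf0 : ρ ⟨f, hf⟩ ≠ 0 := fun h' => hy0 ((map_eq_zero ι₀).mp (hfK ▸ h'))
  have hp := (Fact.out : p.Prime)
  obtain ⟨x, hx, z, hz, hval⟩ : ∃ x, Wv.valuation (ι₀ x) = Wv.valuation u ^ n ∧
      ∃ z : K, z ≠ 0 ∧ Wv.valuation (ι₀ y) = Wv.valuation z ^ p := by
    rcases hJ (ι₀ jF) hιj with ⟨c, C, hC, hv⟩ | hv
    · obtain ⟨o, ho⟩ := hsurj c
      have hC' : C = ι₀ (algebraMap k _ c) := Subtype.ext (hC.trans (hιc c).symm)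
      refine ⟨jF - algebraMap k _ c, by rw [map_sub, ← hC']; exact hv, ?_⟩
      have hoP : algebraMap O F o ∈ P i := hf₀.le i _ (B₀.algebraMap_mem o)
      have hb : ρ ⟨((⟨w, hwB₀⟩ : B₀) - algebraMap O B₀ o : B₀),
            hf₀.le i _ (Subtype.mem _)⟩ = ι₀ jF - C := by
        rw [← hρj, show C = ρ ⟨algebraMap O F o, hoP⟩ from Subtype.ext
          (hC.trans ((hcst o hoP).trans (congrArg _ ho)).symm), ← map_sub]
        rfl
      have hjW : ρ ⟨w, hwP⟩ ∈ Wv := by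
        rw [hρj, ← sub_add_cancel (ι₀ jF) C]
        refine add_mem ((Wv.valuation_le_one_iff _).mp (hv ▸ hlt.le)) ?_
        have := hW c (hC ▸ C.2)
        rwa [show (⟨HahnSeries.C c, hC ▸ C.2⟩ : K) = C from Subtype.ext hC.symm] at this
      obtain ⟨z, hz, hzv⟩ := exists_reduced_root hf₀ hi₀ hwB₀ hp.ne_zero i ρ hker Wv hcW
        (fun _ => hjW) ⟨_, fun h' => hne (by rw [← hv, ← hb, h', map_zero]), by rw [hb, hv]; exact hlt⟩
        hr₀ hf hf0
      exact ⟨z, hz, hfK ▸ hzv⟩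
    · refine ⟨jF⁻¹, by rw [map_inv₀]; exact hv, ?_⟩
      have hwP' : w⁻¹ ∈ P i := hf₁.le i _ hwB₁
      have hinv : ρ ⟨w⁻¹, hwP'⟩ = (ι₀ jF)⁻¹ := by
        refine eq_inv_of_mul_eq_one_left ?_
        rw [← hρj, ← map_mul, ← map_one ρ]
        exact congrArg ρ (Subtype.ext (inv_mul_cancel₀ hw0))
      obtain ⟨z, hz, hzv⟩ := exists_reduced_root hf₁ hi₁ hwB₁ hp.ne_zero i ρ hker Wv hcW
        (fun _ => by rw [hinv]; exact (Wv.valuation_le_one_iff _).mp (hv ▸ hlt.le))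
        ⟨⟨_, hwB₁⟩, fun h' => hne (by rw [← hv, ← hinv, h', map_zero]),
          by rw [hinv, hv]; exact hlt⟩
        hr₁ hf hf0
      exact ⟨z, hz, hfK ▸ hzv⟩
  obtain ⟨t, ht, h1, h2⟩ := Models.exists_pow_mul_unit ι₀ Wv hp hu hu1 hgen hpn hx hz hval
  exact dvd_ord_of_unit Q hy0 ht (hWv ▸ h1) (hWv ▸ h2)

end Fermat.Agent.LL.Mazur
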