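/-
A second coordinate over the affine line when the degree is prime to the characteristic.
-/
import Fermat.Agent.MCurve.T27.Reduction.Coordinate
import Fermat.Agent.MCurve.T27.Canonical
import Mathlib.FieldTheory.PrimitiveElement

set_option autoImplicit false
set_option linter.unusedSectionVars false
set_option linter.style.haveILetI false

noncomputable section

namespace Fermat.Agent.LL.Mazur

open AlgebraicCurve Fermat.Agent.MCurve Fermat.Agent.MCurve.RR Fermat.Agent.MCurve.MW Fermat.Agent.MCurve.T27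
open Polynomial IntermediateField
open scoped Classical

variable {K F : Type*} [Field K] [Field F] [Algebra K F] [IsAlgClosed K]
  [∀ v : Place K F, v.FiniteResidue] [HasPrincipalDivisors K F] [Nonempty (Place K F)]

/-- A monic polynomial separable after an injective map has a common value with its derivative. -/
theorem exists_bezout_sep {P : K[X][X]} (hP : P.Monic) (hd : 0 < P.natDegree) {L : Type*} [Field L]
    (φ : K[X] →+* L) (hφ : Function.Injective φ) (hsep : (P.map φ).Separable) :
    ∃ (R : K[X]) (A B : K[X][X]), A * P + B * derivative P = C R ∧ R ≠ 0 := by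
  obtain ⟨A, B, -, -, e⟩ := exists_mul_add_mul_eq_C_resultant (m := P.natDegree)
    (n := (derivative P).natDegree) P (derivative P) le_rfl le_rfl (Or.inl hd.ne')
  refine ⟨_, A, B, by rw [← e]; ring, fun h0 => ?_⟩
  have h := congrArg φ h0
  rw [map_zero, ← resultant_map_map, ← derivative_map] at h
  have := resultant_ne_zero _ _ hsep
  rw [hP.natDegree_map, derivative_map, natDegree_map_eq_of_injective hφ, ← derivative_map] at this
  exact this h

/-- The degree over the line of the first coordinate. -/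
theorem finrank_line (X : Setup K F) : Module.finrank K⟮X.f⟯ F = X.c + 1 := by
  have hdiv : poleDiv K X.f = Finsupp.single X.inf ((X.c + 1 : ℕ) : ℤ) := by
    refine Finsupp.ext fun v => ?_
    rw [poleDiv_apply, Finsupp.single_apply]
    split_ifs with h
    · rw [← h, X.f_inf]; push_cast; omega
    · have := X.f_pole v (Ne.symm h); omega
  obtain ⟨P, hP, hdP⟩ := exists_pole_divisor X.f_fin
  have : P = poleDiv K X.f := Finsupp.ext fun v => by rw [hP, poleDiv_apply]
  rw [this, hdiv, Divisor.degree_single, deg_one, Nat.cast_one, mul_one] at hdP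
  exact_mod_cast hdP.symm

/-- With a degree prime to the characteristic the field is separable over the line. -/
theorem isSeparable_line (X : Setup K F) (hc : ((X.c + 1 : ℕ) : K) ≠ 0) :
    Algebra.IsSeparable K⟮X.f⟯ F := by
  haveI := X.f_fin.finite
  refine ⟨fun α => ?_⟩
  have hint : IsIntegral K⟮X.f⟯ α := IsIntegral.of_finite _ _
  have hdvd : (minpoly K⟮X.f⟯ α).natDegree ∣ X.c + 1 := finrank_line X ▸ minpoly.degree_dvd hint
  have hne : ((minpoly K⟮X.f⟯ α).natDegree : K⟮X.f⟯) ≠ 0 := fun h => by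
    obtain ⟨k, hk⟩ := hdvd
    refine hc ((algebraMap K K⟮X.f⟯).injective ?_)
    rw [map_natCast, map_zero, hk, Nat.cast_mul, h, zero_mul]
  refine (separable_iff_derivative_ne_zero (minpoly.irreducible hint)).mpr fun h => hne ?_
  have hpos := minpoly.natDegree_pos hint
  have h1 := congrArg (fun p => coeff p ((minpoly K⟮X.f⟯ α).natDegree - 1)) h
  simp only [coeff_derivative, coeff_zero] at h1
  rw [Nat.sub_add_cancel hpos, coeff_natDegree, (minpoly.monic hint).leadingCoeff, one_mul] at h1
  rw [← h1, ← Nat.cast_succ, Nat.succ_eq_add_one, Nat.sub_add_cancel hpos]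

/-- A second coordinate over the line, in any characteristic. -/
theorem exists_coordinate_sep {X : Setup K F} [Algebra.IsSeparable K⟮X.f⟯ F] (Fr : Frame X) :
    Nonempty (Coordinate X) := by
  haveI := X.f_fin.finite
  have hdiv : poleDiv K X.f = Finsupp.single X.inf ((X.c + 1 : ℕ) : ℤ) := by
    refine Finsupp.ext fun v => ?_
    rw [poleDiv_apply, Finsupp.single_apply]
    split_ifs with h
    · rw [← h, X.f_inf]; push_cast; omega
    · have := X.f_pole v (Ne.symm h); omega
  have hn : Module.finrank K⟮X.f⟯ F = X.c + 1 := by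
    obtain ⟨P, hP, hdP⟩ := exists_pole_divisor X.f_fin
    have : P = poleDiv K X.f := Finsupp.ext fun v => by rw [hP, poleDiv_apply]
    rw [this, hdiv, Divisor.degree_single, deg_one, Nat.cast_one, mul_one] at hdP
    exact_mod_cast hdP.symm
  obtain ⟨α, hα0, hα⟩ : ∃ α : F, α ≠ 0 ∧ (K⟮X.f⟯)⟮α⟯ = ⊤ := by
    obtain ⟨α, hα⟩ := Field.exists_primitive_element K⟮X.f⟯ F
    rcases eq_or_ne α 0 with rfl | h
    · exact ⟨1, one_ne_zero, by rw [← hα]; simp⟩
    · exact ⟨α, h, hα⟩
  obtain ⟨p, hp, m, hm⟩ := exists_clear_poles X.f_fin.transcendental (K := K) hα0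
  set w := aeval X.f p * α with hw
  have hwL : w ∈ X.L (m * (X.c + 1)) := by
    rw [hdiv, Finsupp.smul_single] at hm
    convert hm using 3
    simp
  have hψ0 : ∀ q : K[X], q ≠ 0 → aeval (AdjoinSimple.gen K X.f) q ≠ 0 := fun q hq h =>
    hq (transcendental_iff.mp X.f_fin.transcendental q (by
      have h' := congrArg (algebraMap K⟮X.f⟯ F) h
      rwa [← aeval_algebraMap_apply, map_zero] at h'))
  set ψ : K[X] →+* K⟮X.f⟯ := (aeval (AdjoinSimple.gen K X.f) : K[X] →ₐ[K] K⟮X.f⟯).toRingHom with hψ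
  have hψF : ∀ q : K[X], algebraMap K⟮X.f⟯ F (ψ q) = aeval X.f q := fun q =>
    (aeval_algebraMap_apply F (AdjoinSimple.gen K X.f) q).symm
  have hwgen : (K⟮X.f⟯)⟮w⟯ = ⊤ := by
    refine top_unique (hα ▸ adjoin_simple_le_iff.mpr ?_)
    have e : α = algebraMap K⟮X.f⟯ F (ψ p)⁻¹ * w := by
      rw [map_inv₀, hψF, hw, inv_mul_cancel_left₀]
      intro h
      exact hp (transcendental_iff.mp X.f_fin.transcendental p h)
    rw [e]
    exact mul_mem (IntermediateField.algebraMap_mem _ _) (mem_adjoin_simple_self _ _)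
  have hint : IsIntegral K⟮X.f⟯ w := IsIntegral.of_finite _ _
  have hdeg : (minpoly K⟮X.f⟯ w).natDegree = X.c + 1 := by
    rw [← adjoin.finrank hint, hwgen, finrank_top', hn]
  -- the characteristic polynomial of multiplication
  set M : Matrix (Fin (X.c + 1)) (Fin (X.c + 1)) K[X] := fun i k => Fr.coord (w * Fr.b i) k
  set P := M.charpoly with hPdef
  have hPm : P.Monic := Matrix.charpoly_monic M
  have hPd : P.natDegree = X.c + 1 := by
    rw [hPdef, Matrix.charpoly_natDegree_eq_dim, Fintype.card_fin]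
  have hroot : ev2 X.f w P = 0 := by
    show P.eval₂ (aeval X.f : K[X] →ₐ[K] F).toRingHom w = 0
    rw [eval₂_eq_eval_map, hPdef, ← Matrix.charpoly_map, Matrix.eval_charpoly,
      ← Matrix.exists_mulVec_eq_zero_iff]
    refine ⟨Fr.b, fun h => Fr.ne_zero 0 (congrFun h 0), funext fun i => ?_⟩
    have hc : ∑ k, aeval X.f (M i k) * Fr.b k = w * Fr.b i :=
      Fr.comb_coord (Setup.mul_mem_L hwL (Fr.mem i))
    rw [Matrix.sub_mulVec, Pi.sub_apply, Matrix.scalar_apply, Matrix.mulVec_diagonal]
    simp only [Matrix.mulVec, dotProduct, Matrix.map_apply, Pi.zero_apply]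
    exact sub_eq_zero.mpr hc.symm
  have hPψ : P.map ψ = minpoly K⟮X.f⟯ w := by
    refine (minpoly.unique' _ _ (hPm.map ψ) ?_ fun q hq => ?_)
    · rw [aeval_def, eval₂_map, ← hroot]
      exact congrArg (fun g => P.eval₂ g w) (RingHom.ext hψF)
    · rw [or_iff_not_imp_left]
      intro hq0 h
      have h1 := minpoly.degree_le_of_ne_zero K⟮X.f⟯ w hq0 h
      rw [degree_eq_natDegree (minpoly.ne_zero hint), hdeg] at h1
      rw [degree_eq_natDegree (hPm.map ψ).ne_zero, hPm.natDegree_map, hPd] at hq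
      exact absurd (h1.trans_lt hq) (lt_irrefl _)
  obtain ⟨R, A, B, hAB, hR0⟩ := exists_bezout_sep hPm (by rw [hPd]; omega) ψ
    ((injective_iff_map_eq_zero ψ).mpr fun q hq => not_not.mp fun h => hψ0 q h hq)
    (hPψ ▸ (Algebra.IsSeparable.isSeparable K⟮X.f⟯ w : (minpoly K⟮X.f⟯ w).Separable))
  -- the powers of `w` in the basis
  set T : Matrix (Fin (X.c + 1)) (Fin (X.c + 1)) K[X] := fun i k => Fr.coord (w ^ (i : ℕ)) k
  have hwi : ∀ i : ℕ, w ^ i ∈ X.L (i * (m * (X.c + 1))) := fun i => by
    induction i with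
    | zero => simpa using X.one_mem_L 0
    | succ i ih => rw [pow_succ, Nat.succ_mul]; exact Setup.mul_mem_L ih hwL
  have hT : ∀ i : Fin (X.c + 1), ∑ k, aeval X.f (T i k) * Fr.b k = w ^ (i : ℕ) := fun i =>
    Fr.comb_coord (hwi i)
  have hdet : T.det ≠ 0 := fun h => by
    obtain ⟨v, hv, hvT⟩ := Matrix.exists_vecMul_eq_zero_iff.mpr h
    have e : ∑ i, aeval X.f (v i) * w ^ (i : ℕ) = 0 := by
      simp_rw [← hT, Finset.mul_sum]
      rw [Finset.sum_comm]
      refine Finset.sum_eq_zero fun k _ => ?_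
      have := congrFun hvT k
      simp only [Matrix.vecMul, dotProduct, Pi.zero_apply] at this
      simp_rw [← mul_assoc, ← map_mul, ← Finset.sum_mul, ← map_sum, this, map_zero, zero_mul]
    set q : K⟮X.f⟯[X] := ∑ i : Fin (X.c + 1), C (ψ (v i)) * Polynomial.X ^ (i : ℕ) with hq
    have hq0 : q = 0 := by
      by_contra hne
      have h1 := natDegree_le_of_dvd (minpoly.dvd K⟮X.f⟯ w (p := q) (by
        rw [← e, hq, map_sum]
        exact Finset.sum_congr rfl fun i _ => by rw [map_mul, aeval_C, map_pow, aeval_X, hψF])) hne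
      have h2 : q.natDegree ≤ X.c :=
        natDegree_sum_le_of_forall_le _ _ fun i _ =>
          (natDegree_C_mul_X_pow_le _ _).trans (Nat.lt_succ_iff.mp i.2)
      omega
    refine hv (funext fun i => ?_)
    by_contra hvi
    refine hψ0 (v i) hvi ?_
    have := congrArg (fun q => coeff q (i : ℕ)) hq0
    simpa [hq, hψ, finsetSum_coeff, coeff_C_mul_X_pow, Fin.val_inj] using this
  refine ⟨⟨w, P, T.det * R, ⟨_, hwL⟩, hPm, hPd, hroot, mul_ne_zero hdet hR0, fun n a ha => ?_,
    fun c hc => ?_⟩⟩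
  · obtain ⟨q, hq, -⟩ := Fr.exists_comb ha
    refine ⟨1, ∑ k, C (R * q k) * ∑ i : Fin (X.c + 1), C (T.adjugate k i) * Polynomial.X ^ (i : ℕ),
      ?_⟩
    simp only [ev2_sum, ev2_mul, ev2_C, ev2_X, ev2_pow, pow_one, map_mul]
    rw [← hq, show Fr.comb q = ∑ k, aeval X.f (q k) * Fr.b k from rfl, Finset.mul_sum]
    refine Finset.sum_congr rfl fun k _ => ?_
    have e : ∑ i, aeval X.f (T.adjugate k i) * w ^ (i : ℕ) = aeval X.f T.det * Fr.b k := by
      simp_rw [← hT, Finset.mul_sum]
      rw [Finset.sum_comm]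
      simp_rw [← mul_assoc, ← map_mul, ← Finset.sum_mul, ← map_sum]
      have h1 : ∀ l, ∑ i, T.adjugate k i * T i l = if k = l then T.det else 0 := fun l => by
        have := congrFun (congrFun (Matrix.adjugate_mul T) k) l
        rwa [Matrix.mul_apply, Matrix.smul_apply, Matrix.one_apply, smul_eq_mul, mul_ite,
          mul_one, mul_zero] at this
      simp only [h1, apply_ite, map_zero, ite_mul, zero_mul, Finset.sum_ite_eq, Finset.mem_univ,
        if_true]
    rw [e]
    ring
  · rw [eval_mul, mul_ne_zero_iff] at hc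
    refine ⟨C (R.eval c)⁻¹ * A.map (evalRingHom c), C (R.eval c)⁻¹ * B.map (evalRingHom c), ?_⟩
    rw [derivative_map, mul_assoc, mul_assoc, ← mul_add, ← Polynomial.map_mul, ← Polynomial.map_mul,
      ← Polynomial.map_add, hAB, Polynomial.map_C, coe_evalRingHom, ← map_mul,
      inv_mul_cancel₀ hc.2, map_one]

/-- A setup with a second coordinate, in any characteristic. -/
theorem exists_setup_coord {x : F} (hx : IsFinOver K x) :
    ∃ X : Setup K F, Nonempty (Coordinate X) := by
  obtain ⟨g, c, hR⟩ := exists_isRiemann hx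
  obtain ⟨v⟩ := ‹Nonempty (Place K F)›
  obtain ⟨c', hc', hne⟩ : ∃ c' : ℕ, max (2 * g) c ≤ c' ∧ ((c' + 1 : ℕ) : K) ≠ 0 := by
    by_cases h : ((max (2 * g) c + 1 : ℕ) : K) = 0
    · refine ⟨max (2 * g) c + 1, Nat.le_succ _, ?_⟩
      rw [Nat.cast_succ, h, zero_add]
      exact one_ne_zero
    · exact ⟨_, le_rfl, h⟩
  have hR' : IsRiemann K F g c' :=
    ⟨hR.le, fun D hD => hR.eq D (le_trans (by exact_mod_cast le_trans (le_max_right _ c) hc') hD)⟩
  obtain ⟨f, hf, hf0, hfi⟩ := hR'.exists_ord_eq
    (D := Finsupp.single v ((c' : ℕ) + 1 : ℤ)) (by rw [Divisor.degree_single, deg_one]; simp) v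
  rw [Finsupp.single_eq_same] at hfi
  have hft : Transcendental K f := fun ha => by
    obtain ⟨a, rfl⟩ := exists_algebraMap_eq_of_isAlgebraic ha
    rw [MCurve.ord_algebraMap] at hfi
    omega
  let X : Setup K F := ⟨v, g, c', hR', by omega, f, hx.of_transcendental hft,
    fun u hu => by
      simpa [Finsupp.single_eq_of_ne hu] using ((mem_space_iff.mp hf).resolve_left hf0) u, hfi⟩
  haveI := isSeparable_line X hne
  obtain ⟨Fr⟩ := exists_frame X
  exact ⟨X, exists_coordinate_sep Fr⟩

end Fermat.Agent.LL.Mazur
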