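/-
Classes killed by `n` number at most a constant times `n ^ (2 g)`, in any characteristic.
-/
import Fermat.Agent.MCurve.T27.Bound

set_option autoImplicit false
set_option linter.unusedSectionVars false
set_option linter.style.haveILetI false

noncomputable section

namespace Fermat.Agent.LL.Mazur

open AlgebraicCurve Fermat.Agent.MCurve Fermat.Agent.MCurve.RR Fermat.Agent.MCurve.MW Fermat.Agent.MCurve.T27
open scoped Classical

/-- The combination of the entries with weights the powers of `c`. -/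
def combAtVia {K ι : Type*} [Field K] [Fintype ι] (c : K) (x : ι → K) : K :=
  ∑ i, c ^ (Fintype.equivFin ι i : ℕ) * x i

/-- One of `m * m * r + 1` weights separates `m` tuples of length `r`. -/
theorem exists_combAtVia_injective {K ι J : Type*} [Field K] [Fintype ι] [Fintype J] (e : ℕ ↪ K)
    (x : J → ι → K) (hx : Function.Injective x) :
    ∃ k ∈ Finset.range (Fintype.card J * Fintype.card J * Fintype.card ι + 1),
      Function.Injective fun j => combAtVia (e k) (x j) := by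
  let p : J × J → Polynomial K := fun ab =>
    ∑ i, Polynomial.C (x ab.1 i - x ab.2 i) * Polynomial.X ^ (Fintype.equivFin ι i : ℕ)
  let s : Finset (J × J) := Finset.univ.filter fun ab => ab.1 ≠ ab.2
  have hd : ∀ ab, (p ab).natDegree ≤ Fintype.card ι := fun ab =>
    Polynomial.natDegree_sum_le_of_forall_le _ _ fun i _ =>
      (Polynomial.natDegree_C_mul_X_pow_le _ _).trans (Fintype.equivFin ι i).2.le
  have hp : ∀ ab ∈ s, p ab ≠ 0 := fun ab hab h => by
    refine (Finset.mem_filter.mp hab).2 (hx (funext fun i => sub_eq_zero.mp ?_))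
    have h1 := congrArg (fun q : Polynomial K => q.coeff (Fintype.equivFin ι i : ℕ)) h
    simp only [p, Polynomial.finsetSum_coeff, Polynomial.coeff_C_mul_X_pow, Polynomial.coeff_zero,
      Fin.val_inj, EmbeddingLike.apply_eq_iff_eq] at h1
    rwa [Finset.sum_ite_eq, if_pos (Finset.mem_univ _)] at h1
  have hq : (∏ ab ∈ s, p ab) ≠ 0 := Finset.prod_ne_zero_iff.mpr hp
  by_contra hne
  push Not at hne
  refine hq (Polynomial.eq_zero_of_natDegree_lt_card_of_eval_eq_zero' _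
    ((Finset.range (Fintype.card J * Fintype.card J * Fintype.card ι + 1)).image
      fun k : ℕ => e k) (fun y hy => ?_) ?_)
  · obtain ⟨k, hk, rfl⟩ := Finset.mem_image.mp hy
    obtain ⟨a, b, he, hab⟩ := Function.not_injective_iff.mp (hne k hk)
    rw [Polynomial.eval_prod]
    refine Finset.prod_eq_zero (i := (a, b)) (Finset.mem_filter.mpr ⟨Finset.mem_univ _, hab⟩) ?_
    simp only [combAtVia] at he
    simp only [p, Polynomial.eval_finsetSum, Polynomial.eval_mul, Polynomial.eval_C,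
      Polynomial.eval_pow, Polynomial.eval_X]
    rw [← sub_eq_zero] at he
    rw [← he, ← Finset.sum_sub_distrib]
    exact Finset.sum_congr rfl fun i _ => by ring
  · rw [Finset.card_image_of_injective _ e.injective, Finset.card_range]
    refine Nat.lt_succ_of_le ((Polynomial.natDegree_prod_le _ _).trans ?_)
    refine (Finset.sum_le_card_nsmul _ _ _ fun ab _ => hd ab).trans ?_
    rw [smul_eq_mul, ← Fintype.card_prod J J, ← Finset.card_univ (α := J × J)]
    exact Nat.mul_le_mul_right _ (Finset.card_filter_le _ _)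

variable {K F : Type*} [Field K] [Field F] [Algebra K F] [IsAlgClosed K]
  [∀ v : Place K F, v.FiniteResidue] [HasPrincipalDivisors K F] [Nonempty (Place K F)]

set_option maxHeartbeats 1000000 in
/-- Classes killed by `n` are at most a constant times `n ^ (2 g)`, in any characteristic. -/
theorem exists_torsion_count (X : Setup K F) : ∃ C : ℕ, ∀ n : ℕ, 0 < n →
    Finite {t : Pic0 K F // n • t = 0} →
      Nat.card {t : Pic0 K F // n • t = 0} ≤ C * n ^ (2 * X.g) := by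
  rcases Nat.eq_zero_or_pos X.g with hg | hg
  · refine ⟨1, fun n _ _ => ?_⟩
    haveI : Subsingleton {t : Pic0 K F // n • t = 0} := ⟨fun a b => Subtype.ext
      ((eq_zero_of_g_eq_zero X hg a.1).trans (eq_zero_of_g_eq_zero X hg b.1).symm)⟩
    rw [hg, mul_zero, pow_zero, mul_one]
    exact Finite.card_le_one_iff_subsingleton.mpr inferInstance
  obtain ⟨κ, hκ⟩ := X.exists_formulas
  obtain ⟨Dx₀, hDx₀⟩ := X.xT_cleared
  choose Φc hΦc hΦc' using hDx₀
  set Dx := Dx₀ + X.g * (X.g * (X.c + 1))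
  have hV : X.V ∈ X.PF Dx := Setup.PF_mono (Nat.le_add_left _ _) X.V_mem_PF
  set C' := 4 * κ * X.g + Dx + 1 with hC'
  refine ⟨C' ^ X.g + 1, fun n hn hfin => ?_⟩
  haveI := Fintype.ofFinite {t : Pic0 K F // n • t = 0}
  set m := Fintype.card {t : Pic0 K F // n • t = 0}
  set e := C' ^ X.g * n ^ (2 * X.g - 2) + 1 with he
  set M := n ^ 2 * e with hM
  set D := κ * (n + 1) ^ 2 with hD
  obtain ⟨Q₀, hQ₀⟩ := X.exists_regular
  set d := X.clT Q₀ - n • X.clT Q₀ with hd
  obtain ⟨Fd⟩ := hκ d n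
  obtain ⟨s, hs⟩ := Fd.complete Q₀ hQ₀.1 (by rw [hd, sub_add_cancel]; exact hQ₀.reg)
  obtain ⟨z, hz⟩ := X.exists_indep hn Fd s ⟨Q₀, hs⟩
  have hcount : (X.g * e * D + M * Dx + 1) ^ X.g < e ^ X.g * (M + 1) := by
    have h1 : X.g * e * D + M * Dx + 1 ≤ n ^ 2 * e * C' := by
      have h2 : (n + 1) ^ 2 ≤ 4 * n ^ 2 := by nlinarith
      have h3 : X.g * e * D ≤ X.g * e * (κ * (4 * n ^ 2)) :=
        Nat.mul_le_mul_left _ (Nat.mul_le_mul_left _ h2)
      have h4 : 1 ≤ n ^ 2 * e := Nat.mul_pos (pow_pos hn 2) (Nat.succ_pos _)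
      have h5 : n ^ 2 * e * C' =
          X.g * e * (κ * (4 * n ^ 2)) + n ^ 2 * e * Dx + n ^ 2 * e := by rw [hC']; ring
      rw [hM]
      omega
    have h6 : n ^ (2 * X.g) * C' ^ X.g ≤ n ^ 2 * e := by
      rw [show 2 * X.g = 2 + (2 * X.g - 2) by omega, pow_add, mul_assoc]
      exact Nat.mul_le_mul_left _ (by rw [he, mul_comm]; exact Nat.le_succ _)
    calc (X.g * e * D + M * Dx + 1) ^ X.g ≤ (n ^ 2 * e * C') ^ X.g := Nat.pow_le_pow_left h1 _
      _ = e ^ X.g * (n ^ (2 * X.g) * C' ^ X.g) := by rw [mul_pow, mul_pow, ← pow_mul]; ring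
      _ ≤ e ^ X.g * (n ^ 2 * e) := Nat.mul_le_mul_left _ h6
      _ < e ^ X.g * (M + 1) :=
        Nat.mul_lt_mul_of_pos_left (by omega) (pow_pos (Nat.succ_pos _) _)
  let e₀ : ℕ ↪ K := Infinite.natEmbedding K
  let Wk : ℕ → X.Tup → K := fun k =>
    ∑ i, (e₀ k ^ (Fintype.equivFin X.Coord i : ℕ)) • Φc i
  have hWk : ∀ k, Wk k ∈ X.PF Dx := fun k => Submodule.sum_mem _ fun i _ =>
    Submodule.smul_mem _ _ (Setup.PF_mono (Nat.le_add_right _ _) (hΦc i))
  have hWk' : ∀ k Q, X.V Q ≠ 0 → Wk k Q = X.V Q * combAtVia (e₀ k) (X.xT Q) := fun k Q hQ => by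
    simp only [Wk, combAtVia, Finset.sum_apply, Pi.smul_apply, smul_eq_mul, Finset.mul_sum, hΦc' _ Q hQ]
    exact Finset.sum_congr rfl fun i _ => by ring
  set K₀ := Finset.range (m * m * Fintype.card X.Coord + 1) with hK₀
  choose G hG₀ hGdeg hGrel using fun k => X.exists_relation_count (Fd.den_mem s)
    (fun j => Fd.num s (z j)) (fun j => Fd.num_mem s (z j)) (hWk k) hV hcount
  choose ik hik using hG₀
  choose Ψ hΨ hΨ' using fun k => X.exists_cleared (G k (ik k)) (hGdeg k (ik k))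
    (fun j => Fd.num s (z j)) (Fd.den s) (fun j => Fd.num_mem s (z j)) (Fd.den_mem s)
  have hΨ0 : ∀ k, Ψ k ≠ 0 := fun k h => by
    obtain ⟨Q, hQ, hp⟩ := hz (G k (ik k)) (hik k)
    have h1 := hΨ' k Q hQ
    rw [h, Pi.zero_apply, eq_comm, mul_eq_zero] at h1
    exact hp (h1.resolve_left (pow_ne_zero _ hQ))
  have hΦ := Setup.mul_mem_PF (Fd.den_mem s)
    (Setup.prod_mem_PF K₀ (fun _ => X.g * e * D) Ψ fun k _ => hΨ k)
  have hΦ0 : Fd.den s * ∏ k ∈ K₀, Ψ k ≠ 0 := X.mul_ne_zero_PF (Fd.den_mem s)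
    (Setup.prod_mem_PF K₀ (fun _ => X.g * e * D) Ψ fun k _ => hΨ k)
    (fun h => hs (congrFun h Q₀))
    (X.prod_ne_zero_PF K₀ (fun _ => X.g * e * D) Ψ (fun k _ => hΨ k) fun k _ => hΨ0 k)
  obtain ⟨Gd, hGd, hGdΦ⟩ := X.exists_good hΦ hΦ0
  have hu : ∀ u : Pic0 K F, ∃ Ψu ∈ X.PF (κ * (1 + 1) ^ 2 + Gd.totalDegree * (κ * (1 + 1) ^ 2)),
      Ψu ≠ 0 ∧ ∀ Q, Ψu Q ≠ 0 → ∃ R : X.Tup, X.IsRegT R ∧ X.clT R = u + X.clT Q ∧
        Gd.eval (X.xT R) ≠ 0 := fun u => by
    obtain ⟨Fu⟩ := hκ u 1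
    obtain ⟨su, Qu, hQu, hGu⟩ := X.exists_formula_good Fu Gd hGd
    obtain ⟨Ψ', hΨ₁, hΨ₂⟩ := X.exists_cleared Gd le_rfl (fun i => Fu.num su i) (Fu.den su)
      (fun i => Fu.num_mem su i) (Fu.den_mem su)
    refine ⟨Fu.den su * Ψ', Setup.mul_mem_PF (Fu.den_mem su) hΨ₁, fun h => ?_, fun Q hQ => ?_⟩
    · have h1 := congrFun h Qu
      rw [Pi.mul_apply, Pi.zero_apply, mul_eq_zero, hΨ₂ Qu hQu, mul_eq_zero] at h1
      exact h1.elim hQu fun h2 => h2.elim (fun h3 => pow_ne_zero _ hQu h3) hGu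
    · rw [Pi.mul_apply, mul_ne_zero_iff] at hQ
      obtain ⟨-, hreg, hx⟩ := Fu.sound su Q hQ.1
      rw [one_nsmul] at hreg hx
      obtain ⟨R, hR, hRc⟩ := hreg
      refine ⟨R, hR, hRc, fun h0 => hQ.2 ?_⟩
      rw [hΨ₂ Q hQ.1, ← funext hx, ← hRc, Setup.xc_clT hR, h0, mul_zero]
  choose Ψu hΨu hΨu0 hΨu' using hu
  obtain ⟨Q, hQ⟩ := Function.ne_iff.mp
    (X.prod_ne_zero_PF (Finset.univ : Finset {t : Pic0 K F // n • t = 0}) _ (fun t => Ψu t.1)
      (fun t _ => hΨu _) fun t _ => hΨu0 _)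
  rw [Pi.zero_apply, Finset.prod_apply, Finset.prod_ne_zero_iff] at hQ
  choose R hR hRc hRG using fun t : {t : Pic0 K F // n • t = 0} =>
    hΨu' t.1 Q (hQ t (Finset.mem_univ t))
  have hΦR : ∀ t, Fd.den s (R t) ≠ 0 ∧ ∀ k ∈ K₀, Ψ k (R t) ≠ 0 := fun t => by
    have h1 := hGdΦ (R t) (hR t) (hRG t)
    simp only [Pi.mul_apply, Finset.prod_apply, mul_ne_zero_iff, Finset.prod_ne_zero_iff] at h1
    exact h1
  have hy : ∀ t i, X.xc (d + n • X.clT Q) i = Fd.num s i (R t) / Fd.den s (R t) := fun t => by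
    obtain ⟨-, h1, h2⟩ := Fd.sound s (R t) (hΦR t).1
    have e1 : n • X.clT (R t) = n • X.clT Q := by rw [hRc, nsmul_add, t.2, zero_add]
    rw [e1] at h2
    exact h2
  have hinj : Function.Injective fun t => X.xT (R t) := fun t t' h => by
    have h1 := X.xc_injective (hR t).reg (hR t').reg (by
      rw [Setup.xc_clT (hR t), Setup.xc_clT (hR t')]; exact h)
    rw [hRc, hRc] at h1
    exact Subtype.ext (add_right_cancel h1)
  obtain ⟨k, hk, hkinj⟩ := exists_combAtVia_injective e₀ _ hinj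
  set yz : Fin X.g → K := fun j => X.xc (d + n • X.clT Q) (z j)
  have hyz : ∀ t, yz = fun j => Fd.num s (z j) (R t) / Fd.den s (R t) :=
    fun t => funext fun j => hy t _
  set P : Polynomial K := ∑ i : Fin (M + 1), Polynomial.C ((G k i).eval yz) *
    Polynomial.X ^ (i : ℕ) with hPdef
  set t₀ : {t : Pic0 K F // n • t = 0} := ⟨0, smul_zero _⟩
  have hne : (G k (ik k)).eval yz ≠ 0 := fun h0 => by
    have h1 := hΨ' k (R t₀) (hΦR t₀).1
    rw [← hyz t₀, h0, mul_zero] at h1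
    exact (hΦR t₀).2 k hk h1
  have hP0 : P ≠ 0 := fun h => hne (by
    have h1 := congrArg (fun q : Polynomial K => q.coeff (ik k : ℕ)) h
    simpa [P, Polynomial.finsetSum_coeff, Polynomial.coeff_X_pow, Fin.val_inj] using h1)
  have hPd : P.natDegree ≤ M := Polynomial.natDegree_sum_le_of_forall_le _ _ fun i _ =>
    (Polynomial.natDegree_C_mul_X_pow_le _ _).trans (Nat.lt_succ_iff.mp i.2)
  have hroot : (Finset.univ.image fun t => combAtVia (e₀ k) (X.xT (R t))).val ≤ P.roots := by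
    refine (Multiset.le_iff_subset (Finset.nodup _)).mpr fun x hx => ?_
    obtain ⟨t, -, rfl⟩ := Finset.mem_image.mp hx
    rw [Polynomial.mem_roots hP0]
    have h1 := hGrel k (R t) (hΦR t).1 (hR t).1
    rw [← hyz t, hWk' k _ (hR t).1, mul_div_cancel_left₀ _ (hR t).1] at h1
    simpa [Polynomial.IsRoot, P, Polynomial.eval_finsetSum] using h1
  have hcard : m ≤ M := by
    have h1 := Multiset.card_le_card hroot
    rw [Finset.card_val, Finset.card_image_of_injective _ hkinj, Finset.card_univ] at h1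
    exact h1.trans ((Polynomial.card_roots' P).trans hPd)
  rw [Nat.card_eq_fintype_card]
  refine hcard.trans ?_
  have h2 : n ^ 2 ≤ n ^ (2 * X.g) := Nat.pow_le_pow_right hn (by omega)
  calc n ^ 2 * e = C' ^ X.g * n ^ (2 * X.g) + n ^ 2 := by
        rw [he, show 2 * X.g = 2 + (2 * X.g - 2) by omega, pow_add,
          show 2 + (2 * X.g - 2) - 2 = 2 * X.g - 2 by omega]; ring
    _ ≤ (C' ^ X.g + 1) * n ^ (2 * X.g) := by rw [add_mul, one_mul]; omega

end Fermat.Agent.LL.Mazur
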