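/-
The torsion of degree-zero classes prime to the characteristic has rank at most twice the genus.
-/
import Fermat.Agent.MCurve.T27.Assemble
import Fermat.Agent.LL.Mazur.TorsionCount
import Fermat.Agent.LL.Mazur.TorsionCoord

set_option autoImplicit false
set_option linter.unusedSectionVars false
set_option linter.style.haveILetI false

noncomputable section

namespace Fermat.Agent.LL.Mazur

open AlgebraicCurve Fermat.Agent.MCurve Fermat.Agent.MCurve.RR Fermat.Agent.MCurve.MW Fermat.Agent.MCurve.T27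

/-- In any characteristic: at most `ℓ ^ (2 g)` classes killed by a prime `ℓ` invertible in `K`. -/
theorem card_torsion_le {K F : Type} [Field K] [Field F] [Algebra K F] [IsAlgClosed K]
    {x : F} (hx : IsFinOver K x) [∀ v : Place K F, v.FiniteResidue] [HasPrincipalDivisors K F]
    [Nonempty (Place K F)] {ℓ : ℕ} (hℓ : ℓ.Prime) (hℓK : (ℓ : K) ≠ 0) :
    Finite {t : Pic0 K F // ℓ • t = 0} ∧
      Nat.card {t : Pic0 K F // ℓ • t = 0} ≤ ℓ ^ (2 * genusFF K F) := by
  obtain ⟨X, ⟨Co⟩⟩ := exists_setup_coord hx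
  obtain ⟨C, hC⟩ := exists_torsion_count X
  have hfin : ∀ j : ℕ, Finite {t : Pic0 K F // ℓ ^ j • t = 0} := fun j =>
    Co.finite_torsion (by rw [Nat.cast_pow]; exact pow_ne_zero j hℓK)
  haveI : Finite {t : Pic0 K F // ℓ • t = 0} := Co.finite_torsion hℓK
  refine ⟨inferInstance, ?_⟩
  rw [genusFF_eq X]
  set b := Nat.card {t : Pic0 K F // ℓ • t = 0}
  by_contra hlt
  rw [not_le] at hlt
  refine hlt.ne' (eq_of_pow_le_mul_pow (pow_pos hℓ.pos _) hlt.le fun j => (show b ^ j ≤ C * (ℓ ^ (2 * X.g)) ^ j from ?_))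
  rw [← card_torsion_pow (X.divisible hℓ.pos) j, ← pow_mul, mul_comm (2 * X.g) j, pow_mul]
  exact hC _ (pow_pos hℓ.pos j) (hfin j)

end Fermat.Agent.LL.Mazur
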