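/-
A function modulo `q` with all orders divisible by `p` is, up to a `p`-th power, the reduction of
the Kummer function of a class at level `m`.
-/
import Fermat.Agent.MCurve.RootBridge
import Fermat.Agent.MCurve.Flat.GenusN
import Fermat.Agent.MCurve.Flat.Kummer
import Fermat.Agent.MCurve.Spec.Place
import Fermat.Agent.MCurve.MW.Main
import Fermat.Agent.MCurve.MW.GenusLe
import Fermat.Agent.GalRep.Model.Reduction
import Fermat.Agent.LL.Mazur.TorsionBound

set_option autoImplicit false
set_option linter.style.haveILetI false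
set_option linter.unusedSectionVars false
set_option maxHeartbeats 1000000
set_option synthInstance.maxHeartbeats 400000

noncomputable section

namespace Fermat.Agent.LL.Mazur

open UpperHalfPlane CongruenceSubgroup IsLocalRing AlgebraicCurve ModularCurve
open Fermat.Agent.GalRep (ParHom IsKummerRep HasQSeries seriesToC HasRed qbarToC)
open Fermat.Agent.MCurve Fermat.Agent.MCurve.Flat
open Fermat.Agent.MCurve.Spec (redRing redS sk sQ redDom redF redPlace mapDomain_redPlace bSer
  sQ_injective sk_aJ_ne_zero)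
open scoped MatrixGroups

local notation "Q̄" => AlgebraicClosure ℚ

variable {m q : ℕ} [NeZero m] [Fact q.Prime] {A : ValuationSubring Q̄}

/-- The map of places, with its property on the ring of the reduction. -/
theorem exists_place_map (hA : A.LiesOverPrime q) (hqm : ¬ q ∣ m) :
    ∃ r : Place Q̄ (modularFunctionFieldBar m) →
        Place (ResidueField A) (modularFunctionFieldFullC (ResidueField A) m),
      ∀ u : redV A m hA hqm, redρ A m hA hqm u ≠ 0 → ∀ D : Divisor Q̄ (modularFunctionFieldBar m),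
        (∀ P, D P = P.ord (u : modularFunctionFieldBar m)) →
        ∀ Q, Finsupp.mapDomain r D Q = Q.ord (redρ A m hA hqm u) := by
  obtain ⟨-, hrK, -⟩ := Fermat.Agent.MCurve.RR.curve_props (bar_isFinOver m)
  haveI : ∀ P : Place Q̄ (modularFunctionFieldBar m),
      Module.Finite Q̄ P.ResidueField := fun P => (hrK P).finite
  obtain ⟨xk, hxk⟩ := exists_finOver_red A m hA hqm
  obtain ⟨-, hrk, -⟩ := Fermat.Agent.MCurve.RR.curve_props hxk
  haveI : ∀ Q : Place (ResidueField A) (modularFunctionFieldFullC (ResidueField A) m),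
      Module.Finite (ResidueField A) Q.ResidueField := fun Q => (hrk Q).finite
  refine ⟨redPlace hA hqm, fun u hu D hD Q => ?_⟩
  have e : redF hA hqm (⟨(u : modularFunctionFieldBar m), u.2⟩ : redDom A m) =
      redρ A m hA hqm u := Subtype.ext rfl
  rw [← e] at hu ⊢
  exact mapDomain_redPlace hA hqm _ hu hD Q

/-- An integral series of a function, as an element of the ring of the reduction. -/
theorem mem_redV_of_integral (hA : A.LiesOverPrime q) (hqm : ¬ q ∣ m) (y : LaurentSeries A)
    (hy : coeffMap A.subtype y ∈ modularFunctionFieldBar m) :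
    ∃ u : redV A m hA hqm,
      (u : modularFunctionFieldBar m) = ⟨coeffMap A.subtype y, hy⟩ ∧
      (redρ A m hA hqm u : LaurentSeries (ResidueField A)) = coeffMap (residue A) y := by
  have h1 : sk A (1 : LaurentSeries A) ≠ 0 := by rw [map_one]; exact one_ne_zero
  have e : sQ A y = coeffMap A.subtype y := rfl
  have h2 : coeffMap A.subtype y * sQ A 1 = sQ A y := by rw [map_one, mul_one, e]
  let x : modularFunctionFieldBar m := ⟨coeffMap A.subtype y, hy⟩
  have hx : x ∈ redV A m hA hqm := (mem_redV A m hA hqm).mpr ⟨y, 1, h1, h2⟩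
  refine ⟨⟨x, hx⟩, rfl, ?_⟩
  rw [redρ_eq A m hA hqm ⟨x, hx⟩ (S := y) (E := 1) h1 h2, map_one, div_one, sk]

/-- The reduction inputs hold at a good prime. -/
theorem reductionInputs (hA : A.LiesOverPrime q) (hqm : ¬ q ∣ m) :
    ReductionInputsModL A m := by
  classical
  haveI : IsAlgClosed (ResidueField A) := Fermat.Agent.GalRep.Model.residue_isAlgClosed A
  obtain ⟨r, hr⟩ := exists_place_map hA hqm
  obtain ⟨hP, hrK, -⟩ := Fermat.Agent.MCurve.RR.curve_props (bar_isFinOver m)
  haveI := hP
  haveI := hrK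
  obtain ⟨xk, hxk⟩ := exists_finOver_red A m hA hqm
  obtain ⟨-, hrk, -⟩ := Fermat.Agent.MCurve.RR.curve_props hxk
  haveI := hrk
  refine ⟨r, ⟨fun P => by rw [RR.deg_one, RR.deg_one], fun y hy hyk hne D hD Q => ?_⟩, ?_⟩
  · obtain ⟨u, hu, hρ⟩ := mem_redV_of_integral hA hqm y hy
    have e : redρ A m hA hqm u = ⟨_, hyk⟩ := Subtype.ext hρ
    have hne' : redρ A m hA hqm u ≠ 0 := fun h => hne (by rw [← hρ, h]; rfl)
    rw [hr u hne' D (fun P => by rw [hu]; exact hD P) Q, e]
  · rintro D ⟨f, hf0, hf⟩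
    obtain ⟨c, u, hu, hfu⟩ := exists_scale A m hA hqm f hf0
    have hc0 : c ≠ 0 := fun h => hf0 (by rw [hfu, h, map_zero, zero_mul])
    have hu0 : (u : modularFunctionFieldBar m) ≠ 0 := fun h => hu (by
      rw [show u = 0 from Subtype.ext h, map_zero])
    obtain ⟨P₁, S₁, hP₁, hS₁⟩ := exists_repr_unit A m hA hqm u.2
    set E : LaurentSeries A := aJ A P₁
    set S : LaurentSeries A := ∑ i, aJ A (S₁ i) * bSer A m i
    have hE : sk A E ≠ 0 := sk_aJ_ne_zero hP₁
    have hρ := redρ_eq A m hA hqm u hE hS₁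
    have hS : sk A S ≠ 0 := fun h => hu (Subtype.ext (by rw [hρ, h, zero_div]; rfl))
    let den : modularFunctionFieldBar m :=
      Polynomial.aeval (jBar m Q̄) (P₁.map (subA A))
    have hden : (den : LaurentSeries Q̄) = sQ A E := by
      rw [Spec.sQ_aJ]; exact Spec.coe_aeval_jBar _
    have hEmem : coeffMap A.subtype E ∈ modularFunctionFieldBar m := by
      show sQ A E ∈ _
      rw [← hden]; exact den.2
    have hSmem : coeffMap A.subtype S ∈ modularFunctionFieldBar m := by
      show sQ A S ∈ _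
      rw [← hS₁, ← hden]
      exact mul_mem (u : modularFunctionFieldBar m).2 den.2
    have hden0 : den ≠ 0 := fun h => hE (by
      rw [sQ_injective A (hden.symm.trans ((congrArg Subtype.val h).trans (map_zero (sQ A)).symm)),
        map_zero])
    have hint : ∀ (y : LaurentSeries A) (hy : coeffMap A.subtype y ∈ modularFunctionFieldBar m),
        sk A y ≠ 0 → ∀ D' : Divisor Q̄ (modularFunctionFieldBar m),
          (∀ P, D' P = P.ord (⟨_, hy⟩ : modularFunctionFieldBar m)) →
          D' ∈ integralPrincipalDivisors A (residue A) m := fun y hy hy0 D' hD' => by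
      obtain ⟨v, -, hv⟩ := mem_redV_of_integral hA hqm y hy
      exact ⟨y, hy, hv ▸ (redρ A m hA hqm v).2, hy0, hD'⟩
    obtain ⟨D₂, hD₂, -⟩ := HasPrincipalDivisors.exists_divisor (K := Q̄) den hden0
    have e₁ : (⟨_, hSmem⟩ : modularFunctionFieldBar m) = (u : modularFunctionFieldBar m) * den :=
      Subtype.ext (by
        show sQ A S = (u : LaurentSeries Q̄) * (den : LaurentSeries Q̄)
        rw [hden]; exact hS₁.symm)
    have e₂ : (⟨_, hEmem⟩ : modularFunctionFieldBar m) = den := Subtype.ext hden.symm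
    have h1 : D + D₂ ∈ integralPrincipalDivisors A (residue A) m := hint S hSmem hS _ fun P => by
      rw [Finsupp.add_apply, hD₂ P, hf P, hfu, e₁, P.ord_mul hu0 hden0,
        P.ord_mul (by simpa using hc0) hu0, Fermat.Agent.MCurve.ord_algebraMap P, zero_add]
    have h2 : D₂ ∈ integralPrincipalDivisors A (residue A) m := hint E hEmem hE _ fun P => by
      rw [hD₂ P, e₂]
    rw [← add_sub_cancel_right D D₂]
    exact AddSubgroup.sub_mem _ (AddSubgroup.subset_closure h1) (AddSubgroup.subset_closure h2)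

/-- Reduction is bijective on the torsion prime to `q`. -/
theorem reduction_torsion_surjective (hA : A.LiesOverPrime q) (hqm : ¬ q ∣ m) {p : ℕ}
    (hp : p.Prime) (hqp : q ≠ p) (t : JZeroC (ResidueField A) m) (ht : p • t = 0) :
    ∃ z : JZero m, p • z = 0 ∧ reductionModL A m z = t := by
  classical
  have hq : q.Prime := Fact.out
  haveI : NeZero p := ⟨hp.ne_zero⟩
  haveI : IsAlgClosed (ResidueField A) := Fermat.Agent.GalRep.Model.residue_isAlgClosed A
  haveI := GalRep.charP_residue (A := A) hq hA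
  have hqp' : ¬ q ∣ p := fun h => hqp ((Nat.prime_dvd_prime_iff_eq hq hp).mp h)
  have hpk : (p : ResidueField A) ≠ 0 := fun h =>
    hqp' ((CharP.cast_eq_zero_iff (ResidueField A) q p).mp h)
  have h := reductionInputs hA hqm
  obtain ⟨r, hr⟩ := exists_place_map hA hqm
  obtain ⟨hP, hrK, hneK⟩ := Fermat.Agent.MCurve.RR.curve_props (bar_isFinOver m)
  haveI := hP
  haveI := hrK
  haveI := hneK
  obtain ⟨xk, hxk⟩ := exists_finOver_red A m hA hqm
  obtain ⟨hPk, hrk, hnek⟩ := Fermat.Agent.MCurve.RR.curve_props hxk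
  haveI := hPk
  haveI := hrk
  haveI := hnek
  obtain ⟨X, -⟩ := exists_setup_coord hxk
  obtain ⟨g, c, hR⟩ := RR.exists_isRiemann (bar_isFinOver m)
  have hg : g = X.g := genus_eq_redModel A m hA hqm r hr g c X.g X.c hR X.hR
  have hgS := MW.genus_le_finrank_cuspForm m hR
  obtain ⟨hfin', hle⟩ := card_torsion_le hxk hp hpk
  rw [T27.genusFF_eq X, ← hg] at hle
  obtain ⟨hfin, hge⟩ := MW.torsion_facts m hp
  haveI := hfin
  haveI := hfin'
  let Φ : {z : JZero m // p • z = 0} → {t : JZeroC (ResidueField A) m // p • t = 0} := fun z =>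
    ⟨reductionModL A m z.1, by rw [← map_nsmul, z.2, map_zero]⟩
  have hinj : Function.Injective Φ := fun z w hzw => by
    refine Subtype.ext (sub_eq_zero.mp ?_)
    refine eq_zero_of_kummerExact
      (fun n _ hn A hA χ h v hq' vq h1 h2 h3 h4 h5 h6 h7 h8 =>
        Fermat.Agent.GalRep.Model.kummerReduction_exact hq hqm hn hA h1 h2 h3 h4 h5 h6 h7 h8)
      hqm hA h hqp' _ (by rw [nsmul_sub, z.2, w.2, sub_zero]) ?_
    rw [map_sub, sub_eq_zero]
    exact congrArg Subtype.val hzw
  have hbij : Function.Bijective Φ := hinj.bijective_of_nat_card_le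
    (hle.trans ((Nat.pow_le_pow_right hp.pos (by omega)).trans hge))
  obtain ⟨z, hz⟩ := hbij.2 ⟨t, ht⟩
  exact ⟨z.1, z.2, congrArg Subtype.val hz⟩

/-- Lifting a class in the torsion of the Jacobian modulo `q`. -/
theorem exists_kummer_lift {m p q : ℕ} [NeZero m] [Fact p.Prime] [NeZero p] [Fact q.Prime]
    (hqp : q ≠ p) (hqm : ¬ q ∣ m) {A : ValuationSubring (AlgebraicClosure ℚ)}
    (hA : A.LiesOverPrime q) (h : modularFunctionFieldFullC (ResidueField A) m) (h0 : h ≠ 0)
    (hord : ∀ Q : Place (ResidueField A) (modularFunctionFieldFullC (ResidueField A) m),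
      (p : ℤ) ∣ Q.ord h) :
    ∃ (χ : ParHom m (ZMod p)) (F : ℍ → ℂ) (f : LaurentSeries (AlgebraicClosure ℚ))
      (g : modularFunctionFieldFullC (ResidueField A) m), g ≠ 0 ∧ IsKummerRep m p χ F ∧
        HasQSeries 1 F (seriesToC f) ∧
        HasRed A (f ^ p) ((h * g ^ p : modularFunctionFieldFullC (ResidueField A) m) :
          LaurentSeries (ResidueField A)) := by
  classical
  have hp : p.Prime := Fact.out
  have hq : q.Prime := Fact.out
  haveI : IsAlgClosed (ResidueField A) := Fermat.Agent.GalRep.Model.residue_isAlgClosed A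
  obtain ⟨xk, hxk⟩ := exists_finOver_red A m hA hqm
  obtain ⟨hPk, hrk, hnek⟩ := Fermat.Agent.MCurve.RR.curve_props hxk
  haveI := hPk
  haveI := hrk
  obtain ⟨H, hH, hHdeg⟩ := HasPrincipalDivisors.exists_divisor (K := ResidueField A) h h0
  let E : Divisor (ResidueField A) (modularFunctionFieldFullC (ResidueField A) m) :=
    H.mapRange (fun x => x / (p : ℤ)) (Int.zero_ediv _)
  have hE : p • E = H := Finsupp.ext fun Q => by
    rw [Finsupp.smul_apply, Finsupp.mapRange_apply, nsmul_eq_mul]
    exact Int.mul_ediv_cancel' (hH Q ▸ hord Q)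
  have hEdeg : Divisor.degree E = 0 := by
    have := congrArg (Divisor.degree (K := ResidueField A)) hE
    rw [map_nsmul, hHdeg, nsmul_eq_mul] at this
    simpa [hp.ne_zero] using this
  let t : JZeroC (ResidueField A) m := Pic0.mk ⟨E, Divisor.mem_degZero.mpr hEdeg⟩
  have ht : p • t = 0 := by
    refine (map_nsmul (QuotientAddGroup.mk' _) p _).symm.trans ?_
    refine (QuotientAddGroup.eq_zero_iff _).mpr ?_
    rw [AddSubgroup.mem_addSubgroupOf, AddSubgroupClass.coe_nsmul, hE]
    exact ⟨h, h0, hH⟩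
  obtain ⟨z, hz, hzt⟩ := reduction_torsion_surjective hA hqm hp hqp t ht
  obtain ⟨χ, D, x, F, f, hD, hx0, hxord, hF, hf, hfx⟩ :=
    exists_isKummerClass m p (z := z) (by rw [natCast_zsmul]; exact hz)
  have hin := reductionInputs hA hqm
  set rr := placeReductionModL hin
  have hr' : IsPlaceReductionModL A m rr := isPlaceReductionModL_placeReductionModL hin
  obtain ⟨g, hg0, hg⟩ : Divisor.IsPrincipal (Finsupp.mapDomain rr
      (D : Divisor Q̄ (modularFunctionFieldBar m)) - E) := by
    rw [← hD, reductionModL_mk hin] at hzt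
    have h1 := (QuotientAddGroup.eq_iff_sub_mem).mp hzt
    simpa [AddSubgroup.mem_addSubgroupOf, Divisor.mem_principal] using h1
  -- normalise
  have hxs0 : ((x : modularFunctionFieldBar m) : LaurentSeries Q̄) ≠ 0 := fun h =>
    hx0 (Subtype.ext (Subtype.ext h))
  obtain ⟨c, hc0, hcint, mu, hmu⟩ :=
    GalRep.exists_modFun_normalisation hq hA (toMod m x).2 (hasQSeries_toMod m x) hxs0
  obtain ⟨y, hy⟩ := hcint
  have hy' : coeffMap A.subtype y =
      HahnSeries.C c * ((x : modularFunctionFieldBar m) : LaurentSeries Q̄) := hy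
  have hC : HahnSeries.C c = algebraMap Q̄ (LaurentSeries Q̄) c := by
    rw [algebraMap_laurentSeries_eq_single]; rfl
  have hymem : coeffMap A.subtype y ∈ modularFunctionFieldBar m := by
    rw [hy', hC]
    exact mul_mem ((modularFunctionFieldBar m).algebraMap_mem c) (x : modularFunctionFieldBar m).2
  have hyu : coeffMap (residue A) y ≠ 0 := fun h1 => hmu (by
    have h2 : residue A (y.coeff mu) = 0 := by
      have := congrArg (fun s : LaurentSeries (ResidueField A) => s.coeff mu) h1
      simpa using this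
    rw [← hy', coeffMap_coeff]
    exact A.coe_mem_nonunits_iff.mpr ((residue_eq_zero_iff _).mp h2))
  obtain ⟨u, hu, hρ⟩ := mem_redV_of_integral hA hqm y hymem
  have hyk : coeffMap (residue A) y ∈ modularFunctionFieldFullC (ResidueField A) m :=
    hρ ▸ (redρ A m hA hqm u).2
  have hxord' : ∀ P : Place Q̄ (modularFunctionFieldBar m),
      ((p : ℕ) • (D : Divisor Q̄ (modularFunctionFieldBar m))) P =
        P.ord (⟨_, hymem⟩ : modularFunctionFieldBar m) := fun P => by
    rw [show (⟨_, hymem⟩ : modularFunctionFieldBar m) =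
        algebraMap Q̄ _ c * (x : modularFunctionFieldBar m) from Subtype.ext (by
          show coeffMap A.subtype y = _
          rw [hy', hC]; rfl),
      P.ord_mul (by simpa using hc0) (fun h => hx0 (Subtype.ext h)), Fermat.Agent.MCurve.ord_algebraMap P, zero_add,
      hxord, Finsupp.smul_apply, nsmul_eq_mul]
  set Y : modularFunctionFieldFullC (ResidueField A) m := ⟨_, hyk⟩
  have hY0 : Y ≠ 0 := fun h => hyu (congrArg Subtype.val h)
  have hYord : ∀ Q : Place (ResidueField A) (modularFunctionFieldFullC (ResidueField A) m),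
      Q.ord Y = Q.ord (h * g ^ p) := fun Q => by
    have h1 := hr'.2 y hymem hyk hyu _ hxord' Q
    rw [← h1, ← Finsupp.mapDomain.addMonoidHom_apply, map_nsmul,
      Finsupp.mapDomain.addMonoidHom_apply, Finsupp.smul_apply, Q.ord_mul h0 (pow_ne_zero _ hg0),
      Fermat.Agent.MCurve.ord_pow, ← hg Q, ← hH Q, ← hE, Finsupp.sub_apply, Finsupp.smul_apply, nsmul_eq_mul,
      nsmul_eq_mul]
    ring
  have hhg : h * g ^ p ≠ 0 := mul_ne_zero h0 (pow_ne_zero _ hg0)
  obtain ⟨a, ha0, ha⟩ := exists_const_of_ord_eq_zero hxk (f := Y / (h * g ^ p))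
    (div_ne_zero hY0 hhg) fun Q => by
      rw [div_eq_mul_inv, Q.ord_mul hY0 (inv_ne_zero hhg), Q.ord_inv, hYord, add_neg_cancel]
  obtain ⟨b, hb⟩ := IsAlgClosed.exists_pow_nat_eq a hp.pos
  obtain ⟨γ, hγ⟩ := IsAlgClosed.exists_pow_nat_eq c hp.pos
  have hb0 : b ≠ 0 := fun h => ha0 (by rw [← hb, h, zero_pow hp.ne_zero])
  have hγ0 : γ ≠ 0 := fun h => hc0 (by rw [← hγ, h, zero_pow hp.ne_zero])
  refine ⟨χ, fun τ => qbarToC γ * F τ, HahnSeries.C γ * f, algebraMap _ _ b * g,
    mul_ne_zero (by simpa using hb0) hg0, hF.const_mul ((map_ne_zero qbarToC).mpr hγ0), ?_, ?_⟩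
  · rw [GalRep.seriesToC_eq_lmap, map_mul, GalRep.lmap_C, ← GalRep.seriesToC_eq_lmap]
    exact hf.smul _
  · have e : (h * (algebraMap _ _ b * g) ^ p : modularFunctionFieldFullC (ResidueField A) m) = Y := by
      rw [mul_pow, ← map_pow, hb, mul_left_comm, ha, div_mul_cancel₀ _ hhg]
    rw [e, mul_pow, ← map_pow, hγ, hfx, ← hy']
    exact GalRep.HasRed.iff_exists.mpr ⟨y, rfl, rfl⟩

end Fermat.Agent.LL.Mazur
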