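/-
When the eigenvalues do not occur at level `m`, the reduction on the component over infinity of
the power of a Kummer function of an eigenclass of level `q m` is a `p`-th power.
-/
import Fermat.Agent.GalRep.Wild.DlogEigen
import Fermat.Agent.GalRep.Semistable.RepTools
import Fermat.Agent.GalRep.Semistable.Defect
import Fermat.Agent.LL.Mazur.Lift
import Fermat.Agent.LL.Mazur.RedLevel
import Fermat.Agent.LL.Mazur.InfOrders
import Fermat.Agent.GalRep.Model.Reduction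

set_option autoImplicit false
set_option linter.style.haveILetI false
set_option linter.unusedSectionVars false
set_option linter.unusedVariables false

noncomputable section

namespace Fermat.Agent.LL.Mazur

open UpperHalfPlane CongruenceSubgroup IsLocalRing ModularCurve
open Fermat.Agent.GalRep Fermat.Agent.GalRep.Level Fermat.Agent.GalRep.Semistable
open scoped MatrixGroups

local notation "ℚb" => AlgebraicClosure ℚ
local notation "κ" A:max => IsLocalRing.ResidueField A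

variable {A : ValuationSubring (AlgebraicClosure ℚ)} {p q m m' : ℕ} [Fact p.Prime] [Fact q.Prime]
  [NeZero p] [NeZero q] [NeZero m] [NeZero m']

/-- A nonzero modular function is a representative of the trivial class. -/
theorem kummer_of_modFun {N : ℕ} {φ : ℍ → ℂ} (h : IsModFun (Gamma0 N) φ) (h0 : φ ≠ 0) :
    IsKummerRep N p (0 : ParHom N (ZMod p)) φ :=
  ⟨h.holo, h0, fun γ τ => by simpa using h.invariant γ γ.2 τ, h.cusps⟩

/-- A function of level `N` is one of level `k N`. -/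
theorem isModFun_of_dvd {N M : ℕ} [NeZero M] (hd : N ∣ M) {φ : ℍ → ℂ}
    (h : IsModFun (Gamma0 N) φ) : IsModFun (Gamma0 M) φ :=
  GalRep.modFuns_anti (MCurve.Gamma0_le_of_dvd hd) h

/-- A nonzero reduction is that of a nonzero function. -/
theorem ne_zero_of_red {F : ℍ → ℂ} {f : LaurentSeries ℚb} (hf : HasQSeries 1 F (seriesToC f))
    {n : ℕ} (hn : n ≠ 0) {Y : LaurentSeries (κ A)} (hY : HasRed A (f ^ n) Y) (hY0 : Y ≠ 0) :
    F ≠ 0 := fun h => hY0 (by
  have h1 : seriesToC f = 0 := hf.unique one_pos (h ▸ HasQSeries.zero 1)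
  rw [seriesToC_eq_lmap] at h1
  rw [lmap_injective qbarToC_injective (h1.trans (map_zero _).symm), zero_pow hn] at hY
  exact hasRed_unique hY fun i => ⟨A.zero_mem, map_zero _⟩)

/-- Roots of unity in the inertia group's fixed field. -/
theorem fixed_root (hA : A.LiesOverPrime q) {ℓ : ℕ} (hqℓ : ¬ q ∣ ℓ) {z : ℚb} (hz : z ^ ℓ = 1) :
    FixedConst A z :=
  (NewVec.mem_inertiaFld A).mp (NewVec.root_mem_inertiaFld A (Fact.out : q.Prime) hA hqℓ hz)

/-- The series of a modular function whose `p`-th power has a nonzero reduction has a reduction,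
fixed if the power is. -/
theorem exists_red_root (hA : A.LiesOverPrime q) (hqp : q ≠ p) {N : ℕ} [NeZero N] {φ : ℍ → ℂ}
    (hφ : IsModFun (Gamma0 N) φ) {g : LaurentSeries ℚb} (hg : HasQSeries 1 φ (seriesToC g))
    {U : LaurentSeries (κ A)} (hU : HasRed A (g ^ p) U) (hU0 : U ≠ 0) :
    ∃ X, HasRed A g X ∧ X ≠ 0 ∧ X ^ p = U ∧
      ((∀ i, FixedConst A ((g ^ p).coeff i)) → ∀ i, FixedConst A (g.coeff i)) := by
  have hq : q.Prime := Fact.out
  have hp : p.Prime := Fact.out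
  haveI := GalRep.charP_residue (A := A) hq hA
  have hg0 : g ≠ 0 := fun h0 => hU0 (by
    rw [h0, zero_pow hp.ne_zero] at hU
    exact hasRed_unique hU fun i => ⟨A.zero_mem, map_zero _⟩)
  obtain ⟨c, hc, hint, m₁, hm₁⟩ := exists_modFun_normalisation hq hA hφ hg hg0
  obtain ⟨X₁, hX₁⟩ := exists_hasRed hint
  have hX₁0 : X₁ ≠ 0 := ne_zero_of_hasRed hX₁ hm₁
  have hv : A.valuation c = 1 := by
    have h1 : A.valuation (c ^ p) = 1 := valuation_eq_one_of_hasRed (pow_ne_zero _ hc) hU hU0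
      (by rw [map_pow, ← mul_pow]; exact hX₁.pow p) (pow_ne_zero _ hX₁0)
    rw [map_pow] at h1
    exact (pow_eq_one_iff_of_nonneg zero_le hp.ne_zero).mp h1
  have hcA : c⁻¹ ∈ A := (A.valuation_le_one_iff _).mp (by rw [map_inv₀, hv, inv_one])
  have hX := (hasRed_C hcA).mul hX₁
  rw [← mul_assoc, ← map_mul, inv_mul_cancel₀ hc, map_one, one_mul] at hX
  set X := HahnSeries.C (residue A ⟨c⁻¹, hcA⟩) * X₁
  have hXp : X ^ p = U := hasRed_unique (hX.pow p) hU
  have hX0 : X ≠ 0 := fun h0 => hU0 (by rw [← hXp, h0, zero_pow hp.ne_zero])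
  refine ⟨X, hX, hX0, hXp, fun hfix i σ hσ => ?_⟩
  obtain ⟨⟨σ', hσ'⟩, hker, rfl⟩ := hσ
  change σ' (g.coeff i) = g.coeff i
  have hin : σ' ∈ A.inertiaSubgroupIn ℚ := ⟨⟨σ', hσ'⟩, hker, rfl⟩
  have hX' := hX.conj hσ' (ρ := RingHom.id _) fun x =>
    RingEquiv.congr_fun (MonoidHom.mem_ker.mp hker) x
  rw [show lmap (RingHom.id (κ A)) X = X by ext; rfl] at hX'
  have hpow : seriesConj σ' g ^ p = g ^ p := by
    rw [seriesConj_eq_lmap, ← map_pow]
    ext j
    exact hfix j σ' hin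
  obtain ⟨z, hz⟩ := HasEnoughRootsOfUnity.exists_primitiveRoot ℚb p
  obtain ⟨k, -, hk⟩ := (hz.map_of_injective (f := (HahnSeries.C : ℚb →+* LaurentSeries ℚb))
    HahnSeries.C_injective).eq_pow_of_pow_eq_one
    (show (seriesConj σ' g / g) ^ p = 1 by rw [div_pow, hpow, div_self (pow_ne_zero _ hg0)])
  set ω := z ^ k
  have hω : seriesConj σ' g = HahnSeries.C ω * g := by
    rw [map_pow, hk, div_mul_cancel₀ _ hg0]
  have hω1 : ω ^ p = 1 := by rw [← pow_mul, mul_comm, pow_mul, hz.pow_eq_one, one_pow]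
  have hωA : ω ∈ A := by
    refine (A.valuation_le_one_iff _).mp (le_of_eq ((pow_eq_one_iff_of_nonneg zero_le hp.ne_zero).mp ?_))
    rw [← map_pow, hω1, map_one]
  have hres : residue A ⟨ω, hωA⟩ = 1 := by
    have h1 := hasRed_unique hX' (hω.symm ▸ (hasRed_C hωA).mul hX)
    refine HahnSeries.C_injective (mul_right_cancel₀ hX0 ?_)
    rw [map_one, one_mul, ← h1]
  have hω' : ω = 1 := by
    by_contra hne
    have h0 : ∑ j ∈ Finset.range p, (⟨ω, hωA⟩ : A) ^ j = 0 := Subtype.ext (by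
      rw [AddSubmonoidClass.coe_finsetSum, ZeroMemClass.coe_zero]
      simp only [SubmonoidClass.coe_pow]
      exact (mul_eq_zero.mp (show (∑ j ∈ Finset.range p, ω ^ j) * (ω - 1) = 0 by
        rw [geom_sum_mul, hω1, sub_self])).resolve_right (sub_ne_zero.mpr hne))
    have h1 := congrArg (residue A) h0
    simp only [map_sum, map_pow, hres, one_pow, Finset.sum_const, Finset.card_range, nsmul_eq_mul,
      mul_one, map_zero] at h1
    exact hqp ((Nat.prime_dvd_prime_iff_eq hq hp).mp ((CharP.cast_eq_zero_iff (κ A) q p).mp h1))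
  rw [hω', map_one, one_mul] at hω
  exact congrArg (fun f : LaurentSeries ℚb => f.coeff i) hω

local instance instFintypeRootsInf (ℓ : ℕ) [NeZero ℓ] :
    Fintype (rootsOfUnity ℓ (AlgebraicClosure ℚ)) :=
  Fintype.ofFinite _

/-- The transfer of a Kummer function times a power of it, and the reduction of its power, which
depends only on the reduction of the power of the function. -/
theorem exists_transfer_red (hA : A.LiesOverPrime q) {N ℓ : ℕ} [NeZero N] [NeZero ℓ]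
    (hg : GoodIndex N ℓ) (hqℓ : ¬ q ∣ ℓ) (ub : rootsOfUnity ℓ ℚb → (κ A)ˣ)
    (hub : ∀ (ω : rootsOfUnity ℓ ℚb) (f : LaurentSeries ℚb) (F : LaurentSeries (κ A)),
      HasRed A f F → HasRed A (twist (ω : ℚbˣ) f) (twist (ub ω) F))
    {χ : ParHom N (ZMod p)} {F : ℍ → ℂ} (hF : IsKummerRep N p χ F) {f : LaurentSeries ℚb}
    (hf : HasQSeries 1 F (seriesToC f)) {Y : LaurentSeries (κ A)} (hY : HasRed A (f ^ p) Y)
    (hY0 : Y ≠ 0) (r : ℕ) :
    ∃ (H : ℍ → ℂ) (h : LaurentSeries ℚb) (U : LaurentSeries (κ A)),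
      IsKummerRep N p (heckeHom hg χ + r • χ) H ∧ HasQSeries 1 H (seriesToC h) ∧
      HasRed A (h ^ p) U ∧ U ≠ 0 ∧
      expand ℓ (NeZero.ne ℓ) U = expand ℓ (NeZero.ne ℓ) (expand ℓ (NeZero.ne ℓ) Y) *
        (∏ ω, twist (ub ω) Y) * expand ℓ (NeZero.ne ℓ) Y ^ r ∧
      ((∀ i, FixedConst A ((f ^ p).coeff i)) → ∀ i, FixedConst A ((h ^ p).coeff i)) := by
  classical
  have hT := heckeProd_rep hg hF (isHeckeTransfer_heckeHom hg χ)
  obtain ⟨uC, huC, -⟩ := hT.exists_series_one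
  have hexp : expand ℓ (NeZero.ne ℓ) uC = seriesToC (heckeSeriesA ℓ f) := by
    have := huC.refine_width one_pos ℓ (NeZero.ne ℓ)
    rw [one_mul] at this
    rw [seriesToC_heckeSeriesA]
    exact this.unique (NeZero.pos ℓ) (hasQSeries_heckeProd hg hf)
  obtain ⟨u, rfl⟩ : ∃ u, seriesToC u = uC := exists_seriesToC_eq fun j => by
    rw [← expand_coeff_mul ℓ (NeZero.ne ℓ) uC j, hexp]
    exact (Algebra.IsAlgebraic.isAlgebraic _).algHom qbarToC.toRatAlgHom
  have hu : expand ℓ (NeZero.ne ℓ) u = heckeSeriesA ℓ f :=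
    seriesToC_injective (by rw [← hexp, seriesToC_eq_lmap, lmap_expand]; rfl)
  have hh : expand ℓ (NeZero.ne ℓ) ((u * f ^ r) ^ p) =
      heckeSeriesA ℓ (f ^ p) * expand ℓ (NeZero.ne ℓ) (f ^ p) ^ r := by
    rw [mul_pow, map_mul, map_pow, hu, heckeSeriesA_pow, ← pow_mul, mul_comm r, pow_mul, map_pow]
  have hred : HasRed A (expand ℓ (NeZero.ne ℓ) ((u * f ^ r) ^ p))
      (expand ℓ (NeZero.ne ℓ) (expand ℓ (NeZero.ne ℓ) Y) * (∏ ω, twist (ub ω) Y) *
        expand ℓ (NeZero.ne ℓ) Y ^ r) := by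
    rw [hh]
    exact (((hY.expand ℓ (NeZero.ne ℓ)).expand ℓ (NeZero.ne ℓ)).mul
      (HasRed.prod Finset.univ fun ω _ => hub ω _ _ hY)).mul ((hY.expand ℓ (NeZero.ne ℓ)).pow r)
  obtain ⟨U, hU, hUY⟩ := exists_hasRed_of_expand (NeZero.ne ℓ) hred
  have hne : ∀ u' : (κ A)ˣ, twist u' Y ≠ 0 := fun u' h0 => hY0 (by
    ext j
    have := congrArg (fun x : LaurentSeries (κ A) => x.coeff j) h0
    exact (mul_eq_zero.mp (by simpa using this)).resolve_right (zpow_ne_zero _ (Units.ne_zero _)))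
  have hU0 : U ≠ 0 := fun h0 => by
    rw [h0, map_zero] at hUY
    have hE : expand ℓ (NeZero.ne ℓ) Y ≠ 0 := (map_ne_zero_iff _ (expand_injective ℓ _)).mpr hY0
    exact mul_ne_zero (mul_ne_zero ((map_ne_zero_iff _ (expand_injective ℓ _)).mpr hE)
      (Finset.prod_ne_zero_iff.mpr fun ω _ => hne _)) (pow_ne_zero _ hE) hUY
  refine ⟨_, _, U, hT.mul (hF.pow r), hasQSeries_mul_seriesToC huC (hasQSeries_pow_seriesToC hf r),
    hU, hU0, hUY.symm, fun hfix i σ hσ => ?_⟩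
  suffices h1 : seriesConj σ ((u * f ^ r) ^ p) = (u * f ^ r) ^ p from
    congrArg (fun x : LaurentSeries ℚb => x.coeff i) h1
  have hfp : seriesConj σ (f ^ p) = f ^ p := by
    ext j; exact hfix j σ hσ
  refine expand_injective ℓ (NeZero.ne ℓ) ?_
  rw [seriesConj_eq_lmap] at hfp ⊢
  rw [← lmap_expand, hh, map_mul, map_pow, lmap_expand, hfp]
  refine congrArg (· * _) ?_
  simp only [heckeSeriesA, map_mul, map_prod, lmap_expand, lmap_twist, hfp]
  refine congrArg _ (Finset.prod_congr rfl fun ω _ => congrArg (fun z => twist z (f ^ p))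
    (Units.ext ?_))
  exact fixed_root hA hqℓ (by
    rw [← Units.val_pow_eq_pow_val, (mem_rootsOfUnity _ _).mp ω.2, Units.val_one]) σ hσ

set_option maxHeartbeats 1000000 in
/-- The reduction is a `p`-th power. -/
theorem exists_red_power (hA : A.LiesOverPrime q) (hp5 : 5 ≤ p) (hqp : q ≠ p) (hq2 : q ≠ 2)
    (hqm' : ¬ q ∣ m') (hpm' : ¬ p ∣ m') (h2 : 2 ∣ m') (h6 : 6 ≤ m') (hmm : m ∣ m')
    (hpts : ChartsSemi A q m')
    (S : Finset ℕ) (hmS : ∀ r : ℕ, r.Prime → r ∣ m → r ∈ S) (hqS : q ∈ S) (hpS : p ∈ S) (a : ℕ → ℤ)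
    (hno : ∀ χ' : ParHom m (ZMod p),
      (∀ l : GoodPrime m, (l : ℕ) ∉ S → heckeHomAt l χ' = a (l : ℕ) • χ') → χ' = 0)
    {χ : ParHom (q * m) (ZMod p)}
    (heig : ∀ l : GoodPrime (q * m), (l : ℕ) ∉ S → heckeHomAt l χ = a (l : ℕ) • χ)
    {F : ℍ → ℂ} {φ : MF (q * m)} (hF : IsRepG (Gamma0 (q * m)) p χ F)
    (hφ : (φ : ℍ → ℂ) = F ^ p) (hφ0 : φ ≠ 0) (hi : Inv0 (q * m) (φ : ℍ → ℂ)) (ha : AlgMF φ)
    (hf : InertiaFix A φ) (hr : HasPowRed A p φ) :
    ∃ (r : ℚb) (g : LaurentSeries ℚb) (t : LaurentSeries (κ A)), r ≠ 0 ∧ FixedConst A r ∧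
      HasQSeries 1 (fun τ => qbarToC r * (φ : ℍ → ℂ) τ) (seriesToC g) ∧ t ≠ 0 ∧
      t ∈ modularFunctionFieldFullC (κ A) m ∧ HasRed A g (t ^ p) := by
  classical
  have hq : q.Prime := Fact.out
  have hp : p.Prime := Fact.out
  haveI := GalRep.charP_residue (A := A) hq hA
  have hqm : ¬ q ∣ m := fun h => hqm' (h.trans hmm)
  have hK : IsKummerRep (q * m) p χ F := IsRepG.kummer hF
  -- the series of the function
  obtain ⟨fC, hfC, hfC0⟩ := hK.exists_series_one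
  have hser := serAlg_of_rep_pow (M' := q * m) hfC hφ
  obtain ⟨g₀, hg₀⟩ := ha
  obtain ⟨s, hs⟩ : ∃ s, seriesToC s = fC ^ p := exists_seriesToC_eq fun j => by
    rw [← expand_coeff_mul (q * m) (NeZero.ne _) (fC ^ p) j, ← hser, ← hg₀]
    exact (Algebra.IsAlgebraic.isAlgebraic _).algHom qbarToC.toRatAlgHom
  obtain ⟨f₀, rfl⟩ := exists_series_of_pow hfC0 hs
  obtain ⟨r₂, Φ, hr2, hr2f, hΦ, b, hb, rb⟩ := hr 1
  have hr0 : qbarToC r₂ ≠ 0 := (map_ne_zero_iff _ qbarToC_injective).mpr hr2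
  set f := HahnSeries.C r₂ * f₀
  have hF₁ : IsKummerRep (q * m) p χ (fun τ => qbarToC r₂ * F τ) := hK.const_mul hr0
  have hf₁ : HasQSeries 1 (fun τ => qbarToC r₂ * F τ) (seriesToC f) := by
    rw [seriesToC_eq_lmap, map_mul, lmap_C]
    exact hfC.smul _ |>.congr (.of_forall fun τ => rfl)
  have hser₁ : serAlg (q * m) (cMF (q * m) (r₂ ^ p) * φ) =
      seriesToC (expand (q * m) (NeZero.ne _) (f ^ p)) := by
    rw [serAlg_of_rep_pow (F := fun τ => qbarToC r₂ * F τ) hf₁ (n := p) (funext fun τ => ?_),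
      seriesToC_eq_lmap, seriesToC_eq_lmap, lmap_expand, map_pow (lmap qbarToC)]
    show qbarToC (r₂ ^ p) * (φ : ℍ → ℂ) τ = _
    rw [hφ]
    simp only [Pi.pow_apply, mul_pow, map_pow]
  have hb' : b = expand (q * m) (NeZero.ne _) (f ^ p) := seriesToC_injective (by
    rw [← hser₁]
    exact ((hb.congr (.of_forall fun τ => by rw [one_smul])).unique (NeZero.pos _)
      (hasQSeries_serHom _)))
  subst hb'
  obtain ⟨Y, hY, rfl⟩ := exists_hasRed_of_expand (NeZero.ne _) rb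
  have hY0 : Y ≠ 0 := fun h => hΦ (by rw [h, map_zero])
  have hfix : ∀ i, FixedConst A ((f ^ p).coeff i) := fun i σ hσ => by
    have h := inertiaFix_iff.mp (inertiaFix_cMF_mul (hr2f.pow p) hf) σ hσ
    rw [hser₁, lmap_seriesToC (liftAut_spec σ)] at h
    have h2 := congrArg (fun x : LaurentSeries ℚb => x.coeff (((q * m : ℕ) : ℤ) * i))
      (seriesToC_injective h)
    simp only [seriesConj_eq_lmap, lmap_coeff, expand_coeff_mul] at h2
    exact h2
  have hpow : ((fun τ => qbarToC r₂ * F τ) ^ p) = fun τ => qbarToC (r₂ ^ p) * (φ : ℍ → ℂ) τ :=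
    funext fun τ => by rw [hφ]; simp only [Pi.pow_apply, mul_pow, map_pow]
  obtain ⟨hmod, hsp⟩ := isModFun_pow_rep hF₁ hf₁
  rw [hpow] at hmod hsp
  have hYK := red_mem_fullC_bad hA hqm' h2 h6 hmm hpts hmod hsp hfix hY
  -- the class at level `m`
  obtain ⟨χ', F', f', g, hg0, hF', hf', hZ⟩ := exists_kummer_lift hqp hqm hA ⟨Y, hYK⟩
    (fun h => hY0 (congrArg Subtype.val h)) fun Q =>
      dvd_ord_red hA hp5 hqp hq2 hqm' hpm' h2 h6 hmm hpts hF hφ hφ0 hi ⟨g₀, hg₀⟩ hf hr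
        (pow_ne_zero _ hr2) (hr2f.pow p) hsp ⟨Y, hYK⟩ hY
        (fun h => hY0 (congrArg Subtype.val h)) Q
  change HasRed A (f' ^ p) (Y * (g : LaurentSeries (κ A)) ^ p) at hZ
  have hg0' : (g : LaurentSeries (κ A)) ≠ 0 := fun h => hg0 (Subtype.ext h)
  have hZ0 : Y * (g : LaurentSeries (κ A)) ^ p ≠ 0 := mul_ne_zero hY0 (pow_ne_zero _ hg0')
  -- it is an eigenclass
  have hχ' : χ' = 0 := hno χ' fun l hlS => by
    have hgl' : GoodIndex m (l : ℕ) := goodIndex l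
    have hlq : (l : ℕ) ≠ q := fun h => hlS (h ▸ hqS)
    have hql : ¬ q ∣ (l : ℕ) := fun h => hlq
      (((Nat.prime_dvd_prime_iff_eq hq hgl'.prime).mp h).symm)
    have hlN : ¬ (l : ℕ) ∣ q * m := fun h => (hgl'.prime.dvd_mul.mp h).elim
      (fun h1 => hlq ((Nat.prime_dvd_prime_iff_eq hgl'.prime hq).mp h1)) l.2
    have hgl : GoodIndex (q * m) (l : ℕ) := goodIndex (⟨l.1, hlN⟩ : GoodPrime (q * m))
    have hl : heckeHom hgl χ = a (l : ℕ) • χ := heig ⟨l.1, hlN⟩ hlS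
    haveI : NeZero (l : ℕ) := ⟨hgl'.prime.ne_zero⟩
    choose ub _ hub using fun ω : rootsOfUnity (l : ℕ) ℚb =>
      GalRep.Wild.exists_twist_red_root (A := A) (NeZero.ne (l : ℕ))
        ((mem_rootsOfUnity _ _).mp ω.2)
    set r : ℕ := (((-a (l : ℕ) : ℤ) : ZMod p)).val
    have hkill : ∀ {N : ℕ} (ψ : ParHom N (ZMod p)), r • ψ = -(a (l : ℕ) • ψ) := fun ψ => by
      refine Subtype.ext (AddMonoidHom.ext fun x => ?_)
      show ((r • ψ : ParHom _ (ZMod p)) : Additive (Gamma0 _) →+ ZMod p) x =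
        -(a (l : ℕ) • (ψ : Additive (Gamma0 _) →+ ZMod p) x)
      rw [Submodule.coe_smul_of_tower, AddMonoidHom.nsmul_apply, nsmul_eq_mul, zsmul_eq_mul,
        ZMod.natCast_zmod_val, Int.cast_neg, neg_mul]
    -- a lift of `g`
    obtain ⟨α, β, ga, gb, Ya, Yb, hα, hβ, hga, hgb, hgaf, -, hYa, hYb, hYb0, hgab⟩ :=
      exists_lift_fullC hA hqm g.2
    have hYa0 : Ya ≠ 0 := hgab ▸ mul_ne_zero hg0' hYb0
    have hα0 : α ≠ 0 := ne_zero_of_red hga (n := 1) one_ne_zero (by rw [pow_one]; exact hYa) hYa0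
    have hβ0 : β ≠ 0 := ne_zero_of_red hgb (n := 1) one_ne_zero (by rw [pow_one]; exact hYb) hYb0
    have hV := hF₁.mul (kummer_of_modFun (isModFun_of_dvd (dvd_mul_left m q) hα) hα0)
    have hV' := hF'.mul (kummer_of_modFun hβ hβ0)
    rw [add_zero] at hV hV'
    have hVr : HasRed A ((f * ga) ^ p) (Y * Ya ^ p) := by rw [mul_pow]; exact hY.mul (hYa.pow p)
    have hV'r : HasRed A ((f' * gb) ^ p) (Y * Ya ^ p) := by
      rw [mul_pow, show Y * Ya ^ p = Y * (g : LaurentSeries (κ A)) ^ p * Yb ^ p by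
        rw [← hgab]; ring]
      exact hZ.mul (hYb.pow p)
    have hV0 : Y * Ya ^ p ≠ 0 := mul_ne_zero hY0 (pow_ne_zero _ hYa0)
    obtain ⟨H, h, U, hH, hh, hU, hU0, hUe, hUf⟩ := exists_transfer_red hA hgl hql ub hub hV
      (hasQSeries_mul_seriesToC hf₁ hga) hVr hV0 r
    obtain ⟨H', h', U', hH', hh', hU', -, hUe', -⟩ := exists_transfer_red hA hgl' hql ub hub hV'
      (hasQSeries_mul_seriesToC hf' hgb) hV'r hV0 r
    obtain rfl : U' = U := expand_injective (l : ℕ) (NeZero.ne _) (hUe'.trans hUe.symm)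
    rw [hl, hkill, add_neg_cancel] at hH
    obtain ⟨X, hX, hX0, hXp, hXf⟩ := exists_red_root hA hqp hH.isModFun hh hU hU0
    have hVf : ∀ i, FixedConst A (((f * ga) ^ p).coeff i) := fun i σ hσ => by
      have h1 : seriesConj σ ((f * ga) ^ p) = (f * ga) ^ p := by
        rw [seriesConj_eq_lmap, mul_pow, map_mul, map_pow (lmap _) ga]
        refine congrArg₂ (· * ·) ?_ (congrArg (· ^ p) ?_)
        · ext j; exact hfix j σ hσ
        · ext j; exact hgaf j σ hσ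
      exact congrArg (fun x : LaurentSeries ℚb => x.coeff i) h1
    have hXK := red_mem_fullC_bad hA hqm' h2 h6 hmm hpts hH.isModFun hh (hXf (hUf hVf)) hX
    obtain ⟨α₂, β₂, ga₂, gb₂, Ya₂, Yb₂, hα₂, hβ₂, hga₂, hgb₂, -, -, hYa₂, hYb₂, hYb₂0, hab₂⟩ :=
      exists_lift_fullC hA hqm hXK
    have hβ₂0 : β₂ ≠ 0 := ne_zero_of_red hgb₂ (n := 1) one_ne_zero (by rw [pow_one]; exact hYb₂)
      hYb₂0
    have hred : HasRed A ((h' * gb₂) ^ p) (Ya₂ ^ p) := by
      rw [mul_pow, ← hab₂, mul_pow, hXp]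
      exact hU'.mul (hYb₂.pow p)
    have hW := hH'.mul (kummer_of_modFun hβ₂ hβ₂0)
    rw [add_zero] at hW
    have hξ := GalRep.Model.kummerReduction_exact hq hqm
      (fun h => hqp ((Nat.prime_dvd_prime_iff_eq hq hp).mp h)) hA hW
      (hasQSeries_mul_seriesToC hh' hgb₂) hα₂ hga₂ hred.integral hYa₂.integral
      (hYa₂.exists_unit (hab₂ ▸ mul_ne_zero hX0 hYb₂0)) (hred.congr (hYa₂.pow p))
    rw [hkill, add_neg_eq_zero] at hξ
    exact hξ
  subst hχ'
  obtain ⟨X, hX, hX0, hXp, -⟩ := exists_red_root hA hqp hF'.isModFun hf' hZ hZ0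
  have hXK := red_mem_fullC hA hqm hF'.isModFun hf' hX
  refine ⟨r₂ ^ p, f ^ p, X / g, pow_ne_zero _ hr2, hr2f.pow p, hsp, div_ne_zero hX0 hg0',
    div_mem hXK g.2, ?_⟩
  rw [div_pow, hXp, mul_div_cancel_right₀ _ (pow_ne_zero _ hg0')]
  exact hY

end Fermat.Agent.LL.Mazur
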