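/-
Mazur's principle: a congruence eigenclass at level `q m` whose eigenvalues do not occur at level
`m` has a Kummer function which is a `p`-th power on both components.
-/
import Fermat.Agent.GalRep.Semistable.Defect
import Fermat.Agent.GalRep.Semistable.RepTools
import Fermat.Agent.GalRep.Wild.RedComp
import Fermat.Agent.LL.Mazur.InfPower
import Fermat.Agent.LL.Mazur.SwapW
import Fermat.Agent.LL.Mazur.SwapValue
import Fermat.Agent.LL.Mazur.SwapAut

set_option autoImplicit false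
set_option linter.style.haveILetI false
set_option linter.unusedSectionVars false

noncomputable section

namespace Fermat.Agent.LL.Mazur

open UpperHalfPlane CongruenceSubgroup IsLocalRing
open Fermat.Agent.Galois (GQ)
open Fermat.Agent.GalRep Fermat.Agent.GalRep.Level Fermat.Agent.GalRep.Semistable
open Fermat.Agent.ModField
open Fermat.Agent.NewVec
open Fermat.Agent.Models (IsU rs)
open scoped MatrixGroups Manifold

variable {A : ValuationSubring (AlgebraicClosure ℚ)} {p q m m' : ℕ} [Fact p.Prime] [Fact q.Prime]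
  [NeZero p] [NeZero q] [NeZero m] [NeZero m']

/-- A function of lower level with fixed coefficients, as one of the level of the model. -/
theorem exists_lvl_fun {N M : ℕ} [NeZero M] (hd : N ∣ M) {u : ℍ → ℂ}
    (hu : IsModFun (Gamma0 N) u) {g : LaurentSeries (AlgebraicClosure ℚ)}
    (hg : HasQSeries 1 u (seriesToC g)) (hfix : ∀ i, FixedConst A (g.coeff i)) :
    ∃ ψ : MF M, (ψ : ℍ → ℂ) = u ∧ Inv0 M (ψ : ℍ → ℂ) ∧ AlgMF ψ ∧ InertiaFix A ψ ∧
      ∀ Y : LaurentSeries (ResidueField A), HasRed A g Y →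
        RedAt A M (ψ : ℍ → ℂ) 1 (GalRep.expand M (NeZero.ne M) Y) := by
  have hu' := isModFun_of_dvd hd hu
  let ψ : MF M := ⟨u, GalRep.modFuns_anti (GalRep.Gamma_le_Gamma0 M) hu'⟩
  have hg' : HasQSeries M (ψ : ℍ → ℂ) (seriesToC (GalRep.expand M (NeZero.ne M) g)) := by
    have h1 := hg.refine_width one_pos M (NeZero.ne M)
    rw [one_mul] at h1
    rw [seriesToC_eq_lmap, lmap_expand]
    exact h1
  have hser : serAlg M ψ = seriesToC (GalRep.expand M (NeZero.ne M) g) :=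
    (hasQSeries_serHom ψ).unique (NeZero.pos M) hg'
  refine ⟨ψ, rfl, fun γ hγ τ => hu'.invariant γ hγ τ, ⟨_, hser.symm⟩,
    inertiaFix_iff.mpr fun σ hσ => ?_,
    fun Y hY => ⟨_, by simpa only [one_smul] using hg', hY.expand _ _⟩⟩
  rw [hser, lmap_seriesToC (liftAut_spec σ), seriesConj_eq_lmap, lmap_expand]
  refine congrArg (fun f => seriesToC (GalRep.expand M (NeZero.ne M) f)) ?_
  ext i
  exact hfix i σ hσ

set_option maxHeartbeats 1600000 in
set_option synthInstance.maxHeartbeats 200000 in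
/-- The component over infinity. -/
theorem exists_inf_power (hA : A.LiesOverPrime q) (hp5 : 5 ≤ p) (hqp : q ≠ p) (hq2 : q ≠ 2)
    (hqm' : ¬ q ∣ m') (hpm' : ¬ p ∣ m') (h2 : 2 ∣ m') (h6 : 6 ≤ m') (hmm : m ∣ m')
    (hpts : ChartsSemi A q m')
    (S : Finset ℕ) (hmS : ∀ r : ℕ, r.Prime → r ∣ m → r ∈ S) (hqS : q ∈ S) (hpS : p ∈ S) (a : ℕ → ℤ)
    (hno : ∀ χ' : ParHom m (ZMod p),
      (∀ l : GoodPrime m, (l : ℕ) ∉ S → heckeHomAt l χ' = a (l : ℕ) • χ') → χ' = 0)
    {χ : ParHom (q * m) (ZMod p)}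
    (heig : ∀ l : GoodPrime (q * m), (l : ℕ) ∉ S → heckeHomAt l χ = a (l : ℕ) • χ)
    {F : ℍ → ℂ} {φ : MF (q * m)} (hF : IsRepG (Gamma0 (q * m)) p χ F)
    (hφ : (φ : ℍ → ℂ) = F ^ p) (hφ0 : φ ≠ 0) (hi : Inv0 (q * m) (φ : ℍ → ℂ)) (ha : AlgMF φ)
    (hf : InertiaFix A φ) (hr : HasPowRed A p φ)
    [IsDiscreteValuationRing (wBase A)] [IsDiscreteValuationRing (oBase A (q * m'))]
    {π : oBase A (q * m')} (hπ : Irreducible π) (hd : q * m ∣ q * m')
    (x : Fld₀ (wBase A) (embO A (q * m')) q m')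
    (hx : toLS (embO A (q * m')) (x : Fld (embO A (q * m'))) = serAlg (q * m') (liftLvl hd φ)) :
    ∃ T : Fld₀ (wBase A) (embO A (q * m')) q m',
      IsU (comp hπ 1) (T ^ p / x) ∧ rs (comp hπ 1) (T ^ p / x) = 1 := by
  classical
  have hq : q.Prime := Fact.out
  have hp : p.Prime := Fact.out
  haveI := GalRep.charP_residue (A := A) hq hA
  haveI := GalRep.Model.residue_isAlgClosed A
  have hqm : ¬ q ∣ m := fun h => hqm' (h.trans hmm)
  have hco : Nat.Coprime q m' := hq.coprime_iff_not_dvd.mpr hqm'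
  let E := embO A (q * m')
  have hψ := constMap_oBase (A := A) (M := q * m') hπ.maximalIdeal_eq
  have hW := hasFixedConsts_oBase (A := A) (M := q * m')
  obtain ⟨r, g, t, hr0, hrf, hg, ht0, htK, hgr⟩ := exists_red_power hA hp5 hqp hq2 hqm' hpm' h2 h6
    hmm hpts S hmS hqS hpS a hno heig hF hφ hφ0 hi ha hf hr
  obtain ⟨u, v, gu, gv, Yu, Yv, hu, hv, hgu, hgv, hguf, hgvf, hYu, hYv, hYv0, htY⟩ :=
    exists_lift_fullC hA hqm htK
  have hYu0 : Yu ≠ 0 := htY ▸ mul_ne_zero ht0 hYv0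
  have hmM : m ∣ q * m' := hmm.trans (dvd_mul_left m' q)
  obtain ⟨U, hUc, hUi, hUa, hUf, hUr⟩ := exists_lvl_fun (A := A) hmM hu hgu hguf
  obtain ⟨V, hVc, hVi, hVa, hVf, hVr⟩ := exists_lvl_fun (A := A) hmM hv hgv hgvf
  -- the scaling
  obtain ⟨r₂, Φ, hr2, hr2f, hΦ, b, hb, rb⟩ := hr 1
  have hval : A.valuation (r₂ ^ p / r) = 1 := by
    refine valuation_eq_one_of_hasRed (div_ne_zero (pow_ne_zero _ hr2) hr0)
      (hgr.expand (q * m) (NeZero.ne _))
      ((map_ne_zero_iff _ (GalRep.expand_injective _ _)).mpr (pow_ne_zero _ ht0)) (Y := Φ) ?_ hΦ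
    have h1 := (hg.refine_width one_pos (q * m) (NeZero.ne _)).smul (qbarToC (r₂ ^ p / r))
    rw [one_mul] at h1
    have h2 : b = HahnSeries.C (r₂ ^ p / r) * GalRep.expand (q * m) (NeZero.ne _) g := by
      refine seriesToC_injective (hb.unique (NeZero.pos _) ?_)
      rw [seriesToC_eq_lmap (HahnSeries.C _ * _), map_mul, lmap_C, lmap_expand, ← seriesToC_eq_lmap]
      refine h1.congr (.of_forall fun τ => ?_)
      show qbarToC (r₂ ^ p / r) * (qbarToC r * (φ : ℍ → ℂ) τ) = _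
      rw [one_smul, ← mul_assoc, ← map_mul, div_mul_cancel₀ _ hr0]
      rfl
    exact h2 ▸ rb
  have hvA : r₂ ^ p / r ∈ A := (A.valuation_le_one_iff _).mp hval.le
  have hvA' : r / r₂ ^ p ∈ A :=
    (A.valuation_le_one_iff _).mp (by rw [← inv_div, map_inv₀, hval, inv_one])
  obtain ⟨e, he⟩ := IsAlgClosed.exists_pow_nat_eq (residue A ⟨r₂ ^ p / r, hvA⟩) hp.pos
  have he0 : e ≠ 0 := fun h0 => by
    rw [h0, zero_pow hp.ne_zero, eq_comm, residue_eq_zero_iff, ← A.coe_mem_nonunits_iff,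
      A.mem_nonunits_iff] at he
    exact he.ne hval
  obtain ⟨z, ⟨n, hn, hz⟩, rfl⟩ := GalRep.Model.exists_root_residue A hq hA e he0
  set c : AlgebraicClosure ℚ := (z : AlgebraicClosure ℚ) / r₂ with hcdef
  have hzf : FixedConst A (z : AlgebraicClosure ℚ) :=
    (NewVec.mem_inertiaFld A).mp (NewVec.root_mem_inertiaFld A hq hA hn hz)
  have hcf : FixedConst A c := by rw [hcdef, div_eq_mul_inv]; exact hzf.mul hr2f.inv
  have hce : c ^ p * r = (z : AlgebraicClosure ℚ) ^ p * (r / r₂ ^ p) := by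
    rw [hcdef, div_pow]; ring
  have hcA : c ^ p * r ∈ A := hce ▸ mul_mem (pow_mem z.2 p) hvA'
  have hres : residue A ⟨c ^ p * r, hcA⟩ = 1 := by
    rw [show (⟨c ^ p * r, hcA⟩ : A) = z ^ p * ⟨r / r₂ ^ p, hvA'⟩ from Subtype.ext hce,
      map_mul, map_pow, he, ← map_mul, ← map_one (residue A)]
    refine congrArg _ (Subtype.ext ?_)
    show r₂ ^ p / r * (r / r₂ ^ p) = 1
    rw [div_mul_div_comm, mul_comm r, div_self (mul_ne_zero (pow_ne_zero _ hr2) hr0)]
  have hcrf : FixedConst A (c ^ p * r) := (hcf.pow p).mul hrf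
  -- the functions
  let φ' : MF (q * m') := liftLvl hd φ
  have hi' : Inv0 (q * m') (φ' : ℍ → ℂ) := inv0_liftLvl hd hi
  have ha' : AlgMF φ' := algMF_liftLvl hd ha
  have hf' : InertiaFix A φ' := inertiaFix_liftLvl hd hf
  let bφ : bddMF E := ⟨φ', mem_bddMF_of_fixed hW ha' hf'⟩
  let bR : bddMF E := ⟨cMF (q * m') r, mem_bddMF_of_fixed hW (algMF_cMF _) (inertiaFix_cMF hrf)⟩
  let bC : bddMF E := ⟨cMF (q * m') c, mem_bddMF_of_fixed hW (algMF_cMF _) (inertiaFix_cMF hcf)⟩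
  let bP : bddMF E := ⟨cMF (q * m') (c ^ p * r),
    mem_bddMF_of_fixed hW (algMF_cMF _) (inertiaFix_cMF hcrf)⟩
  let bU : bddMF E := ⟨U, mem_bddMF_of_fixed hW hUa hUf⟩
  let bV : bddMF E := ⟨V, mem_bddMF_of_fixed hW hVa hVf⟩
  have hx' : (x : Fld E) = toFld E bφ := toLS_injective E (hx.trans (toLS_toFld E bφ).symm)
  have hred : RedAt A (q * m') (((bR * bφ : bddMF E) : MF (q * m')) : ℍ → ℂ) 1
      (GalRep.expand (q * m') (NeZero.ne _) (t ^ p)) := by
    refine ⟨GalRep.expand (q * m') (NeZero.ne _) g, ?_, hgr.expand _ _⟩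
    have h1 := hg.refine_width one_pos (q * m') (NeZero.ne _)
    rw [one_mul] at h1
    rw [seriesToC_eq_lmap, lmap_expand]
    exact h1.congr (.of_forall fun τ => by rw [one_smul]; rfl)
  have hX : RedAt A (q * m') (((bP * bU ^ p : bddMF E) : MF (q * m')) : ℍ → ℂ) 1
      (GalRep.expand (q * m') (NeZero.ne _) (Yu ^ p)) := by
    rw [← one_mul (GalRep.expand _ _ (Yu ^ p)), map_pow, ← map_one (HahnSeries.C (Γ := ℤ)
      (R := ResidueField A)), ← hres]
    exact (redAt_cMF hcA 1).mul ((hUr Yu hYu).pow p)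
  have hY : RedAt A (q * m') (((bV ^ p * (bR * bφ) : bddMF E) : MF (q * m')) : ℍ → ℂ) 1
      (GalRep.expand (q * m') (NeZero.ne _) (Yu ^ p)) := by
    rw [← htY, mul_comm t, mul_pow, map_mul, map_pow _ Yv]
    exact ((hVr Yv hYv).pow p).mul hred
  obtain ⟨hXU, hYU, hrs⟩ := rs_eq_of_redAt hψ hπ hX hY
    ((map_ne_zero_iff _ (GalRep.expand_injective _ _)).mpr (pow_ne_zero _ hYu0))
  let T : Fld₀ (wBase A) E q m' := ⟨toFld E bC * (toFld E bU / toFld E bV),
    mul_mem (GalRep.Semistable.toFld_mem_fld₀ hW hco (inv0_cMF _ _) (algMF_cMF _) (inertiaFix_cMF hcf))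
      (div_mem (GalRep.Semistable.toFld_mem_fld₀ hW hco hUi hUa hUf)
        (GalRep.Semistable.toFld_mem_fld₀ hW hco hVi hVa hVf))⟩
  refine ⟨T, ?_⟩
  have hbV : toFld E bV ≠ 0 := fun h0 => hYU.ne_zero (by
    rw [map_mul, map_pow, h0, zero_pow hp.ne_zero, zero_mul])
  have hbR : toFld E bR * toFld E bφ ≠ 0 := fun h0 => hYU.ne_zero (by
    rw [map_mul, map_mul, h0, mul_zero])
  have hPC : bP = bC ^ p * bR := Subtype.ext (Subtype.ext (funext fun τ => by
    show qbarToC (c ^ p * r) = qbarToC c ^ p * qbarToC r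
    rw [map_mul, map_pow]))
  have e : ((T ^ p / x : Fld₀ (wBase A) E q m') : Fld E) =
      toFld E (bP * bU ^ p) / toFld E (bV ^ p * (bR * bφ)) := by
    show (toFld E bC * (toFld E bU / toFld E bV)) ^ p / (x : Fld E) = _
    rw [hx', hPC]
    simp only [map_mul, map_pow, mul_pow, div_pow]
    field_simp [left_ne_zero_of_mul hbR, right_ne_zero_of_mul hbR]
  have hU : IsU (gaussP E hπ 1) ((T ^ p / x : Fld₀ (wBase A) E q m') : Fld E) := by
    rw [e]; exact hXU.div hYU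
  refine ⟨(isU_comap_iff _ _).mpr hU, ?_⟩
  rw [← Models.rs_one (A := comp hπ 1)]
  refine (rs_comap_eq_iff _ _ hU.1 (by rw [map_one]; exact one_mem _)).mpr ?_
  rw [map_one, Models.rs_one, Subfield.subtype_apply, e, hXU.rs_div hYU, hrs, div_self hYU.2]

set_option maxHeartbeats 1600000 in
set_option synthInstance.maxHeartbeats 200000 in
/-- The involution of the model exchanges the components and carries a function to its translate. -/
theorem exists_swap_fun (hA : A.LiesOverPrime q) (hqm' : ¬ q ∣ m') (hmm : m ∣ m')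
    (hpts : ChartsSemi A q m') {g₀ : SL(2, ℤ)} (hg₀ : g₀ 1 0 = (m : ℤ) ∧ g₀ 1 1 = (q : ℤ))
    {φ : MF (q * m)} (hi : Inv0 (q * m) (φ : ℍ → ℂ))
    [IsDiscreteValuationRing (wBase A)] [IsDiscreteValuationRing (oBase A (q * m'))]
    {π : oBase A (q * m')} (hπ : Irreducible π) (hd : q * m ∣ q * m')
    (x : Fld₀ (wBase A) (embO A (q * m')) q m')
    (hx : toLS (embO A (q * m')) (x : Fld (embO A (q * m'))) = serAlg (q * m') (liftLvl hd φ)) :
    ∃ s : Fld₀ (wBase A) (embO A (q * m')) q m' ≃+* Fld₀ (wBase A) (embO A (q * m')) q m',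
      (∀ (j : Bool) z, s.symm z ∈ twoP (wBase A) (embO A (q * m')) q m' hπ j ↔
        z ∈ twoP (wBase A) (embO A (q * m')) q m' hπ (!j)) ∧
      toLS (embO A (q * m')) (s x : Fld (embO A (q * m'))) =
        serAlg (q * m') (liftLvl hd (WMF hg₀ φ hi)) := by
  classical
  have hq : q.Prime := Fact.out
  haveI := GalRep.charP_residue (A := A) hq hA
  obtain ⟨-, hqW, hWac⟩ := wBase_props A hq hA
  haveI := hWac
  haveI := finite_oBase (A := A) (M := q * m') hq hA rfl hqm'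
  have hgen := adjoin_eq_top (A := A) (M := q * m') hq hA rfl hqm'
  have hζ := exists_wBase_pow (A := A) (M := q * m') hq hA rfl hqm'
  have hqm : ¬ q ∣ m := fun h => hqm' (h.trans hmm)
  let E := embO A (q * m')
  obtain ⟨g, hg⟩ := GalRep.Wild.exists_lowerRow hq hqm'
  obtain ⟨i, hγ⟩ := exists_cosRep_gamma0 hqm' g⁻¹
  set γ : SL(2, ℤ) := g⁻¹ * (cosRep q m' i)⁻¹ with hγdef
  let P := twoP (wBase A) E q m' hπ
  let s := (shiftW hqW hgen hζ rfl hqm' hγ).trans (wW hqW hgen hζ rfl hqm' hg)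
  have hnon : ∀ (j : Bool) z, s z ∈ (P j).nonunits ↔ z ∈ (P (!j)).nonunits := fun j z =>
    (wW_mem_nonunits hqW hgen hζ rfl hqm' hg hπ hpts.1 j _).trans
      (shiftW_mem_nonunits hqW hgen hζ rfl hqm' hπ hpts.1 hγ (!j) z)
  have hswap : ∀ (j : Bool) z, s z ∈ P j ↔ z ∈ P (!j) := fun j z => by
    rw [mem_iff_inv_notMem_nonunits, mem_iff_inv_notMem_nonunits, ← map_inv₀, map_eq_zero, hnon]
  have hswap' : ∀ (j : Bool) z, s.symm z ∈ P j ↔ z ∈ P (!j) := fun j z => by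
    have h := hswap (!j) (s.symm z)
    rw [RingEquiv.apply_symm_apply, Bool.not_not] at h
    exact h.symm
  -- the translate
  obtain ⟨t, ht0, -, hser⟩ := exists_serAlg_liftLvl hd
  have hγ0 : γ ∈ Gamma0 m' := by
    refine mul_mem ?_ (inv_mem (GalRep.Gamma_le_Gamma0 m' (cosRep_mem i)))
    refine inv_mem ?_
    rw [Gamma0_mem, hg.1, Int.cast_natCast, ZMod.natCast_self]
  have hγqm : γ ∈ Gamma0 (q * m) := by
    have h1 := MCurve.Gamma0_le_of_dvd hmm hγ0
    have hγq := hγ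
    rw [Gamma0_mem, ZMod.intCast_zmod_eq_zero_iff_dvd] at h1 hγq ⊢
    rw [Nat.cast_mul]
    exact IsCoprime.mul_dvd (Nat.isCoprime_iff_coprime.mpr
      (hq.coprime_iff_not_dvd.mpr hqm)) hγq h1
  have hmem : γ * g * g₀⁻¹ ∈ Gamma0 (q * m) := by
    rw [mul_assoc]
    refine mul_mem hγqm (mem_gamma0_of_conj _ _ ?_)
    rw [hg.1, hg.2, hg₀.1, hg₀.2]
    obtain ⟨d, rfl⟩ := hmm
    exact ⟨(d : ℤ) - 1, by push_cast; ring⟩
  have hshift : shift (q * m') (γ * g) (liftLvl hd φ) = liftLvl hd (shift (q * m) g₀ φ) := by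
    refine Subtype.ext (funext fun τ => ?_)
    rw [shift_apply, coe_liftLvl, coe_liftLvl, shift_apply]
    have := hi _ hmem (g₀ • τ)
    rwa [← mul_smul, inv_mul_cancel_right] at this
  have hsx : toLS E (s x : Fld E) = serAlg (q * m') (liftLvl hd (WMF hg₀ φ hi)) := by
    show toLS E (wW hqW hgen hζ rfl hqm' hg (shiftW hqW hgen hζ rfl hqm' hγ x) : Fld E) = _
    rw [coe_wW, toLS_wOp, coe_toO, coe_shiftW, fShift_fShift, toLS_fShift_of_eq _ _ hx, hshift,
      hser, hser, serAlg_WMF, expand_expand_comm]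
  exact ⟨s, hswap', hsx⟩

set_option maxHeartbeats 1600000 in
set_option synthInstance.maxHeartbeats 200000 in
/-- The function is a `p`-th power on every component. -/
theorem exists_comp_power (hA : A.LiesOverPrime q) (hp5 : 5 ≤ p) (hqp : q ≠ p) (hq2 : q ≠ 2)
    (hqm' : ¬ q ∣ m') (hpm' : ¬ p ∣ m') (h2 : 2 ∣ m') (h6 : 6 ≤ m') (hmm : m ∣ m')
    (hpts : ChartsSemi A q m')
    (S : Finset ℕ) (hmS : ∀ r : ℕ, r.Prime → r ∣ m → r ∈ S) (hqS : q ∈ S) (hpS : p ∈ S) (a : ℕ → ℤ)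
    (hno : ∀ χ' : ParHom m (ZMod p),
      (∀ l : GoodPrime m, (l : ℕ) ∉ S → heckeHomAt l χ' = a (l : ℕ) • χ') → χ' = 0)
    {χ : ParHom (q * m) (ZMod p)}
    (heig : ∀ l : GoodPrime (q * m), (l : ℕ) ∉ S → heckeHomAt l χ = a (l : ℕ) • χ)
    {F : ℍ → ℂ} {φ : MF (q * m)} (hF : IsRepG (Gamma0 (q * m)) p χ F)
    (hφ : (φ : ℍ → ℂ) = F ^ p) (hφ0 : φ ≠ 0) (hi : Inv0 (q * m) (φ : ℍ → ℂ)) (ha : AlgMF φ)
    (hf : InertiaFix A φ) (hr : HasPowRed A p φ)
    [IsDiscreteValuationRing (wBase A)] [IsDiscreteValuationRing (oBase A (q * m'))]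
    {π : oBase A (q * m')} (hπ : Irreducible π) (hd : q * m ∣ q * m')
    (x : Fld₀ (wBase A) (embO A (q * m')) q m')
    (hx : toLS (embO A (q * m')) (x : Fld (embO A (q * m'))) = serAlg (q * m') (liftLvl hd φ))
    (δ : SL(2, ℤ)) :
    ∃ T : Fld₀ (wBase A) (embO A (q * m')) q m',
      IsU (comp hπ δ) (T ^ p / x) ∧ rs (comp hπ δ) (T ^ p / x) = 1 := by
  classical
  have hq : q.Prime := Fact.out
  haveI := GalRep.charP_residue (A := A) hq hA
  obtain ⟨-, hqW, hWac⟩ := wBase_props A hq hA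
  haveI := hWac
  haveI := finite_oBase (A := A) (M := q * m') hq hA rfl hqm'
  have hgen := adjoin_eq_top (A := A) (M := q * m') hq hA rfl hqm'
  have hζ := exists_wBase_pow (A := A) (M := q * m') hq hA rfl hqm'
  have hqm : ¬ q ∣ m := fun h => hqm' (h.trans hmm)
  let P := twoP (wBase A) (embO A (q * m')) q m' hπ
  obtain ⟨g₀, hg₀⟩ := GalRep.Wild.exists_lowerRow hq hqm
  obtain ⟨s, hswap', hsx⟩ := exists_swap_fun hA hqm' hmm hpts hg₀ hi hπ hd x hx
  have hψ0 : WMF hg₀ φ hi ≠ 0 := fun h0 => (alR_rep hg₀ hF).ne_zero (funext fun τ => by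
    have h1 := congrFun (congrArg (fun w : MF (q * m) => (w : ℍ → ℂ)) h0) τ
    rw [coe_WMF, hφ, Wf_pow] at h1
    exact (pow_eq_zero_iff (NeZero.ne p)).mp h1)
  obtain ⟨T₀, hT₀⟩ := exists_inf_power hA hp5 hqp hq2 hqm' hpm' h2 h6 hmm hpts S hmS hqS hpS a hno
    heig hF hφ hφ0 hi ha hf hr hπ hd x hx
  obtain ⟨T₁, hT₁U, hT₁⟩ := exists_inf_power hA hp5 hqp hq2 hqm' hpm' h2 h6 hmm hpts S hmS hqS hpS a
    hno (fun l hl => GalRep.Wild.alR_eigen hg₀ l (heig l hl)) (alR_rep hg₀ hF)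
    (by rw [coe_WMF, hφ, Wf_pow]) hψ0 (by rw [coe_WMF]; exact inv0_Wf hg₀ hi)
    (algMF_WMF hg₀ hi ha) (hf.wmf hg₀ hi) (hasPowRed_wmf hg₀ hqm hi ha hr) hπ hd (s x) hsx
  have key : ∀ j, ∃ T, IsU (P j) (T ^ p / x) ∧ rs (P j) (T ^ p / x) = 1 := by
    intro j
    cases j with
    | false => exact ⟨T₀, hT₀⟩
    | true =>
      refine ⟨s.symm T₁, ?_⟩
      have e : s.symm T₁ ^ p / x = s.symm (T₁ ^ p / s x) := by
        rw [map_div₀, map_pow, RingEquiv.symm_apply_apply]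
      rw [e]
      refine ⟨(isU_swap hswap' true).mpr hT₁U, ?_⟩
      have h1 : rs (P (!true)) (T₁ ^ p / s x) = rs (P (!true)) 1 :=
        hT₁.trans (Models.rs_one (A := P (!true))).symm
      refine (rs_swap hswap' true hT₁U.1 (P (!true)).one_mem h1).trans ?_
      rw [map_one s.symm]
      exact Models.rs_one (A := P true)
  obtain ⟨T, hT⟩ := key (!decide ((q : ℤ) ∣ δ 1 0))
  refine ⟨T, ?_⟩
  rw [comp_eq_twoPW hqW rfl hqm' hπ hpts.1]
  exact hT

end Fermat.Agent.LL.Mazur
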