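/-
The Atkin-Lehner translate of classes is an involution commuting with Galois.
-/
import Fermat.Agent.GalRep.Semistable.RepTools
import Fermat.Agent.GalRep.Semistable.BadOps
import Fermat.Agent.GalRep.Semistable.Killer

set_option autoImplicit false
set_option linter.style.haveILetI false
set_option linter.unusedSectionVars false

noncomputable section

namespace Fermat.Agent.LL.Mazur

open UpperHalfPlane CongruenceSubgroup
open Fermat.Agent.Galois (GQ)
open Fermat.Agent.GalRep Fermat.Agent.GalRep.Level Fermat.Agent.GalRep.Semistable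
open Fermat.Agent.ModField (conjM conjM_spec conjM_eq)
open scoped MatrixGroups

/-- Classes whose representatives have the same power are equal. -/
theorem char_eq_of_pow {N n : ℕ} [NeZero N] [NeZero n] {χ χ' : ParHom N (ZMod n)} {F F' : ℍ → ℂ}
    (h : IsRepG (Gamma0 N) n χ F) (h' : IsRepG (Gamma0 N) n χ' F') (e : F ^ n = F' ^ n) :
    χ = χ' :=
  Subtype.ext (AddMonoidHom.ext fun x => by
    obtain ⟨γ, rfl⟩ := Additive.ofMul.surjective x
    exact char_eq_on_of_pow_eq (a := (1 : MF N)) (b := 1) h h' one_ne_zero one_ne_zero one_ne_zero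
      (fun τ => by simpa using congrFun e τ) γ fun τ => rfl)

variable {q m n : ℕ} [Fact q.Prime] [NeZero q] [NeZero m] [NeZero n] {g : SL(2, ℤ)}
  (hg : g 1 0 = m ∧ g 1 1 = q)

theorem alR_alR (χ : ParHom (q * m) (ZMod n)) : alR hg (alR hg χ) = χ := by
  obtain ⟨F, hF, -⟩ := exists_repG (n := n) χ (isLevel_gamma0 (q * m))
  refine char_eq_of_pow (alR_rep hg (alR_rep hg hF)) hF ?_
  rw [← Wf_pow, ← Wf_pow]
  exact Wf_Wf hg fun γ hγ τ => hF.isModFun_pow.invariant γ hγ τ

theorem alR_galois (t : GQ) (χ : ParHom (q * m) (ZMod n)) :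
    (kummerGalois (q * m) n).galois t (alR hg χ) = alR hg ((kummerGalois (q * m) n).galois t χ) := by
  obtain ⟨F, hF, -⟩ := exists_repG (n := n) χ (isLevel_gamma0 (q * m))
  set φ := powMF (isLevel_gamma0 (q * m)) hF
  have hi : Inv0 (q * m) (φ : ℍ → ℂ) := fun γ hγ τ => hF.isModFun_pow.invariant γ hγ τ
  rw [(kummerGalois (q * m) n).galois_eq, (kummerGalois (q * m) n).galois_eq]
  obtain ⟨G, hG, hGφ⟩ := exists_conj_rep dvd_rfl (liftAut t) hF (φ := φ) rfl
  obtain ⟨H, hH, hHφ⟩ := exists_conj_rep dvd_rfl (liftAut t) (alR_rep hg hF)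
    (φ := WMF hg φ hi) ((coe_WMF hg φ hi).trans (Wf_pow q g F n))
  refine char_eq_of_pow hH (alR_rep hg hG) ?_
  rw [← hHφ, conjM_WMF hg t φ hi, coe_WMF, hGφ, Wf_pow]

end Fermat.Agent.LL.Mazur
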